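import Fermat.Agent.TwHecke.Rel4

/-!
# The second trace and summary of the relations

For `q ∤ M` prime, `ε` a character modulo `M`, with `e = ε(q)`:

* `heckeU_degB`  : `U_q B = q res`;
* `res_heckeT`   : `res T_q = U_q res + e⁻¹ B`;
* `wq_res`, `wq_degB`, `wq_wq` : `w res = e⁻¹ B`, `w B = res`, `w² = e⁻¹`;
* `trd_res`, `trd_degB` : `tr res = q + 1`, `tr B = e T_q`;
* `trB_res`, `trB_degB` : `trB res = T_q`, `trB B = q + 1`;
* `res_trd`, `res_trB` : `res tr = 1 + e U_q w`, `res trB = U_q + w`;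
* `res_heckeH`, `degB_heckeH`, `trd_heckeH`, `trB_heckeH`, `wq_heckeH` : commutation with `T_p`.
-/

set_option autoImplicit false

noncomputable section

open CongruenceSubgroup
open scoped MatrixGroups

namespace Fermat.Agent.TwHecke

open HeckePar

variable {M q : ℕ} {R : Type*} [CommRing R] (ε : (ZMod M)ˣ →* Rˣ)
variable {A : Type*} [AddCommGroup A] [Module R A] {B : Type*} [AddCommGroup B] [Module R B]
variable (hq : q.Prime) (hM : ¬ q ∣ M)

variable (A) in
/-- The second trace `tr ∘ w_q`. -/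
def trB [NeZero q] : HM (M * q) (infl (dvd_mul_right M q) ε) A →ₗ[R] HM M ε A :=
  trd hq hM ε A ∘ₗ wq hq hM ε A

theorem trB_apply [NeZero q] (x : HM (M * q) (infl (dvd_mul_right M q) ε) A) :
    trB ε A hq hM x = trd hq hM ε A (wq hq hM ε A x) := rfl

theorem trB_map [NeZero q] (f : A →ₗ[R] B) (x : HM (M * q) (infl (dvd_mul_right M q) ε) A) :
    trB ε B hq hM (H1.map _ f x) = H1.map _ f (trB ε A hq hM x) := by
  rw [trB_apply, trB_apply, wq_map, trd_map]

/-- `trB ∘ res = T_q` -/
theorem trB_res [Fact q.Prime] [NeZero q] (x : HM M ε A) :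
    trB ε A hq hM (res (dvd_mul_right M q) ε A x) = heckeH M q ε A x := by
  rw [trB_apply, wq_res, map_smul, trd_degB, smul_smul, eps_wt, one_smul]

/-- `trB ∘ B = q + 1` -/
theorem trB_degB [NeZero q] (x : HM M ε A) :
    trB ε A hq hM (degB hq.ne_zero (dvd_refl (M * q)) ε A x) = ((q : R) + 1) • x := by
  rw [trB_apply, wq_degB, trd_res]

theorem trB_wq [NeZero q] (x : HM (M * q) (infl (dvd_mul_right M q) ε) A) :
    trB ε A hq hM (wq hq hM ε A x) = wt ε (unitOf M q) • trd hq hM ε A x := by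
  rw [trB_apply, wq_wq, map_smul]

/-- `res ∘ trB = U_q + w_q` -/
theorem res_trB [Fact q.Prime] [NeZero q]
    (x : HM (M * q) (infl (dvd_mul_right M q) ε) A) :
    res (dvd_mul_right M q) ε A (trB ε A hq hM x) =
      heckeH (M * q) q (infl (dvd_mul_right M q) ε) A x + wq hq hM ε A x := by
  rw [trB_apply, res_trd, wq_wq, map_smul, smul_smul, eps_wt', one_smul, add_comm]

/-- on the kernel of the second trace `U_q = -w_q` -/
theorem heckeU_eq_neg_wq [Fact q.Prime] [NeZero q]
    {x : HM (M * q) (infl (dvd_mul_right M q) ε) A} (hx : trB ε A hq hM x = 0) :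
    heckeH (M * q) q (infl (dvd_mul_right M q) ε) A x = -wq hq hM ε A x := by
  have h := res_trB ε hq hM x
  rw [hx, map_zero] at h
  exact eq_neg_of_add_eq_zero_left h.symm

theorem trB_heckeH {p : ℕ} [Fact p.Prime] [NeZero q] (hpq : p ≠ q)
    (x : HM (M * q) (infl (dvd_mul_right M q) ε) A) :
    trB ε A hq hM (heckeH (M * q) p (infl (dvd_mul_right M q) ε) A x) =
      heckeH M p ε A (trB ε A hq hM x) := by
  rw [trB_apply, trB_apply, wq_heckeH ε hq hM hpq, trd_heckeH ε hq hM hpq]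

/-- `res` commutes with the Hecke operators at `p ≠ q` -/
theorem res_heckeH' {p : ℕ} [Fact p.Prime] (hq : q.Prime) (hpq : p ≠ q) (x : HM M ε A) :
    res (dvd_mul_right M q) ε A (heckeH M p ε A x) =
      heckeH (M * q) p (infl (dvd_mul_right M q) ε) A (res (dvd_mul_right M q) ε A x) :=
  res_heckeH ε (dvd_mul_right M q) (dvd_iff_of_ne hq hpq).mp x

/-- `B` commutes with the Hecke operators at `p ≠ q` -/
theorem degB_heckeH' {p : ℕ} [hp : Fact p.Prime] (hq : q.Prime) (hpq : p ≠ q) (x : HM M ε A) :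
    degB hq.ne_zero (dvd_refl (M * q)) ε A (heckeH M p ε A x) =
      heckeH (M * q) p (infl (dvd_mul_right M q) ε) A
        (degB hq.ne_zero (dvd_refl (M * q)) ε A x) :=
  degB_heckeH ε hq.ne_zero (dvd_refl (M * q)) (prime_not_dvd_of_ne hq hp.out hpq)
    (dvd_iff_of_ne hq hpq) x

end Fermat.Agent.TwHecke

end
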