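import Fermat.Agent.TwHecke.Mat
import Fermat.Agent.HeckePar.Commute

/-!
# Hecke operators on `H¹(Γ₀(M), A(ε))`
-/

set_option autoImplicit false

noncomputable section

open Matrix.SpecialLinearGroup CongruenceSubgroup
open scoped MatrixGroups

namespace Fermat.Agent.TwHecke

open HeckePar

/-- helper87's coset system as a correspondence. -/
def heckeCorr (M p : ℕ) [Fact p.Prime] : Corr (Gamma0 M) (Gamma0 M) (HIdx M p) where
  act := (heckeSys M p).act
  coc := (heckeSys M p).coc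
  act_one := (heckeSys M p).act_one
  act_mul := (heckeSys M p).act_mul
  coc_mul := (heckeSys M p).coc_mul

theorem heckeCorr_isRep (M p : ℕ) [hp : Fact p.Prime] :
    IsRep (heckeCorr M p) (fun x => intRep p x.1) where
  det_pos x := by rw [det_intRep]; exact_mod_cast hp.out.pos
  spec g x := heckeSys_spec M p g x

theorem intRep_lower (p : ℕ) (x : Option (ZMod p)) : intRep p x 1 0 = 0 := by
  cases x <;> simp

/-- the unit attached to a Hecke coset: `1` for `[1 j; 0 p]`, `p` for `[p 0; 0 1]`. -/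
def hu (M p : ℕ) (x : HIdx M p) : (ZMod M)ˣ := unitOf M (intRep p x.1 0 0)

theorem val_hu {M p : ℕ} [hp : Fact p.Prime] (x : HIdx M p) :
    (hu M p x : ZMod M) = ((intRep p x.1 0 0 : ℤ) : ZMod M) := by
  apply val_unitOf
  obtain ⟨x, hx⟩ := x
  cases x with
  | none => exact isUnit_prime hp.out fun h => hx h rfl
  | some j => simp

@[simp] theorem hu_some (M p : ℕ) (j : ZMod p) (h : p ∣ M → some j ≠ none) :
    hu M p ⟨some j, h⟩ = 1 := by simp [hu]

@[simp] theorem hu_none (M p : ℕ) (h : p ∣ M → (none : Option (ZMod p)) ≠ none) :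
    hu M p ⟨none, h⟩ = unitOf M p := by simp [hu]

/-- compatibility of the `a`-entries in a matrix identity -/
theorem a_compat {M : ℕ} {Γ Γ' : Subgroup SL(2, ℤ)} {X : Type*} {S : Corr Γ Γ' X}
    {r : X → Matrix (Fin 2) (Fin 2) ℤ} (hS : IsRep S r) (α : Γ →* (ZMod M)ˣ)
    (α' : Γ' →* (ZMod M)ˣ) (hα : ∀ g, (α g : ZMod M) = (((g : SL(2, ℤ)) 0 0 : ℤ) : ZMod M))
    (hα' : ∀ g, (α' g : ZMod M) = (((g : SL(2, ℤ)) 0 0 : ℤ) : ZMod M))
    (hlow' : ∀ g : Γ', (((g : SL(2, ℤ)) 1 0 : ℤ) : ZMod M) = 0)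
    (hlow : ∀ x, ((r x 1 0 : ℤ) : ZMod M) = 0)
    (u : X → (ZMod M)ˣ) (hu : ∀ x, (u x : ZMod M) = ((r x 0 0 : ℤ) : ZMod M)) (g : Γ') (x : X) :
    u x * α' g = α (S.coc g x) * u (S.act g x) := by
  have h1 := congrFun (congrFun (hS.spec g x) 0) 0
  rw [entry_mul, entry_mul] at h1
  have h2 := congrArg (Int.cast : ℤ → ZMod M) h1
  push_cast at h2
  rw [hlow, hlow', mul_zero, mul_zero, add_zero, add_zero] at h2
  apply Units.ext
  rw [Units.val_mul, Units.val_mul, hα, hα', hu, hu, h2]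

section Op

variable (M p : ℕ) [hp : Fact p.Prime] {R : Type*} [CommRing R] (ε : (ZMod M)ˣ →* Rˣ)
variable (A : Type*) [AddCommGroup A] [Module R A] {B : Type*} [AddCommGroup B] [Module R B]

theorem hu_compat (g : Gamma0 M) (x : HIdx M p) :
    hu M p x * aMap M g = aMap M ((heckeCorr M p).coc g x) * hu M p ((heckeCorr M p).act g x) :=
  a_compat (heckeCorr_isRep M p) (aMap M) (aMap M) (fun _ => rfl) (fun _ => rfl) (fun g => g.2)
    (fun x => by rw [intRep_lower, Int.cast_zero]) _ val_hu g x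

/-- the weight of the Hecke correspondence -/
theorem hecke_isWeight :
    (heckeCorr M p).IsWeight (chr M ε) (chr M ε) (fun x => wt ε (hu M p x)) :=
  isWeight_wt ε _ _ _ _ (hu_compat M p)

/-- The Hecke operator at `p` on cocycles (`T_p` if `p ∤ M`, `U_p` if `p ∣ M`). -/
def heckeZ : Module.End R (ZM M ε A) := (heckeCorr M p).Ztr A (hecke_isWeight M p ε)

/-- The Hecke operator at `p` on `H¹(Γ₀(M), A(ε))` (`T_p` if `p ∤ M`, `U_p` if `p ∣ M`). -/
def heckeH : Module.End R (HM M ε A) := (heckeCorr M p).tr A (hecke_isWeight M p ε)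

variable {A}

theorem heckeZ_apply (c : ZM M ε A) (g : Gamma0 M) :
    heckeZ M p ε A c g = ∑ x : HIdx M p, wt ε (hu M p x) • c ((heckeSys M p).coc g x) := rfl

theorem heckeH_mk (c : ZM M ε A) : heckeH M p ε A (H1.mk c) = H1.mk (heckeZ M p ε A c) := rfl

theorem heckeZ_map (f : A →ₗ[R] B) (c : ZM M ε A) :
    heckeZ M p ε B (Z1.map _ f c) = Z1.map _ f (heckeZ M p ε A c) :=
  Corr.Ztr_map _ _ _ _

theorem heckeH_map (f : A →ₗ[R] B) (x : HM M ε A) :
    heckeH M p ε B (H1.map _ f x) = H1.map _ f (heckeH M p ε A x) :=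
  Corr.tr_map _ _ _ _

/-- the degree of the Hecke operator: `p` if `p ∣ M`, `p + ε(p)⁻¹` otherwise. -/
def hdeg : R := ∑ x : HIdx M p, wt ε (hu M p x)

theorem hdeg_of_dvd (h : p ∣ M) : hdeg M p ε = (p : R) := by
  have : NeZero p := ⟨hp.out.ne_zero⟩
  rw [hdeg, ← Equiv.sum_comp (hidxEquivOfDvd h).symm]
  have : ∀ j : ZMod p, wt ε (hu M p ((hidxEquivOfDvd h).symm j)) = (1 : R) := by
    intro j
    rw [show (hidxEquivOfDvd h).symm j = ⟨some j, fun _ => by simp⟩ from rfl, hu_some, wt_one]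
  simp only [this, Finset.sum_const, Finset.card_univ, ZMod.card, nsmul_eq_mul, mul_one]

theorem hdeg_of_not_dvd (h : ¬ p ∣ M) : hdeg M p ε = (p : R) + wt ε (unitOf M p) := by
  have : NeZero p := ⟨hp.out.ne_zero⟩
  rw [hdeg, ← Equiv.sum_comp (hidxEquivOfNotDvd h).symm, Fintype.sum_option]
  have h1 : ∀ j : ZMod p, wt ε (hu M p ((hidxEquivOfNotDvd h).symm (some j))) = (1 : R) := by
    intro j
    rw [show (hidxEquivOfNotDvd h).symm (some j) = ⟨some j, fun _ => by simp⟩ from rfl, hu_some,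
      wt_one]
  have h2 : hu M p ((hidxEquivOfNotDvd h).symm none) = unitOf M p := hu_none M p _
  simp only [h1, h2, Finset.sum_const, Finset.card_univ, ZMod.card, nsmul_eq_mul, mul_one]
  ring

theorem heckeZ_cobd (a : A) :
    heckeZ M p ε A (cobd (chr M ε) A a) = cobd (chr M ε) A (hdeg M p ε • a) :=
  Corr.Ztr_cobd _ _ _

/-- The Hecke operator on connecting classes is multiplication by the degree, if the coefficient
map is injective: if `f ∘ c` is a coboundary then so is `f ∘ (T_p c - deg · c)`, of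
`0`; in particular `T_p c = deg · c` in `Z¹` -/
theorem heckeZ_of_map_eq_cobd (f : A →ₗ[R] B) (hf : Function.Injective f) {c : ZM M ε A} {b : B}
    (h : Z1.map _ f c = cobd (chr M ε) B b) : heckeZ M p ε A c = hdeg M p ε • c := by
  have h1 : Z1.map _ f (heckeZ M p ε A c) = cobd (chr M ε) B (hdeg M p ε • b) :=
    Corr.Ztr_connecting _ _ f h
  rw [map_smul, ← h, ← map_smul] at h1
  ext g
  exact hf (congrArg (fun c : ZM M ε B => c g) h1)

end Op

section Commute

variable {M p q : ℕ} [hp : Fact p.Prime] [hq : Fact q.Prime]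

theorem pInj_comp (hpq : p ≠ q) : PInj (Gamma0 M)
    (fun z : HIdx M p × HIdx M q => intRep p z.1.1 * intRep q z.2.1) := by
  refine pInj_of_det ((p : ℤ) * q) (by exact_mod_cast mul_pos hp.out.pos hq.out.pos)
    (fun z => by rw [Matrix.det_mul, det_intRep, det_intRep]) ?_
  rintro ⟨x, y⟩ ⟨x', y'⟩ c h
  obtain ⟨h1, h2⟩ := comp_inj (N := M) hpq x x' y y' c (by
    rw [← Units.val_inj, Units.val_mul, Units.val_mul, Units.val_mul, heckeSys_rep, heckeSys_rep,
      heckeSys_rep, heckeSys_rep, val_hrep hp.out.ne_zero, val_hrep hq.out.ne_zero,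
      val_hrep hp.out.ne_zero, val_hrep hq.out.ne_zero, val_iota, ← map_intCast_mul,
      ← map_intCast_mul, ← map_intCast_mul]
    exact congrArg (fun z : Matrix (Fin 2) (Fin 2) ℤ => z.map (Int.cast : ℤ → ℝ)) h)
  rw [h1, h2]

theorem exists_swap_mat (hpq : p ≠ q) (z : HIdx M p × HIdx M q) :
    ∃ (w : HIdx M q × HIdx M p) (c : Gamma0 M),
      intRep p z.1.1 * intRep q z.2.1 =
        ((c : SL(2, ℤ)) : Matrix (Fin 2) (Fin 2) ℤ) * (intRep q w.1.1 * intRep p w.2.1) := by
  obtain ⟨w, c, h⟩ := exists_swap (N := M) hpq z.1 z.2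
  refine ⟨w, c, ?_⟩
  rw [← Units.val_inj, Units.val_mul, Units.val_mul, Units.val_mul, heckeSys_rep, heckeSys_rep,
    heckeSys_rep, heckeSys_rep, val_hrep hp.out.ne_zero, val_hrep hq.out.ne_zero,
    val_hrep hp.out.ne_zero, val_hrep hq.out.ne_zero, val_iota, ← map_intCast_mul,
    ← map_intCast_mul, ← map_intCast_mul] at h
  exact map_intCast_injective h

variable {R : Type*} [CommRing R] (ε : (ZMod M)ˣ →* Rˣ)
variable {A : Type*} [AddCommGroup A] [Module R A]

variable (M p q) in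
/-- The Hecke operators commute. -/
theorem heckeH_comm (x : HM M ε A) :
    heckeH M p ε A (heckeH M q ε A x) = heckeH M q ε A (heckeH M p ε A x) := by
  by_cases hpq : p = q
  · subst hpq; rfl
  have hqp : q ≠ p := fun h => hpq h.symm
  choose F κ hF using exists_swap_mat (M := M) (p := p) (q := q) hpq
  have hFinj : Function.Injective F := by
    intro z w hzw
    have h1 := hF z
    have h2 := hF w
    rw [hzw] at h1
    refine pInj_comp (M := M) hpq z w (κ z * (κ w)⁻¹) 1 1 one_pos one_pos ?_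
    rw [one_smul, one_smul]
    show intRep p z.1.1 * intRep q z.2.1 = _ * (intRep p w.1.1 * intRep q w.2.1)
    rw [h1, h2, coe_mul_mul, coe_inv_mul_cancel]
  have hFbij : Function.Bijective F :=
    (Fintype.bijective_iff_injective_and_card F).mpr ⟨hFinj, by
      rw [Fintype.card_prod, Fintype.card_prod, mul_comm]⟩
  have e1 : heckeH M q ε A (heckeH M p ε A x) =
      ((heckeCorr M p).comp (heckeCorr M q)).tr A
        ((hecke_isWeight M p ε).comp (hecke_isWeight M q ε)) x :=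
    (Corr.tr_comp _ _ _ _ x).symm
  have e2 : heckeH M p ε A (heckeH M q ε A x) =
      ((heckeCorr M q).comp (heckeCorr M p)).tr A
        ((hecke_isWeight M q ε).comp (hecke_isWeight M p ε)) x :=
    (Corr.tr_comp _ _ _ _ x).symm
  rw [e1, e2]
  symm
  have hS := (heckeCorr_isRep M p).comp (heckeCorr_isRep M q)
  have hT := (heckeCorr_isRep M q).comp (heckeCorr_isRep M p)
  refine Corr.tr_eq_of_equiv _ _ _ _ (Equiv.ofBijective F hFbij) κ (fun g z => ?_) (fun z => ?_) x
  · exact (coc_eq hS hT (pInj_comp hqp) F κ (fun z => ⟨1, 1, one_pos, one_pos, by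
      rw [one_smul, one_smul]; exact hF z⟩) g z).2
  · show wt ε (hu M q (F z).1) * wt ε (hu M p (F z).2) =
      wt ε (hu M p z.1) * wt ε (hu M q z.2) * (ε (aMap M (κ z)) : R)
    rw [← wt_mul, ← wt_mul]
    have h1 : hu M p z.1 * hu M q z.2 =
        aMap M (κ z) * (hu M q (F z).1 * hu M p (F z).2) := by
      have h2 := congrFun (congrFun (hF z) 0) 0
      rw [entry_mul, entry_mul, entry_mul, entry_mul] at h2
      simp only [intRep_lower, mul_zero, zero_mul, add_zero] at h2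
      have h3 := congrArg (Int.cast : ℤ → ZMod M) h2
      push_cast at h3
      apply Units.ext
      simp only [Units.val_mul, val_hu, val_aMap]
      exact h3
    rw [h1, wt_mul_eps]

end Commute

section Alg

variable (M : ℕ) {R : Type*} [CommRing R] (ε : (ZMod M)ˣ →* Rˣ)
variable (A : Type*) [AddCommGroup A] [Module R A] {B : Type*} [AddCommGroup B] [Module R B]

/-- The Hecke operator attached to a prime, as a bundled prime. -/
def heckeP (ℓ : Nat.Primes) : Module.End R (HM M ε A) :=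
  haveI : Fact (ℓ : ℕ).Prime := ⟨ℓ.2⟩
  heckeH M ℓ ε A

theorem heckeP_eq (ℓ : ℕ) [hℓ : Fact ℓ.Prime] : heckeP M ε A ⟨ℓ, hℓ.out⟩ = heckeH M ℓ ε A := rfl

theorem heckeP_commute (ℓ ℓ' : Nat.Primes) : Commute (heckeP M ε A ℓ) (heckeP M ε A ℓ') := by
  have : Fact (ℓ : ℕ).Prime := ⟨ℓ.2⟩
  have : Fact (ℓ' : ℕ).Prime := ⟨ℓ'.2⟩
  exact LinearMap.ext fun x => heckeH_comm M ℓ ℓ' ε x

variable {A}

theorem heckeP_map (ℓ : Nat.Primes) (f : A →ₗ[R] B) (x : HM M ε A) :
    heckeP M ε B ℓ (H1.map _ f x) = H1.map _ f (heckeP M ε A ℓ x) := by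
  have : Fact (ℓ : ℕ).Prime := ⟨ℓ.2⟩
  exact heckeH_map M ℓ ε f x

end Alg

end Fermat.Agent.TwHecke

end
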