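import Fermat.Agent.TwHecke.Semi
import Fermat.Agent.TwHecke.Main
import Fermat.Agent.S16.Lift

/-!
# Parabolic classes in `H¹(Γ₀(M), A(ε))` and the Hecke operators

* `heckeZ_par` : for `ℓ` an odd prime, `ℓ ≡ 1 (mod M)`, `ℓ` invertible in `R`, `c` a cocycle and
  `g ∈ Γ₀(M)` with `trace² = 4`:  `(T_ℓ c)(g) - (ℓ + 1) c(g) ∈ (ε(g) - 1) A`.
* `HM.par` : the submodule of the classes whose restriction to every parabolic element is a
  coboundary; `heckeH_sub_mem_par`, `heckeH_mem_par`.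
-/

set_option autoImplicit false

noncomputable section

open Matrix.SpecialLinearGroup CongruenceSubgroup
open scoped MatrixGroups

namespace Fermat.Agent.TwHecke

open HeckePar

/-! ### Cocycles and elements which act trivially -/

section Triv

variable {Γ : Type*} [Group Γ] {R : Type*} [CommRing R] {ε : Γ →* Rˣ}
variable {A : Type*} [AddCommGroup A] [Module R A]

theorem Z1.apply_pow_of_triv (c : Z1 ε A) {g : Γ} (hg : ∀ a : A, (ε g : R) • a = a) (n : ℕ) :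
    c (g ^ n) = (n : R) • c g := by
  induction n with
  | zero => simp
  | succ n ih =>
    rw [pow_succ', Z1.apply_mul, hg, ih, Nat.cast_succ, add_smul, one_smul, add_comm]

theorem Z1.apply_conj_of_triv (c : Z1 ε A) {k : Γ} (hk : ∀ a : A, (ε k : R) • a = a) (γ : Γ) :
    c (γ * k * γ⁻¹) = (ε γ : R) • c k := by
  have h1 : (ε (γ * k) : R) • (-((((ε γ)⁻¹ : Rˣ) : R) • c γ)) = - c γ := by
    rw [smul_neg, smul_smul, map_mul, Units.val_mul, mul_right_comm, Units.mul_inv, one_mul, hk]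
  rw [Z1.apply_mul, Z1.apply_mul, Z1.apply_inv, h1]
  abel

theorem pow_triv {g : Γ} (hg : ∀ a : A, (ε g : R) • a = a) (n : ℕ) (a : A) :
    (ε (g ^ n) : R) • a = a := by
  induction n with
  | zero => simp
  | succ n ih => rw [pow_succ, map_mul, Units.val_mul, mul_smul, hg, ih]

end Triv

/-! ### Representatives adapted to a cusp -/

section Cusp

/-- the matrices `[ℓ 0; 0 1]`, `[1 j(1-ℓ); 0 ℓ]` -/
def uRep (ℓ : ℕ) : Option (ZMod ℓ) → Matrix (Fin 2) (Fin 2) ℤ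
  | none => !![(ℓ : ℤ), 0; 0, 1]
  | some j => !![1, (j.val : ℤ) * (1 - ℓ); 0, (ℓ : ℤ)]

/-- the exponents -/
def uExp (ℓ : ℕ) : Option (ZMod ℓ) → ℕ
  | none => ℓ ^ 2
  | some _ => 1

theorem uRep_comm (ℓ : ℕ) (y : Option (ZMod ℓ)) (h : ℤ) :
    uRep ℓ y * ((ModularGroup.T ^ (h * ℓ) : SL(2, ℤ)) : Matrix (Fin 2) (Fin 2) ℤ) =
      ((ModularGroup.T ^ (h * uExp ℓ y) : SL(2, ℤ)) : Matrix (Fin 2) (Fin 2) ℤ) * uRep ℓ y := by
  rw [ModularGroup.coe_T_zpow, ModularGroup.coe_T_zpow]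
  cases y with
  | none =>
    ext i j
    fin_cases i <;> fin_cases j <;>
      (simp [uRep, uExp, Matrix.mul_apply, Fin.sum_univ_two, sq]; try ring)
  | some k =>
    ext i j
    fin_cases i <;> fin_cases j <;>
      simp [uRep, uExp, Matrix.mul_apply, Fin.sum_univ_two, -ZMod.natCast_val] <;> ring

theorem uRep_eq (ℓ : ℕ) (y : Option (ZMod ℓ)) :
    ∃ k : ℤ, intRep ℓ y =
      ((ModularGroup.T ^ k : SL(2, ℤ)) : Matrix (Fin 2) (Fin 2) ℤ) * uRep ℓ y := by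
  cases y with
  | none => exact ⟨0, by simp [uRep]⟩
  | some j =>
    refine ⟨j.val, ?_⟩
    rw [ModularGroup.coe_T_zpow]
    ext i k
    fin_cases i <;> fin_cases k <;>
      simp [uRep, Matrix.mul_apply, Fin.sum_univ_two, -ZMod.natCast_val] <;> ring

theorem det_uRep (ℓ : ℕ) (y : Option (ZMod ℓ)) : (uRep ℓ y).det = ℓ := by
  cases y <;> simp [uRep, Matrix.det_fin_two_of]

theorem map_uRep {M ℓ : ℕ} (hM : (ℓ : ZMod M) = 1) (y : Option (ZMod ℓ)) :
    (Int.castRingHom (ZMod M)).mapMatrix (uRep ℓ y) = 1 := by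
  cases y with
  | none =>
    ext i j
    fin_cases i <;> fin_cases j <;> simp [uRep, hM]
  | some k =>
    ext i j
    fin_cases i <;> fin_cases j <;> simp [uRep, hM, -ZMod.natCast_val]

variable {M ℓ : ℕ} [hℓ : Fact ℓ.Prime]

theorem exists_uRep (hM : (ℓ : ZMod M) = 1) (s : SL(2, ℤ)) (x : Option (ZMod ℓ)) :
    ∃ (y : Option (ZMod ℓ)) (γ : Gamma0 M), aMap M γ = 1 ∧
      intRep ℓ x * (s : Matrix (Fin 2) (Fin 2) ℤ) =
        ((γ * s : SL(2, ℤ)) : Matrix (Fin 2) (Fin 2) ℤ) * uRep ℓ y := by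
  obtain ⟨y, M', hM', hdet, -, -⟩ := exists_factor (N := 1) hℓ.out
    (intRep ℓ x * (s : Matrix (Fin 2) (Fin 2) ℤ)) 1 (by
      rw [← Matrix.det_fin_two, Matrix.det_mul, det_intRep, Matrix.SpecialLinearGroup.det_coe])
    (by simp) (fun h => absurd (Nat.dvd_one.mp h) hℓ.out.one_lt.ne')
  obtain ⟨k, hk⟩ := uRep_eq ℓ y.1
  let m : SL(2, ℤ) := ⟨M', by rw [Matrix.det_fin_two]; exact hdet⟩
  let γ : SL(2, ℤ) := m * ModularGroup.T ^ k * s⁻¹
  have hγs : γ * s = m * ModularGroup.T ^ k := by simp [γ]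
  have h1 : intRep ℓ x * (s : Matrix (Fin 2) (Fin 2) ℤ) =
      ((γ * s : SL(2, ℤ)) : Matrix (Fin 2) (Fin 2) ℤ) * uRep ℓ y.1 := by
    rw [hM', hk, hγs, Matrix.SpecialLinearGroup.coe_mul, Matrix.mul_assoc]
  have h2 := congrArg (Int.castRingHom (ZMod M)).mapMatrix h1
  rw [map_mul, map_mul, map_uRep hM, mul_one, Matrix.SpecialLinearGroup.coe_mul, map_mul] at h2
  have h3 : (Int.castRingHom (ZMod M)).mapMatrix (intRep ℓ x) =
      (Int.castRingHom (ZMod M)).mapMatrix (γ : Matrix (Fin 2) (Fin 2) ℤ) := by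
    have h4 := congrArg (fun z => z * (Int.castRingHom (ZMod M)).mapMatrix
      ((s⁻¹ : SL(2, ℤ)) : Matrix (Fin 2) (Fin 2) ℤ)) h2
    have h5 : (Int.castRingHom (ZMod M)).mapMatrix (s : Matrix (Fin 2) (Fin 2) ℤ) *
        (Int.castRingHom (ZMod M)).mapMatrix
          ((s⁻¹ : SL(2, ℤ)) : Matrix (Fin 2) (Fin 2) ℤ) = 1 := by
      rw [← map_mul, ← Matrix.SpecialLinearGroup.coe_mul, mul_inv_cancel,
        Matrix.SpecialLinearGroup.coe_one, map_one]
    simpa only [Matrix.mul_assoc, h5, mul_one] using h4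
  have h10 : (((γ : SL(2, ℤ)) 1 0 : ℤ) : ZMod M) = 0 := by
    have h6 := congrFun (congrFun h3 1) 0
    have h7 : (Int.castRingHom (ZMod M)).mapMatrix (intRep ℓ x) 1 0 = 0 := by
      show ((intRep ℓ x 1 0 : ℤ) : ZMod M) = 0
      rw [intRep_lower, Int.cast_zero]
    rw [h7] at h6
    exact h6.symm
  have h00 : (((γ : SL(2, ℤ)) 0 0 : ℤ) : ZMod M) = 1 := by
    have h6 := congrFun (congrFun h3 0) 0
    have h7 : (Int.castRingHom (ZMod M)).mapMatrix (intRep ℓ x) 0 0 = 1 := by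
      show ((intRep ℓ x 0 0 : ℤ) : ZMod M) = 1
      cases x with
      | none => simp [hM]
      | some j => simp
    rw [h7] at h6
    exact h6.symm
  exact ⟨y.1, ⟨γ, h10⟩, aMap_eq_iff.mpr h00, h1⟩

omit hℓ in
theorem mat_conj_identity {P u : Matrix (Fin 2) (Fin 2) ℤ} {s C T₁ T₂ : SL(2, ℤ)}
    (h1 : P * (s : Matrix (Fin 2) (Fin 2) ℤ) = (C : Matrix (Fin 2) (Fin 2) ℤ) * u)
    (h2 : u * (T₁ : Matrix (Fin 2) (Fin 2) ℤ) = (T₂ : Matrix (Fin 2) (Fin 2) ℤ) * u) :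
    P * ((s * T₁ * s⁻¹ : SL(2, ℤ)) : Matrix (Fin 2) (Fin 2) ℤ) =
      ((C * T₂ * C⁻¹ : SL(2, ℤ)) : Matrix (Fin 2) (Fin 2) ℤ) * P := by
  have hC : ((C⁻¹ : SL(2, ℤ)) : Matrix (Fin 2) (Fin 2) ℤ) *
      (C : Matrix (Fin 2) (Fin 2) ℤ) = 1 := by
    rw [← Matrix.SpecialLinearGroup.coe_mul, inv_mul_cancel, Matrix.SpecialLinearGroup.coe_one]
  have hs : (s : Matrix (Fin 2) (Fin 2) ℤ) *
      ((s⁻¹ : SL(2, ℤ)) : Matrix (Fin 2) (Fin 2) ℤ) = 1 := by
    rw [← Matrix.SpecialLinearGroup.coe_mul, mul_inv_cancel, Matrix.SpecialLinearGroup.coe_one]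
  have h3 : u * ((s⁻¹ : SL(2, ℤ)) : Matrix (Fin 2) (Fin 2) ℤ) =
      ((C⁻¹ : SL(2, ℤ)) : Matrix (Fin 2) (Fin 2) ℤ) * P := by
    have h4 : u = ((C⁻¹ : SL(2, ℤ)) : Matrix (Fin 2) (Fin 2) ℤ) *
        (P * (s : Matrix (Fin 2) (Fin 2) ℤ)) := by
      rw [h1, ← Matrix.mul_assoc, hC, Matrix.one_mul]
    conv_lhs => rw [h4]
    rw [Matrix.mul_assoc, Matrix.mul_assoc, hs, Matrix.mul_one]
  rw [Matrix.SpecialLinearGroup.coe_mul, Matrix.SpecialLinearGroup.coe_mul,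
    Matrix.SpecialLinearGroup.coe_mul, Matrix.SpecialLinearGroup.coe_mul, ← Matrix.mul_assoc,
    ← Matrix.mul_assoc, h1, Matrix.mul_assoc (C : Matrix (Fin 2) (Fin 2) ℤ), h2,
    Matrix.mul_assoc, Matrix.mul_assoc, h3]
  simp only [Matrix.mul_assoc]

omit hℓ in
theorem odd_uExp (hodd : Odd ℓ) (y : Option (ZMod ℓ)) : Odd (uExp ℓ y) := by
  cases y with
  | none => exact hodd.pow
  | some j => exact odd_one

theorem sum_uExp : ∑ y : Option (ZMod ℓ), uExp ℓ y = ℓ * (ℓ + 1) := by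
  have : NeZero ℓ := ⟨hℓ.out.ne_zero⟩
  rw [Fintype.sum_option]
  simp only [uExp, Finset.sum_const, Finset.card_univ, ZMod.card, smul_eq_mul, mul_one]
  ring

/-- powers of a parabolic element -/
theorem pow_par {g s : SL(2, ℤ)} {h : ℤ} :
    ∀ n : ℕ, Odd n → (g = s * ModularGroup.T ^ h * s⁻¹ →
      g ^ n = s * ModularGroup.T ^ (h * n) * s⁻¹) ∧ (g = -(s * ModularGroup.T ^ h * s⁻¹) →
      g ^ n = -(s * ModularGroup.T ^ (h * n) * s⁻¹)) := by
  intro n hn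
  have h1 : (s * ModularGroup.T ^ h * s⁻¹) ^ n = s * ModularGroup.T ^ (h * n) * s⁻¹ := by
    rw [conj_pow, ← zpow_natCast, ← zpow_mul]
  refine ⟨fun h => ?_, fun h => ?_⟩
  · rw [h, h1]
  · rw [h, hn.neg_pow, h1]

theorem exists_coc_pow (hM : (ℓ : ZMod M) = 1) (hodd : Odd ℓ) (g : Gamma0 M)
    (hg : ((g : SL(2, ℤ)) : Matrix (Fin 2) (Fin 2) ℤ).trace ^ 2 = 4) :
    ∃ (F : HIdx M ℓ → Option (ZMod ℓ)) (γ : HIdx M ℓ → Gamma0 M), Function.Bijective F ∧
      ∀ x, aMap M (γ x) = 1 ∧ (heckeSys M ℓ).act (g ^ ℓ) x = x ∧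
        (heckeSys M ℓ).coc (g ^ ℓ) x = γ x * g ^ (uExp ℓ (F x)) * (γ x)⁻¹ := by
  obtain ⟨s, h, hgs⟩ := Fermat.Agent.S16.exists_conj_T_zpow (g : SL(2, ℤ)) hg
  choose F γ hγ1 hγ using exists_uRep (M := M) hM s
  have hcast : ∀ (x y : Option (ZMod ℓ)) (c : SL(2, ℤ)),
      intRep ℓ x = (c : Matrix (Fin 2) (Fin 2) ℤ) * intRep ℓ y → x = y := by
    intro x y c hc
    refine intRep_unique hℓ.out 1 (fun h2 => ?_) (c : Matrix (Fin 2) (Fin 2) ℤ) _ _
      (by rw [one_smul, hc])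
    have h3 : ℓ ∣ 1 := by exact_mod_cast h2
    exact hℓ.out.one_lt.ne' (Nat.dvd_one.mp h3)
  have hFinj : Function.Injective F := by
    intro x y hxy
    have h1 := hγ x
    rw [hxy] at h1
    refine hcast x y ((γ x : SL(2, ℤ)) * (γ y : SL(2, ℤ))⁻¹) ?_
    refine mul_right_cancel_of_det (C := (s : Matrix (Fin 2) (Fin 2) ℤ))
      (by rw [Matrix.SpecialLinearGroup.det_coe]; exact one_pos) ?_
    have h2 : (γ x : SL(2, ℤ)) * s =
        (γ x : SL(2, ℤ)) * (γ y : SL(2, ℤ))⁻¹ * ((γ y : SL(2, ℤ)) * s) := by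
      rw [mul_assoc, inv_mul_cancel_left]
    rw [h1, Matrix.mul_assoc, hγ y, ← Matrix.mul_assoc, ← Matrix.SpecialLinearGroup.coe_mul, h2]
  have hℓM : ¬ ℓ ∣ M := by
    intro hdvd
    have h1 := congrArg (ZMod.castHom hdvd (ZMod ℓ)) hM
    rw [map_natCast, map_one, ZMod.natCast_self] at h1
    have : Fact (1 < ℓ) := ⟨hℓ.out.one_lt⟩
    exact zero_ne_one h1
  have : NeZero ℓ := ⟨hℓ.out.ne_zero⟩
  have hFbij : Function.Bijective F :=
    (Fintype.bijective_iff_injective_and_card F).mpr ⟨hFinj, rfl⟩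
  refine ⟨fun x => F x.1, fun x => γ x.1, ?_, fun x => ?_⟩
  · exact hFbij.comp (hidxEquivOfNotDvd hℓM).bijective
  · have h1 : intRep ℓ x.1 * ((g ^ ℓ : Gamma0 M) : SL(2, ℤ)) =
        (((γ x.1 * g ^ (uExp ℓ (F x.1)) * (γ x.1)⁻¹ : Gamma0 M) : SL(2, ℤ)) :
          Matrix (Fin 2) (Fin 2) ℤ) * intRep ℓ x.1 := by
      have h2 := mat_conj_identity (hγ x.1) (uRep_comm ℓ (F x.1) h)
      have hp := pow_par (g := (g : SL(2, ℤ))) (s := s) (h := h) ℓ hodd
      have hp' := pow_par (g := (g : SL(2, ℤ))) (s := s) (h := h) (uExp ℓ (F x.1)) (odd_uExp hodd _)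
      rw [Subgroup.coe_pow, Subgroup.coe_mul, Subgroup.coe_mul, Subgroup.coe_pow,
        Subgroup.coe_inv]
      rcases hgs with hgs | hgs
      · have h3 : (γ x.1 : SL(2, ℤ)) *
            (s * ModularGroup.T ^ (h * (uExp ℓ (F x.1) : ℤ)) * s⁻¹) * (γ x.1 : SL(2, ℤ))⁻¹ =
            (γ x.1 : SL(2, ℤ)) * s * ModularGroup.T ^ (h * (uExp ℓ (F x.1) : ℤ)) *
              ((γ x.1 : SL(2, ℤ)) * s)⁻¹ := by
          group
        rw [hp.1 hgs, hp'.1 hgs, h2, h3]
      · rw [hp.2 hgs, hp'.2 hgs]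
        have h3 : (γ x.1 : SL(2, ℤ)) *
            -(s * ModularGroup.T ^ (h * (uExp ℓ (F x.1) : ℤ)) * s⁻¹) * (γ x.1 : SL(2, ℤ))⁻¹ =
            -((γ x.1 : SL(2, ℤ)) * s * ModularGroup.T ^ (h * (uExp ℓ (F x.1) : ℤ)) *
              ((γ x.1 : SL(2, ℤ)) * s)⁻¹) := by
          rw [mul_neg, neg_mul]
          congr 1
          group
        rw [h3, Matrix.SpecialLinearGroup.coe_neg, Matrix.SpecialLinearGroup.coe_neg,
          Matrix.mul_neg, Matrix.neg_mul, h2]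
    have h2 := heckeSys_spec M ℓ (g ^ ℓ) x
    rw [h1] at h2
    have h3 : (heckeSys M ℓ).act (g ^ ℓ) x = x := by
      refine Subtype.ext (hcast _ _ (((((heckeSys M ℓ).coc (g ^ ℓ) x)⁻¹ *
        (γ x.1 * g ^ (uExp ℓ (F x.1)) * (γ x.1)⁻¹) : Gamma0 M)) : SL(2, ℤ)) ?_)
      rw [coe_mul_mul, h2, coe_inv_mul_cancel]
    refine ⟨hγ1 _, h3, ?_⟩
    rw [h3] at h2
    exact (Subtype.ext (Subtype.ext (mul_right_cancel_of_det (by
      rw [det_intRep]; exact_mod_cast hℓ.out.pos) h2))).symm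

end Cusp

/-! ### The main statement -/

section Main

variable {M ℓ : ℕ} [hℓ : Fact ℓ.Prime] {R : Type*} [CommRing R] {ε : (ZMod M)ˣ →* Rˣ}
variable {A : Type*} [AddCommGroup A] [Module R A]

/-- the case where `ε(g)` acts trivially -/
theorem heckeZ_par_aux (hM : (ℓ : ZMod M) = 1) (hodd : Odd ℓ) (hu : IsUnit (ℓ : R))
    (g : Gamma0 M) (hg : ((g : SL(2, ℤ)) : Matrix (Fin 2) (Fin 2) ℤ).trace ^ 2 = 4)
    (hε : ∀ a : A, (chr M ε g : R) • a = a) (c : ZM M ε A) :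
    heckeZ M ℓ ε A c g = ((ℓ : R) + 1) • c g := by
  obtain ⟨F, γ, hF, hγ⟩ := exists_coc_pow hM hodd g hg
  have hwt : ∀ x : HIdx M ℓ, wt ε (TwHecke.hu M ℓ x) = (1 : R) := by
    intro x
    have h1 : TwHecke.hu M ℓ x = 1 := by
      apply Units.ext
      rw [val_hu, Units.val_one]
      obtain ⟨x, hx⟩ := x
      cases x with
      | none => simp [hM]
      | some j => simp
    rw [h1, wt_one]
  have h1 : heckeZ M ℓ ε A c (g ^ ℓ) = ((ℓ : R) * ((ℓ : R) + 1)) • c g := by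
    rw [heckeZ_apply]
    have h2 : ∀ x : HIdx M ℓ, wt ε (TwHecke.hu M ℓ x) • c ((heckeSys M ℓ).coc (g ^ ℓ) x) =
        ((uExp ℓ (F x) : ℕ) : R) • c g := by
      intro x
      rw [hwt, one_smul, (hγ x).2.2, Z1.apply_conj_of_triv c (pow_triv hε _),
        Z1.apply_pow_of_triv c hε]
      have h3 : chr M ε (γ x) = 1 := by
        show ε (aMap M (γ x)) = 1
        rw [(hγ x).1, map_one]
      rw [h3, Units.val_one, one_smul]
    rw [Finset.sum_congr rfl fun x _ => h2 x, ← Finset.sum_smul, ← Nat.cast_sum,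
      hF.sum_comp (fun y => uExp ℓ y), sum_uExp]
    push_cast
    rfl
  rw [Z1.apply_pow_of_triv _ hε, mul_smul] at h1
  exact hu.smul_left_cancel.mp h1

/-- **(PAR)** on cocycles -/
theorem heckeZ_par (hM : (ℓ : ZMod M) = 1) (hodd : Odd ℓ) (hu : IsUnit (ℓ : R))
    (g : Gamma0 M) (hg : ((g : SL(2, ℤ)) : Matrix (Fin 2) (Fin 2) ℤ).trace ^ 2 = 4)
    (c : ZM M ε A) :
    ∃ a : A, heckeZ M ℓ ε A c g - ((ℓ : R) + 1) • c g = (chr M ε g : R) • a - a := by
  let f : A →ₗ[R] A := ((chr M ε g : R)) • LinearMap.id - LinearMap.id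
  let D : Submodule R A := LinearMap.range f
  have hε : ∀ b : A ⧸ D, (chr M ε g : R) • b = b := by
    intro b
    obtain ⟨a, rfl⟩ := Submodule.mkQ_surjective D b
    rw [← map_smul, ← sub_eq_zero, ← map_sub, Submodule.mkQ_apply, Submodule.Quotient.mk_eq_zero]
    exact ⟨a, rfl⟩
  have h1 := heckeZ_par_aux hM hodd hu g hg hε (Z1.map _ D.mkQ c)
  rw [heckeZ_map, Z1.map_apply, Z1.map_apply, ← map_smul, ← sub_eq_zero, ← map_sub,
    Submodule.mkQ_apply, Submodule.Quotient.mk_eq_zero] at h1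
  obtain ⟨a, ha⟩ := h1
  exact ⟨a, ha.symm⟩

end Main

/-! ### Parabolic classes -/

section Orbits

/-- a sum over a finite set vanishes if the sums over the cycles of a permutation vanish -/
theorem sum_eq_zero_of_cycles {X B : Type*} [Fintype X] [AddCommGroup B] (σ : Equiv.Perm X)
    (F : X → B) (h : ∀ (x : X) (n : ℕ), 0 < n → (σ ^ n) x = x →
      ∑ i ∈ Finset.range n, F ((σ ^ i) x) = 0) : ∑ x, F x = 0 := by
  classical
  refine Finset.sum_cancels_of_partition_cancels (Equiv.Perm.SameCycle.setoid σ) ?_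
  intro x _
  obtain ⟨n, hn, hnx⟩ : ∃ n : ℕ, 0 < n ∧ (σ ^ n) x = x :=
    ⟨orderOf σ, orderOf_pos σ, by rw [pow_orderOf_eq_one]; rfl⟩
  have hex : ∃ n : ℕ, 0 < n ∧ (σ ^ n) x = x := ⟨n, hn, hnx⟩
  obtain ⟨hm, hmx⟩ := Nat.find_spec hex
  set m := Nat.find hex with hmdef
  have hmin : ∀ k : ℕ, 0 < k → k < m → (σ ^ k) x ≠ x := by
    intro k hk hkm hkx
    exact Nat.find_min hex hkm ⟨hk, hkx⟩
  rw [← h x m hm hmx]
  symm
  refine Finset.sum_bij (fun i _ => (σ ^ i) x) ?_ ?_ ?_ ?_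
  · intro i _
    rw [Finset.mem_filter]
    have h1 : Equiv.Perm.SameCycle σ x ((σ ^ i) x) := ⟨(i : ℤ), by simp⟩
    exact ⟨Finset.mem_univ _, h1.symm⟩
  · intro i hi j hj hij
    rw [Finset.mem_range] at hi hj
    rcases lt_trichotomy i j with hlt | heq | hgt
    · exfalso
      refine hmin (j - i) (by omega) (by omega) ?_
      have h1 : (σ ^ i) ((σ ^ (j - i)) x) = (σ ^ i) x := by
        rw [← Equiv.Perm.mul_apply, ← pow_add, Nat.add_sub_cancel' hlt.le]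
        exact hij.symm
      exact (σ ^ i).injective h1
    · exact heq
    · exfalso
      refine hmin (i - j) (by omega) (by omega) ?_
      have h1 : (σ ^ j) ((σ ^ (i - j)) x) = (σ ^ j) x := by
        rw [← Equiv.Perm.mul_apply, ← pow_add, Nat.add_sub_cancel' hgt.le]
        exact hij
      exact (σ ^ j).injective h1
  · intro y hy
    rw [Finset.mem_filter] at hy
    have h1 : Equiv.Perm.SameCycle σ x y := Equiv.Perm.SameCycle.symm hy.2
    obtain ⟨k, hk⟩ := h1.exists_nat_pow_eq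
    refine ⟨k % m, Finset.mem_range.mpr (Nat.mod_lt _ hm), ?_⟩
    have h2 : ∀ j : ℕ, (σ ^ (m * j)) x = x := by
      intro j
      induction j with
      | zero => simp
      | succ j ih => rw [Nat.mul_succ, pow_add, Equiv.Perm.mul_apply, hmx, ih]
    rw [← hk]
    conv_rhs => rw [← Nat.mod_add_div k m]
    rw [pow_add, Equiv.Perm.mul_apply, h2]
  · intro i _
    rfl

end Orbits

section ParAt

variable {Γ Γ' : Type*} [Group Γ] [Group Γ'] {R : Type*} [CommRing R]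
  {ε : Γ →* Rˣ} {ε' : Γ' →* Rˣ} {A : Type*} [AddCommGroup A] [Module R A] {X : Type*}

/-- the restriction of the cocycle to the cyclic group generated by `g` is a coboundary -/
def ParAt (c : Z1 ε A) (g : Γ) : Prop := ∃ a : A, c g = (ε g : R) • a - a

theorem ParAt.add {c d : Z1 ε A} {g : Γ} (hc : ParAt c g) (hd : ParAt d g) :
    ParAt (c + d) g := by
  obtain ⟨a, ha⟩ := hc
  obtain ⟨b, hb⟩ := hd
  refine ⟨a + b, ?_⟩
  rw [Z1.add_apply, ha, hb, smul_add]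
  abel

theorem ParAt.smul {c : Z1 ε A} {g : Γ} (hc : ParAt c g) (r : R) : ParAt (r • c) g := by
  obtain ⟨a, ha⟩ := hc
  refine ⟨r • a, ?_⟩
  rw [Z1.smul_apply, ha, smul_sub, smul_comm]

theorem ParAt.cobd (a : A) (g : Γ) : ParAt (cobd ε A a) g := ⟨a, rfl⟩

theorem ParAt.zero (g : Γ) : ParAt (0 : Z1 ε A) g := ⟨0, by simp⟩

theorem ParAt.map {B : Type*} [AddCommGroup B] [Module R B] {c : Z1 ε A} {g : Γ}
    (hc : ParAt c g) (f : A →ₗ[R] B) : ParAt (Z1.map ε f c) g := by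
  obtain ⟨a, ha⟩ := hc
  exact ⟨f a, by rw [Z1.map_apply, ha, map_sub, map_smul]⟩

theorem Corr.act_pow (S : Corr Γ Γ' X) (g : Γ') (n : ℕ) (x : X) :
    S.act (g ^ n) x = (S.perm g ^ n) x := by
  induction n generalizing x with
  | zero => simp [S.act_one]
  | succ n ih =>
    rw [pow_succ', S.act_mul, ih, pow_succ, Equiv.Perm.mul_apply]
    rfl

/-- the transfer preserves the parabolicity -/
theorem Corr.parAt [Fintype X] (S : Corr Γ Γ' X) {w : X → R} (hw : S.IsWeight ε ε' w)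
    (c : Z1 ε A) (g : Γ')
    (h : ∀ (n : ℕ) (x : X), 0 < n → S.act (g ^ n) x = x → ParAt c (S.coc (g ^ n) x)) :
    ParAt (S.Ztr A hw c) g := by
  let f : A →ₗ[R] A := ((ε' g : R)) • LinearMap.id - LinearMap.id
  let D : Submodule R A := LinearMap.range f
  have hε : ∀ b : A ⧸ D, (ε' g : R) • b = b := by
    intro b
    obtain ⟨a, rfl⟩ := Submodule.mkQ_surjective D b
    rw [← map_smul, ← sub_eq_zero, ← map_sub, Submodule.mkQ_apply, Submodule.Quotient.mk_eq_zero]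
    exact ⟨a, rfl⟩
  suffices h0 : ∑ x, w x • (Z1.map ε D.mkQ c) (S.coc g x) = 0 by
    have h1 : S.Ztr (A ⧸ D) hw (Z1.map ε D.mkQ c) g = 0 := h0
    rw [S.Ztr_map hw, Z1.map_apply, Submodule.mkQ_apply, Submodule.Quotient.mk_eq_zero] at h1
    obtain ⟨a, ha⟩ := h1
    exact ⟨a, ha.symm⟩
  refine sum_eq_zero_of_cycles (S.perm g) _ ?_
  intro x n hn hnx
  have key : ∀ m : ℕ, ∑ i ∈ Finset.range m,
      w ((S.perm g ^ i) x) • (Z1.map ε D.mkQ c) (S.coc g ((S.perm g ^ i) x)) =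
        w x • (Z1.map ε D.mkQ c) (S.coc (g ^ m) x) := by
    intro m
    induction m with
    | zero =>
      rw [Finset.sum_range_zero, pow_zero, S.coc_one, Z1.apply_one, smul_zero]
    | succ m ih =>
      rw [Finset.sum_range_succ, ih, pow_succ, S.coc_mul, Z1.apply_mul, smul_add, smul_smul,
        hw (g ^ m) x, mul_smul, pow_triv hε, S.act_pow]
  rw [key n]
  rw [← S.act_pow] at hnx
  obtain ⟨a, ha⟩ := (h n x hn hnx).map D.mkQ
  have h2 := hw (g ^ n) x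
  rw [hnx] at h2
  rw [ha, smul_sub, smul_smul, h2, mul_smul, pow_triv hε, sub_self]

end ParAt

section Par

/-- parabolic elements of `SL₂(ℤ)` (including `± 1`) -/
def IsPar (g : SL(2, ℤ)) : Prop := (g : Matrix (Fin 2) (Fin 2) ℤ).trace ^ 2 = 4

theorem isPar_conj_T (s : SL(2, ℤ)) (h : ℤ) : IsPar (s * ModularGroup.T ^ h * s⁻¹) := by
  unfold IsPar
  have h1 := Fermat.Agent.S16.trace_conj (ModularGroup.T ^ h) s⁻¹
  rw [inv_inv] at h1
  rw [h1, Fermat.Agent.S16.trace_T_zpow]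
  norm_num

theorem IsPar.neg {g : SL(2, ℤ)} (hg : IsPar g) : IsPar (-g) := by
  unfold IsPar at *
  rw [Matrix.SpecialLinearGroup.coe_neg, Matrix.trace_neg, neg_sq, hg]

theorem IsPar.pow {g : SL(2, ℤ)} (hg : IsPar g) (n : ℕ) : IsPar (g ^ n) := by
  obtain ⟨s, h, hs⟩ := Fermat.Agent.S16.exists_conj_T_zpow g hg
  have h1 : IsPar ((s * ModularGroup.T ^ h * s⁻¹) ^ n) := by
    rw [conj_pow, ← zpow_natCast, ← zpow_mul]
    exact isPar_conj_T _ _
  rcases hs with hs | hs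
  · rw [hs]; exact h1
  · rw [hs]
    rcases n.even_or_odd with hn | hn
    · rw [hn.neg_pow]; exact h1
    · rw [hn.neg_pow]; exact h1.neg

theorem trace_eq_of_mul_eq {P G C : Matrix (Fin 2) (Fin 2) ℤ} (hP : 0 < P.det)
    (h : P * G = C * P) : G.trace = C.trace := by
  have h1 : (P.adjugate * (P * G)).trace = (P.adjugate * (C * P)).trace := by rw [h]
  have h2 : (P.adjugate * (P * G)).trace = P.det * G.trace := by
    rw [← Matrix.mul_assoc, Matrix.adjugate_mul, Matrix.smul_mul, Matrix.one_mul,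
      Matrix.trace_smul, smul_eq_mul]
  have h3 : (P.adjugate * (C * P)).trace = P.det * C.trace := by
    rw [Matrix.trace_mul_comm, Matrix.mul_assoc, Matrix.mul_adjugate, Matrix.mul_smul,
      Matrix.mul_one, Matrix.trace_smul, smul_eq_mul]
  rw [h2, h3] at h1
  exact mul_left_cancel₀ hP.ne' h1

variable {Γ Γ' : Subgroup SL(2, ℤ)} {R : Type*} [CommRing R]
  (ε : Γ →* Rˣ) {ε' : Γ' →* Rˣ} (A : Type*) [AddCommGroup A] [Module R A] {X : Type*}

/-- the cocycles whose restriction to every parabolic element is a coboundary -/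
def Z1.par : Submodule R (Z1 ε A) where
  carrier := {c | ∀ g : Γ, IsPar (g : SL(2, ℤ)) → ParAt c g}
  zero_mem' g _ := ParAt.zero g
  add_mem' hc hd g hg := (hc g hg).add (hd g hg)
  smul_mem' r _ hc g hg := (hc g hg).smul r

/-- the parabolic classes -/
def H1.par : Submodule R (H1 ε A) := (Z1.par ε A).map (H1.mkQ ε A)

variable {ε A}

theorem Z1.mem_par {c : Z1 ε A} :
    c ∈ Z1.par ε A ↔ ∀ g : Γ, IsPar (g : SL(2, ℤ)) → ParAt c g := Iff.rfl

theorem H1.mk_mem_par {c : Z1 ε A} : H1.mk c ∈ H1.par ε A ↔ c ∈ Z1.par ε A := by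
  constructor
  · rintro ⟨d, hd, hdc⟩
    rw [H1.mkQ_apply, H1.mk_eq_mk] at hdc
    obtain ⟨a, ha⟩ := hdc
    have h1 : c = d + cobd ε A (-a) := by
      rw [map_neg, ha]; abel
    rw [h1]
    exact (Z1.par ε A).add_mem hd fun g _ => ParAt.cobd _ _
  · intro h
    exact ⟨c, h, rfl⟩

/-- correspondences given by integral matrices preserve the parabolic classes -/
theorem Corr.tr_mem_par [Fintype X] {S : Corr Γ Γ' X} {r : X → Matrix (Fin 2) (Fin 2) ℤ}
    (hS : IsRep S r) {w : X → R} (hw : S.IsWeight ε ε' w) {z : H1 ε A} (hz : z ∈ H1.par ε A) :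
    S.tr A hw z ∈ H1.par ε' A := by
  induction z using H1.ind with
  | h c =>
  rw [H1.mk_mem_par] at hz
  rw [Corr.tr_mk, H1.mk_mem_par]
  intro g hg
  refine S.parAt hw c g fun n x _ hnx => hz _ ?_
  have h1 := hS.spec (g ^ n) x
  rw [hnx] at h1
  have h2 := trace_eq_of_mul_eq (hS.det_pos x) h1
  have h3 := hg.pow n
  unfold IsPar at h3 ⊢
  rw [← h2]
  exact h3

end Par

section HM

variable {M : ℕ} {R : Type*} [CommRing R] (ε : (ZMod M)ˣ →* Rˣ)
variable (A : Type*) [AddCommGroup A] [Module R A]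

variable (M) in
/-- the parabolic classes in `H¹(Γ₀(M), A(ε))` -/
abbrev HM.par : Submodule R (HM M ε A) := H1.par (chr M ε) A

variable {ε A}

/-- the Hecke operators preserve the parabolic classes -/
theorem heckeH_mem_par (p : ℕ) [Fact p.Prime] {x : HM M ε A} (hx : x ∈ HM.par M ε A) :
    heckeH M p ε A x ∈ HM.par M ε A :=
  Corr.tr_mem_par (heckeCorr_isRep M p) _ hx

/-- **(PAR)**: for `ℓ ≡ 1 (mod M)`, `T_ℓ - (ℓ + 1)` maps the cohomology to parabolic classes -/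
theorem heckeH_sub_mem_par {ℓ : ℕ} [hℓ : Fact ℓ.Prime] (hM : (ℓ : ZMod M) = 1) (hodd : Odd ℓ)
    (hu : IsUnit (ℓ : R)) (x : HM M ε A) :
    heckeH M ℓ ε A x - ((ℓ : R) + 1) • x ∈ HM.par M ε A := by
  induction x using H1.ind with
  | h c =>
  rw [heckeH_mk, ← H1.mk_smul, ← H1.mk_sub, H1.mk_mem_par]
  intro g hg
  exact heckeZ_par hM hodd hu g hg c

/-- coefficient maps preserve the parabolic classes -/
theorem H1.map_mem_par {Γ : Subgroup SL(2, ℤ)} {η : Γ →* Rˣ} {B : Type*} [AddCommGroup B]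
    [Module R B] (f : A →ₗ[R] B) {x : H1 η A} (hx : x ∈ H1.par η A) :
    H1.map η f x ∈ H1.par η B := by
  induction x using H1.ind with
  | h c =>
  rw [H1.mk_mem_par] at hx
  rw [H1.map_mk, H1.mk_mem_par]
  exact fun g hg => (hx g hg).map f

/-- semilinear changes of coefficients preserve the parabolic classes -/
theorem HM.mapₛ_mem_par {R' : Type*} [CommRing R'] {σ : R →+* R'} {ε' : (ZMod M)ˣ →* R'ˣ}
    {A' : Type*} [AddCommGroup A'] [Module R' A'] (h : ∀ u, (ε' u : R') = σ (ε u))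
    (f : A →ₛₗ[σ] A') {x : HM M ε A} (hx : x ∈ HM.par M ε A) :
    HM.mapₛ h f x ∈ HM.par M ε' A' := by
  induction x using H1.ind with
  | h c =>
  rw [H1.mk_mem_par] at hx
  rw [HM.mapₛ_mk, H1.mk_mem_par]
  intro g hg
  obtain ⟨a, ha⟩ := hx g hg
  refine ⟨f a, ?_⟩
  rw [Z1.mapₛ_apply, ha, map_sub, LinearMap.map_smulₛₗ]
  congr 2
  exact (h (aMap M g)).symm

theorem res_mem_par {M' : ℕ} (h : M ∣ M') {x : HM M ε A} (hx : x ∈ HM.par M ε A) :
    res h ε A x ∈ HM.par M' (infl h ε) A :=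
  Corr.tr_mem_par (resCorr_isRep h) _ hx

theorem degB_mem_par {M' q : ℕ} (hq : q ≠ 0) (h : M * q ∣ M') {x : HM M ε A}
    (hx : x ∈ HM.par M ε A) : degB hq h ε A x ∈ HM.par M' (infl (dvd_of_mul h) ε) A :=
  Corr.tr_mem_par (bCorr_isRep hq h) _ hx

theorem trd_mem_par {q : ℕ} (hq : q.Prime) (hM : ¬ q ∣ M) [NeZero q]
    {x : HM (M * q) (infl (dvd_mul_right M q) ε) A}
    (hx : x ∈ HM.par (M * q) (infl (dvd_mul_right M q) ε) A) :
    trd hq hM ε A x ∈ HM.par M ε A :=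
  Corr.tr_mem_par (trCorr_isRep hq hM) _ hx

theorem wq_mem_par {q : ℕ} (hq : q.Prime) (hM : ¬ q ∣ M)
    {x : HM (M * q) (infl (dvd_mul_right M q) ε) A}
    (hx : x ∈ HM.par (M * q) (infl (dvd_mul_right M q) ε) A) :
    wq hq hM ε A x ∈ HM.par (M * q) (infl (dvd_mul_right M q) ε) A :=
  Corr.tr_mem_par (wCorr_isRep hq hM) _ hx

theorem trB_mem_par {q : ℕ} (hq : q.Prime) (hM : ¬ q ∣ M) [NeZero q]
    {x : HM (M * q) (infl (dvd_mul_right M q) ε) A}
    (hx : x ∈ HM.par (M * q) (infl (dvd_mul_right M q) ε) A) :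
    trB ε A hq hM x ∈ HM.par M ε A :=
  trd_mem_par hq hM (wq_mem_par hq hM hx)

theorem wT_mem_par {q : ℕ} (hq : q.Prime) (hM : ¬ q ∣ M) {ε : (ZMod (M * q))ˣ →* Rˣ}
    {x : HM (M * q) ε A} (hx : x ∈ HM.par (M * q) ε A) :
    wT hq hM ε A x ∈ HM.par (M * q) (epsW hq hM ε) A :=
  Corr.tr_mem_par (wCorr_isRep hq hM) _ hx

theorem wSemi_mem_par {q : ℕ} (hq : q.Prime) (hM : ¬ q ∣ M) {σ : R →+* R}
    {ε : (ZMod (M * q))ˣ →* Rˣ} (h : ∀ u, (ε u : R) = σ (epsW hq hM ε u)) (f : A →ₛₗ[σ] A)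
    {x : HM (M * q) ε A} (hx : x ∈ HM.par (M * q) ε A) :
    wSemi hq hM h f x ∈ HM.par (M * q) ε A :=
  HM.mapₛ_mem_par h f (wT_mem_par hq hM hx)

end HM

/-! ### Trivial character: additive homomorphisms -/

section Trivial

variable {Γ : Subgroup SL(2, ℤ)} {R : Type*} [CommRing R] {ε : Γ →* Rˣ}
variable {A : Type*} [AddCommGroup A] [Module R A]

/-- For the trivial character, the cohomology is the module of homomorphisms. -/
def H1.equivHom (hε : ∀ g, ε g = 1) : H1 ε A ≃ₗ[R] (Additive Γ →+ A) := by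
  refine LinearEquiv.ofBijective (Submodule.liftQ _
    { toFun := fun c =>
        { toFun := fun g => c.1 (Additive.toMul g)
          map_zero' := Z1.apply_one c
          map_add' := fun g h => by
            have h1 := Z1.apply_mul c (Additive.toMul g) (Additive.toMul h)
            rw [hε, Units.val_one, one_smul] at h1
            exact h1 }
      map_add' := fun c d => rfl
      map_smul' := fun r c => rfl } ?_) ⟨?_, ?_⟩
  · rintro _ ⟨a, rfl⟩
    rw [LinearMap.mem_ker]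
    ext g
    show (ε _ : R) • a - a = 0
    rw [hε, Units.val_one, one_smul, sub_self]
  · rw [← LinearMap.ker_eq_bot, LinearMap.ker_eq_bot']
    intro x
    induction x using H1.ind with
    | h c =>
    intro hc
    rw [H1.mk_eq_zero]
    refine ⟨0, ?_⟩
    rw [map_zero]
    ext g
    exact (DFunLike.congr_fun hc (Additive.ofMul g)).symm
  · intro φ
    refine ⟨H1.mk ⟨fun g => φ (Additive.ofMul g), fun g h => ?_⟩, ?_⟩
    · rw [hε, Units.val_one, one_smul]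
      exact map_add φ _ _
    · ext g; rfl

theorem H1.equivHom_mk (hε : ∀ g, ε g = 1) (c : Z1 ε A) (g : Γ) :
    H1.equivHom (A := A) hε (H1.mk c) (Additive.ofMul g) = c g := rfl

/-- parabolic classes correspond to parabolic homomorphisms -/
theorem H1.equivHom_mem_iff (hε : ∀ g, ε g = 1) (x : H1 ε A) :
    H1.equivHom (A := A) hε x ∈ ModularCurve.Period.parabolicHoms R Γ A ↔ x ∈ H1.par ε A := by
  induction x using H1.ind with
  | h c =>
  rw [H1.mk_mem_par, ModularCurve.Period.mem_parabolicHoms_iff]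
  refine forall_congr' fun g => forall_congr' fun hg => ?_
  rw [H1.equivHom_mk hε c g]
  constructor
  · intro h
    exact ⟨0, by rw [h, smul_zero, sub_zero]⟩
  · rintro ⟨a, ha⟩
    rw [ha, hε, Units.val_one, one_smul, sub_self]

end Trivial

section TrivialHecke

variable {M : ℕ} {R : Type*} [CommRing R] {A : Type*} [AddCommGroup A] [Module R A]

/-- `H¹(Γ₀(M), A) = Hom(Γ₀(M), A)` -/
def HM.equivHom {ε : (ZMod M)ˣ →* Rˣ} (hε : ε = 1) : HM M ε A ≃ₗ[R] (Additive (Gamma0 M) →+ A) :=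
  H1.equivHom fun g => by rw [hε]; rfl

theorem HM.equivHom_mk {ε : (ZMod M)ˣ →* Rˣ} (hε : ε = 1) (c : ZM M ε A) (g : Gamma0 M) :
    HM.equivHom (A := A) hε (H1.mk c) (Additive.ofMul g) = c g := rfl

/-- compatibility with the operators `addTransfer` -/
theorem HM.equivHom_heckeH {ε : (ZMod M)ˣ →* Rˣ} (hε : ε = 1) (p : ℕ) [Fact p.Prime]
    (x : HM M ε A) : HM.equivHom (A := A) hε (heckeH M p ε A x) =
      (heckeSys M p).addTransfer (HM.equivHom (A := A) hε x) := by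
  induction x using H1.ind with
  | h c =>
  ext g
  rw [heckeH_mk]
  show heckeZ M p ε A c (Additive.toMul g) = _
  rw [heckeZ_apply]
  have h1 : ∀ y : HIdx M p, wt ε (hu M p y) = (1 : R) := fun y => by
    rw [hε]
    simp [wt]
  simp only [h1, one_smul]
  rfl

theorem HM.equivHom_mem_iff {ε : (ZMod M)ˣ →* Rˣ} (hε : ε = 1) (x : HM M ε A) :
    HM.equivHom (A := A) hε x ∈ ModularCurve.Period.parabolicHoms R (Gamma0 M) A ↔
      x ∈ HM.par M ε A :=
  H1.equivHom_mem_iff _ x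

end TrivialHecke

end Fermat.Agent.TwHecke

end
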