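import Fermat.Agent.TwHecke.Main
import Mathlib.Tactic.Group

/-!
# Semilinear change of coefficients; Atkin–Lehner operator with character at `q`
-/

set_option autoImplicit false

noncomputable section

open Matrix.SpecialLinearGroup CongruenceSubgroup
open scoped MatrixGroups

namespace Fermat.Agent.TwHecke

open HeckePar

/-! ### Semilinear functoriality -/

section Semi

variable {Γ : Type*} [Group Γ] {R R' : Type*} [CommRing R] [CommRing R'] {σ : R →+* R'}
variable {ε : Γ →* Rˣ} {ε' : Γ →* R'ˣ}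
variable {A A' : Type*} [AddCommGroup A] [Module R A] [AddCommGroup A'] [Module R' A']

/-- semilinear functoriality of cocycles -/
def Z1.mapₛ (h : ∀ g, (ε' g : R') = σ (ε g)) (f : A →ₛₗ[σ] A') : Z1 ε A →ₛₗ[σ] Z1 ε' A' where
  toFun c := ⟨fun g => f (c g), fun g g' => by
    show f (c (g * g')) = f (c g) + (ε' g : R') • f (c g')
    rw [Z1.apply_mul, map_add, LinearMap.map_smulₛₗ, h]⟩
  map_add' c d := by ext g; simp
  map_smul' r c := by ext g; simp

@[simp] theorem Z1.mapₛ_apply (h : ∀ g, (ε' g : R') = σ (ε g)) (f : A →ₛₗ[σ] A') (c : Z1 ε A)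
    (g : Γ) : Z1.mapₛ h f c g = f (c g) := rfl

theorem Z1.mapₛ_cobd (h : ∀ g, (ε' g : R') = σ (ε g)) (f : A →ₛₗ[σ] A') (a : A) :
    Z1.mapₛ h f (cobd ε A a) = cobd ε' A' (f a) := by
  ext g
  simp [h]

/-- semilinear functoriality of cohomology -/
def H1.mapₛ (h : ∀ g, (ε' g : R') = σ (ε g)) (f : A →ₛₗ[σ] A') : H1 ε A →ₛₗ[σ] H1 ε' A' :=
  Submodule.mapQ _ _ (Z1.mapₛ h f) (by
    rintro _ ⟨a, rfl⟩
    exact ⟨f a, (Z1.mapₛ_cobd h f a).symm⟩)

@[simp] theorem H1.mapₛ_mk (h : ∀ g, (ε' g : R') = σ (ε g)) (f : A →ₛₗ[σ] A') (c : Z1 ε A) :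
    H1.mapₛ h f (H1.mk c) = H1.mk (Z1.mapₛ h f c) := rfl

/-- identification for equal characters -/
def H1.congr (A : Type*) [AddCommGroup A] [Module R A] {ε₁ ε₂ : Γ →* Rˣ} (h : ∀ g, ε₁ g = ε₂ g) :
    H1 ε₁ A →ₗ[R] H1 ε₂ A :=
  H1.mapₛ (σ := RingHom.id R) (fun g => by rw [h]; rfl) LinearMap.id

theorem H1.congr_mk {ε₁ ε₂ : Γ →* Rˣ} (h : ∀ g, ε₁ g = ε₂ g) (c : Z1 ε₁ A) :
    H1.congr A h (H1.mk c) = H1.mk ⟨c.1, fun g g' => by rw [← h]; exact c.2 g g'⟩ := rfl

theorem H1.congr_refl {ε₁ : Γ →* Rˣ} (h : ∀ g, ε₁ g = ε₁ g) (x : H1 ε₁ A) :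
    H1.congr A h x = x := by
  induction x using H1.ind with
  | h c => rfl

variable {Γ' : Type*} [Group Γ'] {χ : Γ' →* Rˣ} {χ' : Γ' →* R'ˣ} {X : Type*} [Fintype X]

/-- transfers commute with semilinear changes of coefficients -/
theorem Corr.tr_mapₛ (S : Corr Γ Γ' X) {w : X → R} {w' : X → R'} (hw : S.IsWeight ε χ w)
    (hw' : S.IsWeight ε' χ' w') (hww : ∀ x, w' x = σ (w x)) (h : ∀ g, (ε' g : R') = σ (ε g))
    (h' : ∀ g, (χ' g : R') = σ (χ g)) (f : A →ₛₗ[σ] A') (x : H1 ε A) :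
    S.tr A' hw' (H1.mapₛ h f x) = H1.mapₛ h' f (S.tr A hw x) := by
  induction x using H1.ind with
  | h c =>
    rw [H1.mapₛ_mk, Corr.tr_mk, Corr.tr_mk, H1.mapₛ_mk]
    congr 1
    ext g
    simp [hww]

end Semi

section SemiHecke

variable {M p : ℕ} [hp : Fact p.Prime] {R R' : Type*} [CommRing R] [CommRing R'] {σ : R →+* R'}
variable {ε : (ZMod M)ˣ →* Rˣ} {ε' : (ZMod M)ˣ →* R'ˣ}
variable {A A' : Type*} [AddCommGroup A] [Module R A] [AddCommGroup A'] [Module R' A']

theorem wt_semi (h : ∀ u, (ε' u : R') = σ (ε u)) (u : (ZMod M)ˣ) : wt ε' u = σ (wt ε u) := by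
  have h1 : ε' u = Units.map σ.toMonoidHom (ε u) := Units.ext (h u)
  rw [wt, h1, ← map_inv]
  rfl

/-- semilinear change of coefficients on `H¹(Γ₀(M), A(ε))` -/
def HM.mapₛ (h : ∀ u, (ε' u : R') = σ (ε u)) (f : A →ₛₗ[σ] A') : HM M ε A →ₛₗ[σ] HM M ε' A' :=
  H1.mapₛ (fun g => h (aMap M g)) f

theorem HM.mapₛ_mk (h : ∀ u, (ε' u : R') = σ (ε u)) (f : A →ₛₗ[σ] A') (c : ZM M ε A) :
    HM.mapₛ h f (H1.mk c) = H1.mk (Z1.mapₛ (fun g => h (aMap M g)) f c) := rfl

theorem heckeH_mapₛ (h : ∀ u, (ε' u : R') = σ (ε u)) (f : A →ₛₗ[σ] A') (x : HM M ε A) :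
    heckeH M p ε' A' (HM.mapₛ h f x) = HM.mapₛ h f (heckeH M p ε A x) :=
  Corr.tr_mapₛ _ _ _ (fun _ => wt_semi h _) _ _ _ _

end SemiHecke

/-! ### Decomposition of the units modulo `M q` -/

section WInv

variable {M q : ℕ} (hq : q.Prime) (hM : ¬ q ∣ M)

theorem units_ext_mul {M q : ℕ} (hco : Nat.Coprime M q) {u v : (ZMod (M * q))ˣ}
    (h1 : ZMod.unitsMap (dvd_mul_right M q) u = ZMod.unitsMap (dvd_mul_right M q) v)
    (h2 : ZMod.unitsMap (dvd_mul_left q M) u = ZMod.unitsMap (dvd_mul_left q M) v) : u = v := by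
  apply Units.ext
  apply (ZMod.chineseRemainder hco).injective
  have h3 : ∀ w : ZMod (M * q), ZMod.chineseRemainder hco w =
      (ZMod.castHom (dvd_mul_right M q) (ZMod M) w, ZMod.castHom (dvd_mul_left q M) (ZMod q) w) := by
    intro w
    apply Prod.ext
    · show ((RingHom.fst (ZMod M) (ZMod q)).comp (ZMod.chineseRemainder hco).toRingHom) w =
        ZMod.castHom (dvd_mul_right M q) (ZMod M) w
      congr 1
      exact Subsingleton.elim _ _
    · show ((RingHom.snd (ZMod M) (ZMod q)).comp (ZMod.chineseRemainder hco).toRingHom) w =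
        ZMod.castHom (dvd_mul_left q M) (ZMod q) w
      congr 1
      exact Subsingleton.elim _ _
  rw [h3, h3]
  exact Prod.ext (congrArg Units.val h1) (congrArg Units.val h2)

theorem exists_unit_mul {M q : ℕ} (hco : Nat.Coprime M q) (u : (ZMod M)ˣ) (v : (ZMod q)ˣ) :
    ∃ w : (ZMod (M * q))ˣ, ZMod.unitsMap (dvd_mul_right M q) w = u ∧
      ZMod.unitsMap (dvd_mul_left q M) w = v := by
  let e := (Units.mapEquiv (ZMod.chineseRemainder hco).toMulEquiv).trans MulEquiv.prodUnits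
  have k1 : ∀ w, ZMod.unitsMap (dvd_mul_right M q) w = (e w).1 := by
    intro w
    apply Units.ext
    show ZMod.castHom (dvd_mul_right M q) (ZMod M) (w : ZMod (M * q)) =
      ((RingHom.fst (ZMod M) (ZMod q)).comp (ZMod.chineseRemainder hco).toRingHom)
      (w : ZMod (M * q))
    congr 1
    exact Subsingleton.elim _ _
  have k2 : ∀ w, ZMod.unitsMap (dvd_mul_left q M) w = (e w).2 := by
    intro w
    apply Units.ext
    show ZMod.castHom (dvd_mul_left q M) (ZMod q) (w : ZMod (M * q)) =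
      ((RingHom.snd (ZMod M) (ZMod q)).comp (ZMod.chineseRemainder hco).toRingHom)
      (w : ZMod (M * q))
    congr 1
    exact Subsingleton.elim _ _
  exact ⟨e.symm (u, v), by rw [k1, e.apply_symm_apply], by rw [k2, e.apply_symm_apply]⟩

/-- The unit which is `1` modulo `M` and `u` modulo `q`. -/
def qUnit (hco : Nat.Coprime M q) (v : (ZMod q)ˣ) : (ZMod (M * q))ˣ :=
  (exists_unit_mul hco 1 v).choose

theorem unitsMap_qUnit (hco : Nat.Coprime M q) (v : (ZMod q)ˣ) :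
    ZMod.unitsMap (dvd_mul_right M q) (qUnit hco v) = 1 :=
  (exists_unit_mul hco 1 v).choose_spec.1

theorem unitsMap_qUnit' (hco : Nat.Coprime M q) (v : (ZMod q)ˣ) :
    ZMod.unitsMap (dvd_mul_left q M) (qUnit hco v) = v :=
  (exists_unit_mul hco 1 v).choose_spec.2

/-- the `q`-component of a unit, as a homomorphism -/
def qPart (hco : Nat.Coprime M q) : (ZMod (M * q))ˣ →* (ZMod (M * q))ˣ where
  toFun u := qUnit hco (ZMod.unitsMap (dvd_mul_left q M) u)
  map_one' := units_ext_mul hco (by rw [unitsMap_qUnit, map_one])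
    (by rw [unitsMap_qUnit'])
  map_mul' u v := units_ext_mul hco (by rw [unitsMap_qUnit, map_mul, unitsMap_qUnit,
    unitsMap_qUnit, mul_one]) (by rw [unitsMap_qUnit', map_mul, map_mul, unitsMap_qUnit',
    unitsMap_qUnit'])

theorem unitsMap_qPart (hco : Nat.Coprime M q) (u : (ZMod (M * q))ˣ) :
    ZMod.unitsMap (dvd_mul_right M q) (qPart hco u) = 1 := unitsMap_qUnit hco _

theorem unitsMap_qPart' (hco : Nat.Coprime M q) (u : (ZMod (M * q))ˣ) :
    ZMod.unitsMap (dvd_mul_left q M) (qPart hco u) = ZMod.unitsMap (dvd_mul_left q M) u :=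
  unitsMap_qUnit' hco _

/-- The involution of the units modulo `M q`: identity modulo `M`, inversion modulo `q`. -/
def wInv (hco : Nat.Coprime M q) : (ZMod (M * q))ˣ →* (ZMod (M * q))ˣ where
  toFun u := u * (qPart hco u)⁻¹ ^ 2
  map_one' := by simp
  map_mul' u v := by rw [map_mul, mul_inv, mul_pow]; exact mul_mul_mul_comm _ _ _ _

theorem wInv_apply (hco : Nat.Coprime M q) (u : (ZMod (M * q))ˣ) :
    wInv hco u = u * (qPart hco u)⁻¹ ^ 2 := rfl

theorem unitsMap_wInv (hco : Nat.Coprime M q) (u : (ZMod (M * q))ˣ) :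
    ZMod.unitsMap (dvd_mul_right M q) (wInv hco u) = ZMod.unitsMap (dvd_mul_right M q) u := by
  rw [wInv_apply, map_mul, map_pow, map_inv, unitsMap_qPart, inv_one, one_pow, mul_one]

theorem unitsMap_wInv' (hco : Nat.Coprime M q) (u : (ZMod (M * q))ˣ) :
    ZMod.unitsMap (dvd_mul_left q M) (wInv hco u) = (ZMod.unitsMap (dvd_mul_left q M) u)⁻¹ := by
  rw [wInv_apply, map_mul, map_pow, map_inv, unitsMap_qPart', pow_two, mul_inv_cancel_left]

theorem wInv_wInv (hco : Nat.Coprime M q) (u : (ZMod (M * q))ˣ) :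
    wInv hco (wInv hco u) = u :=
  units_ext_mul hco (by rw [unitsMap_wInv, unitsMap_wInv])
    (by rw [unitsMap_wInv', unitsMap_wInv', inv_inv])

include hq in
theorem coprime_of_not_dvd (hM : ¬ q ∣ M) : Nat.Coprime M q :=
  ((Nat.Prime.coprime_iff_not_dvd hq).mpr hM).symm

/-- the upper left entry of `W g W⁻¹` -/
theorem aMap_wHom (g : Gamma0 (M * q)) :
    aMap (M * q) (wHom hq hM g) = wInv (coprime_of_not_dvd hq hM) (aMap (M * q) g) := by
  apply units_ext_mul (coprime_of_not_dvd hq hM)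
  · rw [unitsMap_wInv]
    exact wHom_a hq hM g
  · rw [unitsMap_wInv', eq_inv_iff_mul_eq_one]
    apply Units.ext
    rw [Units.val_mul, Units.val_one]
    show (aMap' (dvd_mul_left q M) (wHom hq hM g) : ZMod q) *
      (aMap' (dvd_mul_left q M) g : ZMod q) = 1
    rw [val_aMap', val_aMap']
    have h1 := wHom_spec hq hM g
    rw [wMat, eq_mul_iff_entries, entry_mul, entry_mul, entry_mul, entry_mul] at h1
    obtain ⟨h00, h01, -, -⟩ := h1
    simp only [Matrix.of_apply, Matrix.cons_val', Matrix.cons_val_zero,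
        Matrix.cons_val_one, Matrix.cons_val_fin_one] at h00 h01
    have hw := wbd hq hM
    have hz := lower_eq_zero (dvd_mul_left q M) g
    have hd := det_SL (g : SL(2, ℤ))
    have h2 : (wHom hq hM g : SL(2, ℤ)) 0 0 = (q * (g : SL(2, ℤ)) 0 0 +
        wb hq hM * (g : SL(2, ℤ)) 1 0) * wd hq hM -
        (q * (g : SL(2, ℤ)) 0 1 + wb hq hM * (g : SL(2, ℤ)) 1 1) * M := by
      linear_combination (-wd hq hM) * h00 + M * h01 - (wHom hq hM g : SL(2, ℤ)) 0 0 * hw
    have h3 := congrArg (Int.cast : ℤ → ZMod q) h2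
    have h4 := congrArg (Int.cast : ℤ → ZMod q) hw
    have h5 := congrArg (Int.cast : ℤ → ZMod q) hd
    push_cast at h3 h4 h5
    rw [hz, ZMod.natCast_self] at h3
    rw [hz] at h5
    rw [ZMod.natCast_self] at h4
    rw [h3]
    linear_combination (((g : SL(2, ℤ)) 0 0 : ℤ) : ZMod q) *
      (((g : SL(2, ℤ)) 1 1 : ℤ) : ZMod q) * h4 + h5

/-! ### The operator -/

variable {R : Type*} [CommRing R] (ε : (ZMod (M * q))ˣ →* Rˣ)

/-- the transformed character `ε_M ε_q⁻¹` -/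
abbrev epsW : (ZMod (M * q))ˣ →* Rˣ := ε.comp (wInv (coprime_of_not_dvd hq hM))

theorem wT_isWeight (r : R) :
    (wCorr hq hM).IsWeight (chr (M * q) ε) (chr (M * q) (epsW hq hM ε)) (fun _ => r) :=
  Corr.ofHom_isWeight _ (fun g => by
    show ε (aMap (M * q) (wHom hq hM g)) =
      ε (wInv (coprime_of_not_dvd hq hM) (aMap (M * q) g))
    rw [aMap_wHom]) r

variable (A : Type*) [AddCommGroup A] [Module R A] {B : Type*} [AddCommGroup B] [Module R B]

/-- `c ↦ c(W · W⁻¹)`, from `H¹(Γ₀(M q), A(ε_M ε_q))` to `H¹(Γ₀(M q), A(ε_M ε_q⁻¹))`. -/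
def wT : HM (M * q) ε A →ₗ[R] HM (M * q) (epsW hq hM ε) A :=
  (wCorr hq hM).tr A (wT_isWeight hq hM ε 1)

/-- cocycle version -/
def wTZ : ZM (M * q) ε A →ₗ[R] ZM (M * q) (epsW hq hM ε) A :=
  (wCorr hq hM).Ztr A (wT_isWeight hq hM ε 1)

variable {A}

theorem wT_mk (c : ZM (M * q) ε A) : wT hq hM ε A (H1.mk c) = H1.mk (wTZ hq hM ε A c) := rfl

@[simp] theorem wTZ_apply (c : ZM (M * q) ε A) (g : Gamma0 (M * q)) :
    wTZ hq hM ε A c g = c (wHom hq hM g) := by
  simp [wTZ, wCorr, Corr.ofHom]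

theorem wT_map (f : A →ₗ[R] B) (x : HM (M * q) ε A) :
    wT hq hM ε B (H1.map _ f x) = H1.map _ f (wT hq hM ε A x) := Corr.tr_map _ _ _ _

/-- swapping a Hecke representative with the Atkin–Lehner matrix -/
theorem exists_w_swap {p : ℕ} [hp : Fact p.Prime] (hpq : p ≠ q) (x : HIdx (M * q) p) :
    ∃ (y : HIdx (M * q) p) (κ : Gamma0 (M * q)),
      intRep p x.1 * wMat hq hM = ((wHom hq hM κ : SL(2, ℤ)) : Matrix (Fin 2) (Fin 2) ℤ) *
        (wMat hq hM * intRep p y.1) ∧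
      hu (M * q) p x = wInv (coprime_of_not_dvd hq hM) (aMap (M * q) κ * hu (M * q) p y) *
        qUnit (coprime_of_not_dvd hq hM) (unitOf q p) := by
  have hbd := wbd hq hM
  have hpz : ¬ q ∣ p := fun h => hpq ((Nat.prime_dvd_prime_iff_eq hq hp.out).mp h).symm
  have hpu : IsUnit (((p : ℤ)) : ZMod q) := by
    rw [Int.cast_natCast]
    exact (ZMod.isUnit_iff_coprime _ _).mpr ((Nat.Prime.coprime_iff_not_dvd hq).mpr hpz).symm
  have hdetx := det_intRep p x.1
  rw [Matrix.det_fin_two, intRep_lower, mul_zero, sub_zero] at hdetx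
  obtain ⟨m, hm, hmdet, hm10, ⟨e, he⟩, e', he'⟩ : ∃ m : Matrix (Fin 2) (Fin 2) ℤ,
      intRep p x.1 * wMat hq hM = wMat hq hM * m ∧ m 0 0 * m 1 1 - m 0 1 * m 1 0 = p * 1 ∧
        ((M * q : ℕ) : ℤ) ∣ m 1 0 ∧ (∃ e : ℤ, m 0 0 = intRep p x.1 0 0 + M * e) ∧
          ∃ e' : ℤ, m 0 0 = intRep p x.1 1 1 + q * e' := by
    have hlow := intRep_lower p x.1
    generalize intRep p x.1 = r at hdetx hlow ⊢
    generalize hα : r 0 0 = α at hdetx
    generalize hβ : r 0 1 = β
    generalize hδ : r 1 1 = δ at hdetx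
    rw [wMat]
    generalize wb hq hM = b at hbd ⊢
    generalize wd hq hM = d at hbd ⊢
    refine ⟨!![d * (α * q + β * M * q) - b * δ * M, d * (α * b + β * q * d - b * δ);
      M * q * (-α - β * M + δ), -M * (α * b + β * q * d) + q * δ * d], ?_, ?_, ?_, ?_, ?_⟩
    · rw [eq_mul_iff_entries, entry_mul, entry_mul, entry_mul, entry_mul, hlow, hα, hβ, hδ]
      simp only [Matrix.of_apply, Matrix.cons_val', Matrix.cons_val_zero, Matrix.cons_val_one,
        Matrix.cons_val_fin_one]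
      refine ⟨?_, ?_, ?_, ?_⟩
      · linear_combination (-(α * q + β * M * q)) * hbd
      · linear_combination (-(α * b + β * q * d)) * hbd
      · linear_combination (-(δ * M * q)) * hbd
      · linear_combination (-(δ * q * d)) * hbd
    · simp only [Matrix.of_apply, Matrix.cons_val', Matrix.cons_val_zero, Matrix.cons_val_one,
        Matrix.cons_val_fin_one]
      linear_combination hdetx + (α * δ * (q * d - M * b + 1)) * hbd
    · simp only [Matrix.of_apply, Matrix.cons_val', Matrix.cons_val_zero, Matrix.cons_val_one,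
        Matrix.cons_val_fin_one]
      push_cast
      exact dvd_mul_right _ _
    · simp only [Matrix.of_apply, Matrix.cons_val', Matrix.cons_val_zero,
        Matrix.cons_val_fin_one]
      exact ⟨α * b + d * β * q - b * δ, by linear_combination α * hbd⟩
    · simp only [Matrix.of_apply, Matrix.cons_val', Matrix.cons_val_zero,
        Matrix.cons_val_fin_one]
      exact ⟨d * (α + β * M) - d * δ, by linear_combination δ * hbd⟩
  obtain ⟨y, M', hM', hdet, hN, -⟩ := exists_factor (N := M * q) hp.out m 1 hmdet hm10 (by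
    intro hpM hdvd
    have hpM' : p ∣ M := (dvd_iff_of_ne hq hpq).mp hpM
    rw [he, intRep_00_of_dvd x hpM] at hdvd
    have h1 : (p : ℤ) ∣ M * e := (Int.natCast_dvd_natCast.mpr hpM').mul_right e
    exact not_dvd_one ((dvd_add_left h1).mp hdvd))
  have hκ : m = ((mkG (M * q) (M' 0 0) (M' 0 1) (M' 1 0) (M' 1 1) hdet hN : SL(2, ℤ)) :
      Matrix (Fin 2) (Fin 2) ℤ) * intRep p y.1 := by
    rw [hM']
    congr 1
    exact mat_ext rfl rfl rfl rfl
  generalize mkG (M * q) (M' 0 0) (M' 0 1) (M' 1 0) (M' 1 1) hdet hN = κ at hκ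
  refine ⟨y, κ, ?_, ?_⟩
  · rw [hm, hκ, ← Matrix.mul_assoc, ← Matrix.mul_assoc, wHom_spec]
  · have h2 := congrFun (congrFun hκ 0) 0
    rw [entry_mul, intRep_lower, mul_zero, add_zero] at h2
    have hval : ∀ (d : ℕ) (hd : d ∣ M * q) (z : HIdx (M * q) p),
        ((ZMod.unitsMap hd (hu (M * q) p z) : (ZMod d)ˣ) : ZMod d) =
          ((intRep p z.1 0 0 : ℤ) : ZMod d) := by
      intro d hd z
      show ZMod.castHom hd (ZMod d) (hu (M * q) p z : ZMod (M * q)) = _
      rw [val_hu, map_intCast]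
    have hva : ∀ (d : ℕ) (hd : d ∣ M * q),
        ((ZMod.unitsMap hd (aMap (M * q) κ) : (ZMod d)ˣ) : ZMod d) =
          (((κ : SL(2, ℤ)) 0 0 : ℤ) : ZMod d) := fun d hd => val_aMap' hd κ
    apply units_ext_mul (coprime_of_not_dvd hq hM)
    · rw [map_mul, unitsMap_wInv, unitsMap_qUnit, mul_one, map_mul]
      apply Units.ext
      rw [Units.val_mul, hval, hval, hva]
      have h3 := congrArg (Int.cast : ℤ → ZMod M) (he.symm.trans h2)
      push_cast at h3
      rw [ZMod.natCast_self, zero_mul, add_zero] at h3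
      exact h3
    · rw [map_mul, unitsMap_wInv', unitsMap_qUnit', map_mul, eq_inv_mul_iff_mul_eq]
      apply Units.ext
      rw [Units.val_mul, Units.val_mul, hval, hval, hva, val_unitOf hpu]
      have h3 := congrArg (Int.cast : ℤ → ZMod q) (he'.symm.trans h2)
      have h4 := congrArg (Int.cast : ℤ → ZMod q) hdetx
      push_cast at h3 h4
      rw [ZMod.natCast_self, zero_mul, add_zero] at h3
      rw [← h3, mul_comm, h4]
      simp

/-- `ε_q(p)`: the value of the `q`-component of `ε` at `p` -/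
def epsQ (p : ℕ) : Rˣ := ε (qUnit (coprime_of_not_dvd hq hM) (unitOf q p))

/-- `T_p w = ε_q(p) w T_p` -/
theorem wT_heckeH {p : ℕ} [hp : Fact p.Prime] (hpq : p ≠ q) (x : HM (M * q) ε A) :
    heckeH (M * q) p (epsW hq hM ε) A (wT hq hM ε A x) =
      (epsQ hq hM ε p : R) • wT hq hM ε A (heckeH (M * q) p ε A x) := by
  have hqx := Units.inv_mul (epsQ hq hM ε p)
  have hqx' := Units.mul_inv (epsQ hq hM ε p)
  have hpq' : ¬ (p : ℤ) ∣ (q : ℤ) := by exact_mod_cast prime_not_dvd_of_ne hq hp.out hpq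
  have hw1 := (hecke_isWeight (M * q) p ε).comp (wT_isWeight hq hM ε 1)
  have hw2 := (wT_isWeight hq hM ε 1).comp (hecke_isWeight (M * q) p (epsW hq hM ε))
  have key : wT hq hM ε A (heckeH (M * q) p ε A x) = (((epsQ hq hM ε p)⁻¹ : Rˣ) : R) •
      heckeH (M * q) p (epsW hq hM ε) A (wT hq hM ε A x) := by
    have e1 : wT hq hM ε A (heckeH (M * q) p ε A x) =
        ((heckeCorr (M * q) p).comp (wCorr hq hM)).tr A hw1 x := (Corr.tr_comp _ _ _ _ x).symm
    have e2 : heckeH (M * q) p (epsW hq hM ε) A (wT hq hM ε A x) =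
        ((wCorr hq hM).comp (heckeCorr (M * q) p)).tr A hw2 x := (Corr.tr_comp _ _ _ _ x).symm
    rw [e1, e2, ← Corr.tr_smul _ hw2]
    refine tr_eq_of_card ((heckeCorr_isRep (M * q) p).comp (wCorr_isRep hq hM))
      ((wCorr_isRep hq hM).comp (heckeCorr_isRep (M * q) p)) ?_ ?_ hw1 (hw2.smul _) ?_ ?_ x
    · refine pInj_of_det ((p : ℤ) * q) (by exact_mod_cast mul_pos hp.out.pos hq.pos)
        (fun x => by rw [Matrix.det_mul, det_intRep, det_wMat]) ?_
      rintro ⟨x, ⟨⟩⟩ ⟨y, ⟨⟩⟩ c hc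
      rw [← Matrix.mul_assoc] at hc
      have h1 := mul_right_cancel_of_det (det_wMat_pos hq hM) hc
      have h2 := intRep_unique hp.out 1 not_dvd_one _ _ _ (by rw [one_smul]; exact h1)
      exact Prod.ext (Subtype.ext h2) rfl
    · refine pInj_of_det ((q : ℤ) * p) (by exact_mod_cast mul_pos hq.pos hp.out.pos)
        (fun x => by rw [Matrix.det_mul, det_intRep, det_wMat]) ?_
      rintro ⟨⟨⟩, x⟩ ⟨⟨⟩, y⟩ c hc
      have h1 := congrArg (fun z => (wMat hq hM).adjugate * z) hc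
      simp only [← Matrix.mul_assoc] at h1
      rw [Matrix.adjugate_mul, det_wMat, Matrix.smul_mul, Matrix.one_mul] at h1
      have h2 := intRep_unique hp.out q hpq' _ _ _ h1
      exact Prod.ext rfl (Subtype.ext h2)
    · rintro ⟨x, ⟨⟩⟩
      obtain ⟨y, κ, h1, h2⟩ := exists_w_swap hq hM hpq x
      refine ⟨((), y), wHom hq hM κ, 1, 1, one_pos, one_pos, ?_, ?_⟩
      · rw [one_smul, one_smul]
        exact h1
      · show (((epsQ hq hM ε p)⁻¹ : Rˣ) : R) * (1 * wt (epsW hq hM ε) (hu (M * q) p y)) =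
          wt ε (hu (M * q) p x) * 1 * ((ε (aMap (M * q) (wHom hq hM κ)) : Rˣ) : R)
        rw [aMap_wHom, one_mul, mul_one]
        have h3 : ((epsQ hq hM ε p)⁻¹ : Rˣ) *
            (ε (wInv (coprime_of_not_dvd hq hM) (hu (M * q) p y)))⁻¹ =
            (ε (hu (M * q) p x))⁻¹ *
              ε (wInv (coprime_of_not_dvd hq hM) (aMap (M * q) κ)) := by
          rw [h2, map_mul ε, map_mul (wInv _), map_mul ε]
          show (ε (qUnit (coprime_of_not_dvd hq hM) (unitOf q p)))⁻¹ * _ = _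
          generalize ε (qUnit (coprime_of_not_dvd hq hM) (unitOf q p)) = a
          generalize ε (wInv (coprime_of_not_dvd hq hM) (hu (M * q) p y)) = b
          generalize ε (wInv (coprime_of_not_dvd hq hM) (aMap (M * q) κ)) = c
          rw [eq_inv_mul_iff_mul_eq]
          group
        exact congrArg Units.val h3
    · rw [Fintype.card_prod, Fintype.card_prod, mul_comm]
  rw [key, smul_smul, hqx', one_smul]

/-! ### The square of the operator -/

/-- `W² = q γ` -/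
def wSq : Gamma0 (M * q) :=
  mkG (M * q) (q + wb hq hM * M) (wb hq hM * (1 + wd hq hM))
      (M * q * (1 + wd hq hM)) (M * wb hq hM + q * wd hq hM ^ 2) (by
        have hbd := wbd hq hM
        generalize wb hq hM = b at hbd ⊢
        generalize wd hq hM = d at hbd ⊢
        linear_combination (q * d - M * b + 1) * hbd) (by push_cast; exact dvd_mul_right _ _)

theorem wMat_mul_wMat : wMat hq hM * wMat hq hM =
    (q : ℤ) • ((wSq hq hM : SL(2, ℤ)) : Matrix (Fin 2) (Fin 2) ℤ) := by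
  rw [wSq, coe_mkG, wMat]
  ext i j
  fin_cases i <;> fin_cases j <;> simp [Matrix.mul_apply, Fin.sum_univ_two] <;> ring

theorem wHom_wHom (g : Gamma0 (M * q)) :
    wHom hq hM (wHom hq hM g) = wSq hq hM * g * (wSq hq hM)⁻¹ := by
  rw [eq_mul_inv_iff_mul_eq]
  refine sl_inj (B := (1 : Matrix (Fin 2) (Fin 2) ℤ)) (by simp) ?_
  rw [Matrix.mul_one, Matrix.mul_one]
  have hq0 : (q : ℤ) ≠ 0 := by exact_mod_cast hq.ne_zero
  have h1 : wMat hq hM * wMat hq hM * ((g : SL(2, ℤ)) : Matrix (Fin 2) (Fin 2) ℤ) =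
      ((wHom hq hM (wHom hq hM g) : SL(2, ℤ)) : Matrix (Fin 2) (Fin 2) ℤ) *
        (wMat hq hM * wMat hq hM) := by
    rw [Matrix.mul_assoc, wHom_spec, ← Matrix.mul_assoc, wHom_spec, Matrix.mul_assoc]
  rw [wMat_mul_wMat, Matrix.smul_mul, Matrix.mul_smul] at h1
  ext i j
  have h2 := congrFun (congrFun h1 i) j
  simp only [Matrix.smul_apply, smul_eq_mul] at h2
  exact (mul_left_cancel₀ hq0 h2).symm

/-- inner automorphisms act on `H¹` through the character -/
theorem H1.conj_eq {Γ : Type*} [Group Γ] {R : Type*} [CommRing R] {ε : Γ →* Rˣ} {A : Type*}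
    [AddCommGroup A] [Module R A] (c d : Z1 ε A) (γ : Γ) (h : ∀ g, d g = c (γ * g * γ⁻¹)) :
    H1.mk d = (ε γ : R) • H1.mk c := by
  rw [← H1.mk_smul, H1.mk_eq_mk]
  refine ⟨-c γ, ?_⟩
  ext g
  rw [cobd_apply, Z1.sub_apply, h, Z1.smul_apply, Z1.apply_mul c, Z1.apply_mul c, Z1.apply_inv,
    map_mul, Units.val_mul, smul_neg, smul_neg, smul_smul, mul_right_comm, Units.mul_inv, one_mul]
  abel

theorem wT_congr_aux (g : Gamma0 (M * q)) :
    chr (M * q) ε g = chr (M * q) (epsW hq hM (epsW hq hM ε)) g := by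
  show ε (aMap (M * q) g) = ε (wInv _ (wInv _ (aMap (M * q) g)))
  rw [wInv_wInv]

/-- `w ∘ w = ε(γ)`, `γ = (q, -1)` in `(ℤ/M)ˣ × (ℤ/q)ˣ`. -/
theorem wT_wT (x : HM (M * q) ε A) :
    wT hq hM (epsW hq hM ε) A (wT hq hM ε A x) =
      (ε (aMap (M * q) (wSq hq hM)) : R) • H1.congr A (wT_congr_aux hq hM ε) x := by
  induction x using H1.ind with
  | h c =>
    rw [wT_mk, wT_mk, H1.congr_mk]
    have h1 := H1.conj_eq (⟨c.1, fun g g' => by rw [← wT_congr_aux hq hM ε]; exact c.2 g g'⟩ :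
      ZM (M * q) (epsW hq hM (epsW hq hM ε)) A)
      (wTZ hq hM (epsW hq hM ε) A (wTZ hq hM ε A c)) (wSq hq hM) (fun g => by
        rw [wTZ_apply, wTZ_apply, wHom_wHom])
    rw [h1, ← wT_congr_aux hq hM ε]
    rfl

/-- comparison with `wq` when the character is trivial at `q` -/
theorem wT_eq_wq (ε : (ZMod M)ˣ →* Rˣ) (x : HM (M * q) (infl (dvd_mul_right M q) ε) A) :
    wT hq hM (infl (dvd_mul_right M q) ε) A x =
      H1.congr A (fun g => by
        show ε (ZMod.unitsMap (dvd_mul_right M q) (aMap (M * q) g)) =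
          ε (ZMod.unitsMap (dvd_mul_right M q) (wInv _ (aMap (M * q) g)))
        rw [unitsMap_wInv]) ((ε (unitOf M q) : R) • wq hq hM ε A x) := by
  induction x using H1.ind with
  | h c =>
    have h1 : (ε (unitOf M q) : R) • wq hq hM ε A (H1.mk c) = H1.mk ((ε (unitOf M q) : R) •
      (wCorr hq hM).Ztr A (w_isWeight hq hM ε (wt ε (unitOf M q))) c) := rfl
    rw [wT_mk, h1, H1.congr_mk]
    congr 1
    ext g
    rw [wTZ_apply]
    show c (wHom hq hM g) = ((ε (unitOf M q) : R) •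
      (wCorr hq hM).Ztr A (w_isWeight hq hM ε (wt ε (unitOf M q))) c) g
    have h2 : (wCorr hq hM).Ztr A (w_isWeight hq hM ε (wt ε (unitOf M q))) c g =
        wt ε (unitOf M q) • c (wHom hq hM g) := by
      simp [Corr.Ztr_apply, wCorr, Corr.ofHom]
    rw [Z1.smul_apply, h2, smul_smul, eps_wt', one_smul]

end WInv

/-! ### The semilinear operator -/

section SemiW

variable {M q : ℕ} (hq : q.Prime) (hM : ¬ q ∣ M)
variable {R : Type*} [CommRing R] {σ : R →+* R} {ε : (ZMod (M * q))ˣ →* Rˣ}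
variable {A : Type*} [AddCommGroup A] [Module R A]

/-- The semilinear Atkin–Lehner operator on `H¹(Γ₀(M q), A(ε))`:
`c ↦ (g ↦ f (c (W g W⁻¹)))`, where `σ ∘ ε = ε_M ε_q⁻¹` and `f` is `σ`-semilinear. -/
def wSemi (h : ∀ u, (ε u : R) = σ (epsW hq hM ε u)) (f : A →ₛₗ[σ] A) :
    HM (M * q) ε A →ₛₗ[σ] HM (M * q) ε A :=
  (HM.mapₛ h f).comp (wT hq hM ε A)

theorem wSemi_mk (h : ∀ u, (ε u : R) = σ (epsW hq hM ε u)) (f : A →ₛₗ[σ] A)
    (c : ZM (M * q) ε A) : wSemi hq hM h f (H1.mk c) =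
      H1.mk (Z1.mapₛ (fun g => h (aMap (M * q) g)) f (wTZ hq hM ε A c)) := rfl

theorem wSemi_heckeH {p : ℕ} [hp : Fact p.Prime] (hpq : p ≠ q)
    (h : ∀ u, (ε u : R) = σ (epsW hq hM ε u)) (f : A →ₛₗ[σ] A) (x : HM (M * q) ε A) :
    heckeH (M * q) p ε A (wSemi hq hM h f x) =
      σ (epsQ hq hM ε p) • wSemi hq hM h f (heckeH (M * q) p ε A x) := by
  rw [wSemi, LinearMap.comp_apply, heckeH_mapₛ, wT_heckeH _ _ _ hpq, LinearMap.map_smulₛₗ]
  rfl

theorem wSemi_wSemi (h : ∀ u, (ε u : R) = σ (epsW hq hM ε u)) (f : A →ₛₗ[σ] A)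
    (hf : ∀ a, f (f a) = a) (x : HM (M * q) ε A) :
    wSemi hq hM h f (wSemi hq hM h f x) = (ε (aMap (M * q) (wSq hq hM)) : R) • x := by
  induction x using H1.ind with
  | h c =>
    rw [wSemi_mk, wSemi_mk]
    refine H1.conj_eq c _ (wSq hq hM) (fun g => ?_)
    rw [Z1.mapₛ_apply, wTZ_apply, Z1.mapₛ_apply, wTZ_apply, hf, wHom_wHom]

end SemiW

end Fermat.Agent.TwHecke

end
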