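import Mathlib.LinearAlgebra.Quotient.Basic
import Mathlib.LinearAlgebra.Pi
import Mathlib.Algebra.Algebra.Basic
import Mathlib.Algebra.Group.Units.Hom
import Mathlib.Algebra.BigOperators.GroupWithZero.Action
import Mathlib.Algebra.Module.BigOperators
import Mathlib.Data.Fintype.BigOperators
import Mathlib.Algebra.Module.Submodule.LinearMap
import Mathlib.Tactic.Abel
import Mathlib.Tactic.Ring

/-!
# Twisted first cohomology and correspondences

`Γ` is a group, `R` a commutative ring, `ε : Γ →* Rˣ` a character, `A` an `R`-module.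

* `Z1 ε A` : crossed homomorphisms `c : Γ → A`, `c (g h) = c g + ε g • c h`;
* `cobd ε A : A →ₗ[R] Z1 ε A`, `a ↦ (g ↦ ε g • a - a)`;
* `H1 ε A` : the quotient.

A correspondence `Corr Γ Γ' X` is a finite family with a right action of `Γ'` and a `Γ`-valued
cocycle.  Together with a weight function it defines a transfer `H1 ε A →ₗ[R] H1 ε' A`.
-/

set_option autoImplicit false

noncomputable section

namespace Fermat.Agent.TwHecke

open scoped BigOperators

section Cocycles

variable {Γ : Type*} [Group Γ] {R : Type*} [CommRing R] (ε : Γ →* Rˣ)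
variable (A : Type*) [AddCommGroup A] [Module R A]
variable {B : Type*} [AddCommGroup B] [Module R B] {C : Type*} [AddCommGroup C] [Module R C]

/-- crossed homomorphisms -/
def Z1 : Submodule R (Γ → A) where
  carrier := {c | ∀ g h, c (g * h) = c g + (ε g : R) • c h}
  zero_mem' := by intro g h; simp
  add_mem' := by
    intro c d hc hd g h
    simp only [Pi.add_apply, hc g h, hd g h, smul_add]
    abel
  smul_mem' := by
    intro r c hc g h
    simp only [Pi.smul_apply, hc g h, smul_add]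
    rw [smul_comm]

variable {A} in
theorem mem_Z1 {c : Γ → A} : c ∈ Z1 ε A ↔ ∀ g h, c (g * h) = c g + (ε g : R) • c h := Iff.rfl

instance : CoeFun (Z1 ε A) (fun _ => Γ → A) := ⟨fun c => c.1⟩

variable {ε A}

@[ext] theorem Z1.ext {c d : Z1 ε A} (h : ∀ g, c g = d g) : c = d := Subtype.ext (funext h)

theorem Z1.apply_mul (c : Z1 ε A) (g h : Γ) : c (g * h) = c g + (ε g : R) • c h := c.2 g h

@[simp] theorem Z1.apply_one (c : Z1 ε A) : c 1 = 0 := by
  have h := Z1.apply_mul c 1 1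
  simp only [map_one, Units.val_one, one_smul, mul_one] at h
  exact (left_eq_add.mp h)

theorem Z1.apply_inv (c : Z1 ε A) (g : Γ) : c g⁻¹ = -((((ε g)⁻¹ : Rˣ) : R) • c g) := by
  have h := Z1.apply_mul c g⁻¹ g
  rw [inv_mul_cancel, Z1.apply_one, map_inv] at h
  exact eq_neg_of_add_eq_zero_left h.symm

@[simp] theorem Z1.add_apply (c d : Z1 ε A) (g : Γ) : (c + d) g = c g + d g := rfl
@[simp] theorem Z1.sub_apply (c d : Z1 ε A) (g : Γ) : (c - d) g = c g - d g := rfl
@[simp] theorem Z1.neg_apply (c : Z1 ε A) (g : Γ) : (-c) g = -c g := rfl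
@[simp] theorem Z1.zero_apply (g : Γ) : (0 : Z1 ε A) g = 0 := rfl
@[simp] theorem Z1.smul_apply (r : R) (c : Z1 ε A) (g : Γ) : (r • c) g = r • c g := rfl

variable (ε A)

/-- the coboundary map -/
def cobd : A →ₗ[R] Z1 ε A where
  toFun a := ⟨fun g => (ε g : R) • a - a, fun g h => by
    simp only [map_mul, Units.val_mul, smul_sub, smul_smul]
    abel⟩
  map_add' a b := by
    ext g
    simp only [smul_add, Z1.add_apply]
    abel
  map_smul' r a := by
    ext g
    simp only [Z1.smul_apply, RingHom.id_apply, smul_sub]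
    rw [smul_comm]

@[simp] theorem cobd_apply (a : A) (g : Γ) : cobd ε A a g = (ε g : R) • a - a := rfl

/-- the first cohomology group -/
abbrev H1 : Type _ := Z1 ε A ⧸ LinearMap.range (cobd ε A)

/-- the projection from cocycles to cohomology -/
def H1.mkQ : Z1 ε A →ₗ[R] H1 ε A := Submodule.mkQ _

variable {ε A}

/-- class of a cocycle -/
def H1.mk (c : Z1 ε A) : H1 ε A := Submodule.Quotient.mk c

@[simp] theorem H1.mkQ_apply (c : Z1 ε A) : H1.mkQ ε A c = H1.mk c := rfl

theorem H1.mk_surjective : Function.Surjective (H1.mk : Z1 ε A → H1 ε A) :=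
  Submodule.mkQ_surjective _

@[simp] theorem H1.mk_zero : H1.mk (0 : Z1 ε A) = 0 := rfl
theorem H1.mk_add (c d : Z1 ε A) : H1.mk (c + d) = H1.mk c + H1.mk d := rfl
theorem H1.mk_sub (c d : Z1 ε A) : H1.mk (c - d) = H1.mk c - H1.mk d := rfl
theorem H1.mk_neg (c : Z1 ε A) : H1.mk (-c) = -H1.mk c := rfl
theorem H1.mk_smul (r : R) (c : Z1 ε A) : H1.mk (r • c) = r • H1.mk c := rfl

theorem H1.mk_eq_zero {c : Z1 ε A} : H1.mk c = 0 ↔ ∃ a, cobd ε A a = c := by
  rw [H1.mk, Submodule.Quotient.mk_eq_zero, LinearMap.mem_range]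

theorem H1.mk_eq_mk {c d : Z1 ε A} : H1.mk c = H1.mk d ↔ ∃ a, cobd ε A a = c - d := by
  rw [← sub_eq_zero, ← H1.mk_sub, H1.mk_eq_zero]

@[simp] theorem H1.mk_cobd (a : A) : H1.mk (cobd ε A a) = 0 := H1.mk_eq_zero.mpr ⟨a, rfl⟩

@[elab_as_elim]
theorem H1.ind {P : H1 ε A → Prop} (h : ∀ c : Z1 ε A, P (H1.mk c)) (x : H1 ε A) : P x := by
  obtain ⟨c, rfl⟩ := H1.mk_surjective x
  exact h c

theorem H1.lin_ext {N : Type*} [AddCommGroup N] [Module R N] {f g : H1 ε A →ₗ[R] N}
    (h : ∀ c, f (H1.mk c) = g (H1.mk c)) : f = g :=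
  LinearMap.ext fun x => x.ind h

variable (ε) in
/-- functoriality of cocycles in the coefficients -/
def Z1.map (f : A →ₗ[R] B) : Z1 ε A →ₗ[R] Z1 ε B where
  toFun c := ⟨fun g => f (c g), fun g h => by
    show f (c (g * h)) = f (c g) + (ε g : R) • f (c h)
    rw [Z1.apply_mul, map_add, map_smul]⟩
  map_add' c d := by ext g; simp
  map_smul' r c := by ext g; simp

@[simp] theorem Z1.map_apply (f : A →ₗ[R] B) (c : Z1 ε A) (g : Γ) : Z1.map ε f c g = f (c g) := rfl

theorem Z1.map_cobd (f : A →ₗ[R] B) (a : A) : Z1.map ε f (cobd ε A a) = cobd ε B (f a) := by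
  ext g; simp

variable (ε) in
/-- functoriality of the cohomology in the coefficients -/
def H1.map (f : A →ₗ[R] B) : H1 ε A →ₗ[R] H1 ε B :=
  Submodule.mapQ _ _ (Z1.map ε f) (by
    rintro _ ⟨a, rfl⟩
    exact ⟨f a, (Z1.map_cobd f a).symm⟩)

@[simp] theorem H1.map_mk (f : A →ₗ[R] B) (c : Z1 ε A) :
    H1.map ε f (H1.mk c) = H1.mk (Z1.map ε f c) := rfl

theorem H1.map_id : H1.map ε (LinearMap.id : A →ₗ[R] A) = LinearMap.id :=
  H1.lin_ext fun _ => rfl

theorem H1.map_comp (f : A →ₗ[R] B) (g : B →ₗ[R] C) :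
    H1.map ε (g ∘ₗ f) = H1.map ε g ∘ₗ H1.map ε f :=
  H1.lin_ext fun _ => rfl

variable (ε A) in
/-- degree zero cohomology -/
def H0 : Submodule R A where
  carrier := {a | ∀ g, (ε g : R) • a = a}
  zero_mem' := fun g => smul_zero _
  add_mem' := fun ha hb g => by rw [smul_add, ha g, hb g]
  smul_mem' := fun r a ha g => by rw [smul_comm, ha g]

theorem mem_H0 {a : A} : a ∈ H0 ε A ↔ ∀ g, (ε g : R) • a = a := Iff.rfl

theorem cobd_eq_zero {a : A} : cobd ε A a = 0 ↔ a ∈ H0 ε A := by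
  constructor
  · intro h g
    have := congrArg (fun c : Z1 ε A => c g) h
    exact sub_eq_zero.mp this
  · intro h
    ext g
    exact sub_eq_zero.mpr (h g)

end Cocycles

/-! ### Correspondences -/

/-- A correspondence from `Γ` to `Γ'`: a right `Γ'`-set `X` with a `Γ`-valued cocycle. -/
structure Corr (Γ Γ' X : Type*) [Group Γ] [Group Γ'] where
  /-- right action of `Γ'` on the index set -/
  act : Γ' → X → X
  /-- the cocycle -/
  coc : Γ' → X → Γ
  act_one : ∀ x, act 1 x = x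
  act_mul : ∀ g h x, act (g * h) x = act h (act g x)
  coc_mul : ∀ g h x, coc (g * h) x = coc g x * coc h (act g x)

namespace Corr

variable {Γ Γ' Γ'' : Type*} [Group Γ] [Group Γ'] [Group Γ''] {X Y : Type*}

theorem coc_one (S : Corr Γ Γ' X) (x : X) : S.coc 1 x = 1 := by
  have h := S.coc_mul 1 1 x
  rw [mul_one, S.act_one] at h
  exact (left_eq_mul.mp h)

/-- the permutation attached to a group element -/
def perm (S : Corr Γ Γ' X) (g : Γ') : Equiv.Perm X where
  toFun := S.act g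
  invFun := S.act g⁻¹
  left_inv x := by rw [← S.act_mul, mul_inv_cancel, S.act_one]
  right_inv x := by rw [← S.act_mul, inv_mul_cancel, S.act_one]

@[simp] theorem perm_apply (S : Corr Γ Γ' X) (g : Γ') (x : X) : S.perm g x = S.act g x := rfl

variable {R : Type*} [CommRing R] {ε : Γ →* Rˣ} {ε' : Γ' →* Rˣ} {ε'' : Γ'' →* Rˣ}
variable (A : Type*) [AddCommGroup A] [Module R A] {B : Type*} [AddCommGroup B] [Module R B]

/-- `w` is a weight function for the correspondence, with respect to the two characters. -/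
def IsWeight (S : Corr Γ Γ' X) (ε : Γ →* Rˣ) (ε' : Γ' →* Rˣ) (w : X → R) : Prop :=
  ∀ g x, w x * (ε (S.coc g x) : R) = (ε' g : R) * w (S.act g x)

section Transfer

variable [Fintype X]

/-- transfer on cocycles -/
def Ztr (S : Corr Γ Γ' X) {w : X → R} (hw : S.IsWeight ε ε' w) : Z1 ε A →ₗ[R] Z1 ε' A where
  toFun c := ⟨fun g => ∑ x, w x • c (S.coc g x), fun g h => by
    simp only [S.coc_mul, Z1.apply_mul c, smul_add, Finset.sum_add_distrib, smul_smul, hw g,
      Finset.smul_sum]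
    congr 1
    exact Equiv.sum_comp (S.perm g) (fun x => ((ε' g : R) * w x) • c (S.coc h x))⟩
  map_add' c d := by ext g; simp [Finset.sum_add_distrib]
  map_smul' r c := by
    ext g
    simp only [Z1.smul_apply, RingHom.id_apply, Finset.smul_sum]
    exact Finset.sum_congr rfl fun x _ => smul_comm _ _ _

variable {A}

@[simp] theorem Ztr_apply (S : Corr Γ Γ' X) {w : X → R} (hw : S.IsWeight ε ε' w) (c : Z1 ε A)
    (g : Γ') : S.Ztr A hw c g = ∑ x, w x • c (S.coc g x) := rfl

/-- transfer of a coboundary -/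
theorem Ztr_cobd (S : Corr Γ Γ' X) {w : X → R} (hw : S.IsWeight ε ε' w) (a : A) :
    S.Ztr A hw (cobd ε A a) = cobd ε' A ((∑ x, w x) • a) := by
  ext g
  simp only [Ztr_apply, cobd_apply, smul_sub, smul_smul, hw g, Finset.sum_sub_distrib,
    Finset.sum_smul, Finset.smul_sum]
  congr 1
  exact Equiv.sum_comp (S.perm g) (fun x => ((ε' g : R) * w x) • a)

variable (A) in
/-- transfer on cohomology -/
def tr (S : Corr Γ Γ' X) {w : X → R} (hw : S.IsWeight ε ε' w) : H1 ε A →ₗ[R] H1 ε' A :=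
  Submodule.mapQ _ _ (S.Ztr A hw) (by
    rintro _ ⟨a, rfl⟩
    exact ⟨_, (S.Ztr_cobd hw a).symm⟩)

@[simp] theorem tr_mk (S : Corr Γ Γ' X) {w : X → R} (hw : S.IsWeight ε ε' w) (c : Z1 ε A) :
    S.tr A hw (H1.mk c) = H1.mk (S.Ztr A hw c) := rfl

/-- naturality in the coefficients -/
theorem Ztr_map (S : Corr Γ Γ' X) {w : X → R} (hw : S.IsWeight ε ε' w) (f : A →ₗ[R] B)
    (c : Z1 ε A) : S.Ztr B hw (Z1.map ε f c) = Z1.map ε' f (S.Ztr A hw c) := by
  ext g
  simp

/-- naturality in the coefficients -/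
theorem tr_map (S : Corr Γ Γ' X) {w : X → R} (hw : S.IsWeight ε ε' w) (f : A →ₗ[R] B)
    (x : H1 ε A) : S.tr B hw (H1.map ε f x) = H1.map ε' f (S.tr A hw x) := by
  induction x using H1.ind with
  | h c => rw [H1.map_mk, tr_mk, tr_mk, H1.map_mk, Ztr_map]

/-- the transfer on degree zero -/
theorem smul_mem_H0 (S : Corr Γ Γ' X) {w : X → R} (hw : S.IsWeight ε ε' w) {a : A}
    (ha : a ∈ H0 ε A) : (∑ x, w x) • a ∈ H0 ε' A := by
  rw [← cobd_eq_zero, ← S.Ztr_cobd hw, cobd_eq_zero.mpr ha, map_zero]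

/-- Hecke action on connecting classes: if `f ∘ c` is the coboundary of `a` then
`f ∘ (T c)` is the coboundary of `(∑ w) • a`. -/
theorem Ztr_connecting (S : Corr Γ Γ' X) {w : X → R} (hw : S.IsWeight ε ε' w) (f : A →ₗ[R] B)
    {c : Z1 ε A} {b : B} (h : Z1.map ε f c = cobd ε B b) :
    Z1.map ε' f (S.Ztr A hw c) = cobd ε' B ((∑ x, w x) • b) := by
  rw [← S.Ztr_map hw f, h, S.Ztr_cobd hw]

end Transfer

/-! ### Composition -/

section Comp

/-- composition of correspondences -/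
def comp (S : Corr Γ Γ' X) (T : Corr Γ' Γ'' Y) : Corr Γ Γ'' (X × Y) where
  act g p := (S.act (T.coc g p.2) p.1, T.act g p.2)
  coc g p := S.coc (T.coc g p.2) p.1
  act_one p := by simp [T.coc_one, S.act_one, T.act_one]
  act_mul g h p := by simp [T.coc_mul, T.act_mul, S.act_mul]
  coc_mul g h p := by simp [T.coc_mul, S.coc_mul]

theorem IsWeight.comp {S : Corr Γ Γ' X} {T : Corr Γ' Γ'' Y} {w : X → R} {v : Y → R}
    (hw : S.IsWeight ε ε' w) (hv : T.IsWeight ε' ε'' v) :
    (S.comp T).IsWeight ε ε'' (fun p => w p.1 * v p.2) := by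
  intro g p
  show w p.1 * v p.2 * (ε (S.coc (T.coc g p.2) p.1) : R) =
    (ε'' g : R) * (w (S.act (T.coc g p.2) p.1) * v (T.act g p.2))
  have h1 := hw (T.coc g p.2) p.1
  have h2 := hv g p.2
  calc w p.1 * v p.2 * (ε (S.coc (T.coc g p.2) p.1) : R)
      = v p.2 * (w p.1 * (ε (S.coc (T.coc g p.2) p.1) : R)) := by ring
    _ = (v p.2 * (ε' (T.coc g p.2) : R)) * w (S.act (T.coc g p.2) p.1) := by rw [h1]; ring
    _ = (ε'' g : R) * (w (S.act (T.coc g p.2) p.1) * v (T.act g p.2)) := by rw [h2]; ring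

variable {A} [Fintype X] [Fintype Y]

theorem Ztr_comp (S : Corr Γ Γ' X) (T : Corr Γ' Γ'' Y) {w : X → R} {v : Y → R}
    (hw : S.IsWeight ε ε' w) (hv : T.IsWeight ε' ε'' v) (c : Z1 ε A) :
    (S.comp T).Ztr A (hw.comp hv) c = T.Ztr A hv (S.Ztr A hw c) := by
  ext g
  simp only [Ztr_apply, Fintype.sum_prod_type_right, Finset.smul_sum, smul_smul]
  refine Finset.sum_congr rfl fun y _ => Finset.sum_congr rfl fun x _ => ?_
  rw [mul_comm]
  rfl

theorem tr_comp (S : Corr Γ Γ' X) (T : Corr Γ' Γ'' Y) {w : X → R} {v : Y → R}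
    (hw : S.IsWeight ε ε' w) (hv : T.IsWeight ε' ε'' v) (x : H1 ε A) :
    (S.comp T).tr A (hw.comp hv) x = T.tr A hv (S.tr A hw x) := by
  induction x using H1.ind with
  | h c => rw [tr_mk, tr_mk, tr_mk, Ztr_comp]

end Comp

/-! ### Comparison -/

section Compare

variable {A} [Fintype X] [Fintype Y]

/-- Comparison of two correspondences through a map of index sets. -/
theorem tr_eq_of_map [DecidableEq Y] (S : Corr Γ Γ' X) (T : Corr Γ Γ' Y) {w : X → R} {v : Y → R}
    (hw : S.IsWeight ε ε' w) (hv : T.IsWeight ε ε' v) (e : X → Y) (κ : X → Γ)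
    (hκ : ∀ g x, κ x * T.coc g (e x) = S.coc g x * κ (S.act g x))
    (hwv : ∀ y, v y = ∑ x with e x = y, w x * (ε (κ x) : R)) (z : H1 ε A) :
    S.tr A hw z = T.tr A hv z := by
  induction z using H1.ind with
  | h c =>
  rw [tr_mk, tr_mk, H1.mk_eq_mk]
  refine ⟨-∑ x, w x • c (κ x), ?_⟩
  ext g
  simp only [cobd_apply, Z1.sub_apply, Ztr_apply]
  have h1 : ∀ x, w x • c (S.coc g x) = w x • c (κ x) +
      (w x * (ε (κ x) : R)) • c (T.coc g (e x)) -
        ((ε' g : R) * w (S.act g x)) • c (κ (S.act g x)) := by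
    intro x
    have h2 := congrArg c.1 (hκ g x)
    rw [Z1.apply_mul c, Z1.apply_mul c] at h2
    rw [← hw g x, mul_smul, mul_smul, ← smul_add, ← smul_sub, h2, add_sub_cancel_right]
  have h3 : ∑ x, ((ε' g : R) * w (S.act g x)) • c (κ (S.act g x)) =
      ∑ x, ((ε' g : R) * w x) • c (κ x) :=
    Equiv.sum_comp (S.perm g) (fun x => ((ε' g : R) * w x) • c (κ x))
  have h4 : ∑ x, (w x * (ε (κ x) : R)) • c (T.coc g (e x)) = ∑ y, v y • c (T.coc g y) := by
    rw [← Finset.sum_fiberwise_of_maps_to (s := Finset.univ) (t := Finset.univ) (g := e)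
      (fun _ _ => Finset.mem_univ _)]
    refine Finset.sum_congr rfl fun y _ => ?_
    rw [hwv y, Finset.sum_smul]
    refine Finset.sum_congr rfl fun x hx => ?_
    rw [(Finset.mem_filter.mp hx).2]
  simp only [h1, Finset.sum_add_distrib, Finset.sum_sub_distrib]
  rw [h3, h4]
  simp only [smul_neg, Finset.smul_sum, mul_smul]
  abel

/-- Comparison of two correspondences through a bijection of index sets. -/
theorem tr_eq_of_equiv (S : Corr Γ Γ' X) (T : Corr Γ Γ' Y) {w : X → R} {v : Y → R}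
    (hw : S.IsWeight ε ε' w) (hv : T.IsWeight ε ε' v) (e : X ≃ Y) (κ : X → Γ)
    (hκ : ∀ g x, κ x * T.coc g (e x) = S.coc g x * κ (S.act g x))
    (hwv : ∀ x, v (e x) = w x * (ε (κ x) : R)) (z : H1 ε A) :
    S.tr A hw z = T.tr A hv z := by
  classical
  refine tr_eq_of_map S T hw hv e κ hκ (fun y => ?_) z
  have : (Finset.univ.filter fun x => e x = y) = {e.symm y} := by
    ext x
    simp only [Finset.mem_filter, Finset.mem_univ, true_and, Finset.mem_singleton]
    exact (Equiv.eq_symm_apply e).symm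
  rw [this, Finset.sum_singleton, ← hwv, e.apply_symm_apply]

end Compare

/-! ### Sums -/

section Sum

/-- disjoint union of correspondences -/
def sum (S : Corr Γ Γ' X) (T : Corr Γ Γ' Y) : Corr Γ Γ' (X ⊕ Y) where
  act g := Sum.map (S.act g) (T.act g)
  coc g := Sum.elim (S.coc g) (T.coc g)
  act_one x := by cases x <;> simp [S.act_one, T.act_one]
  act_mul g h x := by cases x <;> simp [S.act_mul, T.act_mul]
  coc_mul g h x := by cases x <;> simp [S.coc_mul, T.coc_mul]

theorem IsWeight.sum {S : Corr Γ Γ' X} {T : Corr Γ Γ' Y} {w : X → R} {v : Y → R}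
    (hw : S.IsWeight ε ε' w) (hv : T.IsWeight ε ε' v) :
    (S.sum T).IsWeight ε ε' (Sum.elim w v) := by
  rintro g (x | y)
  · exact hw g x
  · exact hv g y

theorem IsWeight.smul {S : Corr Γ Γ' X} {w : X → R} (hw : S.IsWeight ε ε' w) (r : R) :
    S.IsWeight ε ε' (fun x => r * w x) := by
  intro g x
  rw [mul_assoc, hw g x, mul_left_comm]

variable {A} [Fintype X] [Fintype Y]

theorem tr_sum (S : Corr Γ Γ' X) (T : Corr Γ Γ' Y) {w : X → R} {v : Y → R}
    (hw : S.IsWeight ε ε' w) (hv : T.IsWeight ε ε' v) (z : H1 ε A) :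
    (S.sum T).tr A (hw.sum hv) z = S.tr A hw z + T.tr A hv z := by
  induction z using H1.ind with
  | h c =>
  rw [tr_mk, tr_mk, tr_mk, ← H1.mk_add]
  congr 1
  ext g
  simp [Corr.sum]

omit [Fintype Y] in
theorem tr_smul (S : Corr Γ Γ' X) {w : X → R} (hw : S.IsWeight ε ε' w) (r : R) (z : H1 ε A) :
    S.tr A (hw.smul r) z = r • S.tr A hw z := by
  induction z using H1.ind with
  | h c =>
  rw [tr_mk, tr_mk, ← H1.mk_smul]
  congr 1
  ext g
  simp [Finset.smul_sum, mul_smul]

omit [Fintype Y] in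
theorem tr_congr (S : Corr Γ Γ' X) {w v : X → R} (hw : S.IsWeight ε ε' w)
    (hv : S.IsWeight ε ε' v) (h : w = v) (z : H1 ε A) : S.tr A hw z = S.tr A hv z := by
  subst h; rfl

end Sum

/-! ### Pull-back along a group homomorphism -/

section OfHom

/-- the correspondence attached to a group homomorphism `Γ' →* Γ` -/
def ofHom (f : Γ' →* Γ) : Corr Γ Γ' Unit where
  act _ x := x
  coc g _ := f g
  act_one _ := rfl
  act_mul _ _ _ := rfl
  coc_mul g h _ := map_mul f g h

theorem ofHom_isWeight (f : Γ' →* Γ) (h : ∀ g, ε (f g) = ε' g) (r : R) :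
    (ofHom f).IsWeight ε ε' (fun _ => r) := by
  intro g x
  show r * (ε (f g) : R) = (ε' g : R) * r
  rw [h, mul_comm]

variable {A} in
theorem Ztr_ofHom (f : Γ' →* Γ) (h : ∀ g, ε (f g) = ε' g) (r : R) (c : Z1 ε A) (g : Γ') :
    (ofHom f).Ztr A (ofHom_isWeight f h r) c g = r • c (f g) := by
  simp [ofHom]

end OfHom

end Corr

end Fermat.Agent.TwHecke

end
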