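import Fermat.Agent.TwHecke.Hecke

/-!
# Correspondences from families of integral matrices; comparison theorems
-/

set_option autoImplicit false

noncomputable section

open Matrix.SpecialLinearGroup CongruenceSubgroup
open scoped MatrixGroups

namespace Fermat.Agent.TwHecke

open HeckePar

section OfRep

variable {Γ Γ' : Subgroup SL(2, ℤ)} {X : Type*}

theorem sl_inj {g k : Γ} {B : Matrix (Fin 2) (Fin 2) ℤ} (hB : 0 < B.det)
    (h : ((g : SL(2, ℤ)) : Matrix (Fin 2) (Fin 2) ℤ) * B =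
      ((k : SL(2, ℤ)) : Matrix (Fin 2) (Fin 2) ℤ) * B) : g = k :=
  Subtype.ext (Subtype.ext (mul_right_cancel_of_det hB h))

/-- key uniqueness statement -/
theorem rep_unique {r : X → Matrix (Fin 2) (Fin 2) ℤ} (hdet : ∀ x, 0 < (r x).det)
    (inj : ∀ (x y : X) (c : Γ), r x = ((c : SL(2, ℤ)) : Matrix (Fin 2) (Fin 2) ℤ) * r y → x = y)
    {x y : X} {c d : Γ} (h : ((c : SL(2, ℤ)) : Matrix (Fin 2) (Fin 2) ℤ) * r x =
      ((d : SL(2, ℤ)) : Matrix (Fin 2) (Fin 2) ℤ) * r y) : x = y ∧ c = d := by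
  have h1 : x = y := by
    refine inj x y (c⁻¹ * d) ?_
    rw [coe_mul_mul, ← h, coe_inv_mul_cancel]
  refine ⟨h1, ?_⟩
  rw [← h1] at h
  exact sl_inj (hdet x) h

/-- A correspondence from a family of matrices. -/
def Corr.ofRep (r : X → Matrix (Fin 2) (Fin 2) ℤ) (hdet : ∀ x, 0 < (r x).det)
    (ex : ∀ (g : Γ') (x : X), ∃ (y : X) (c : Γ),
      r x * ((g : SL(2, ℤ)) : Matrix (Fin 2) (Fin 2) ℤ) =
        ((c : SL(2, ℤ)) : Matrix (Fin 2) (Fin 2) ℤ) * r y)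
    (inj : ∀ (x y : X) (c : Γ), r x = ((c : SL(2, ℤ)) : Matrix (Fin 2) (Fin 2) ℤ) * r y → x = y) :
    Corr Γ Γ' X where
  act g x := (ex g x).choose
  coc g x := (ex g x).choose_spec.choose
  act_one x := by
    have h := (ex 1 x).choose_spec.choose_spec
    have h1 : r x * (((1 : Γ') : SL(2, ℤ)) : Matrix (Fin 2) (Fin 2) ℤ) =
        (((1 : Γ) : SL(2, ℤ)) : Matrix (Fin 2) (Fin 2) ℤ) * r x := by
      show r x * 1 = 1 * r x
      rw [Matrix.mul_one, Matrix.one_mul]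
    exact (rep_unique hdet inj (h.symm.trans h1)).1
  act_mul g h x := by
    have h1 := (ex g x).choose_spec.choose_spec
    have h2 := (ex h (ex g x).choose).choose_spec.choose_spec
    have h3 := (ex (g * h) x).choose_spec.choose_spec
    refine (rep_unique hdet inj (h3.symm.trans ?_) (d := (ex g x).choose_spec.choose *
      (ex h (ex g x).choose).choose_spec.choose)).1
    rw [coe_mul_mul, ← h2, ← Matrix.mul_assoc, ← h1, Matrix.mul_assoc]
    rfl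
  coc_mul g h x := by
    have h1 := (ex g x).choose_spec.choose_spec
    have h2 := (ex h (ex g x).choose).choose_spec.choose_spec
    have h3 := (ex (g * h) x).choose_spec.choose_spec
    refine (rep_unique hdet inj (h3.symm.trans ?_) (y := (ex h (ex g x).choose).choose)).2
    rw [coe_mul_mul, ← h2, ← Matrix.mul_assoc, ← h1, Matrix.mul_assoc]
    rfl

theorem Corr.ofRep_isRep (r : X → Matrix (Fin 2) (Fin 2) ℤ) (hdet : ∀ x, 0 < (r x).det)
    (ex : ∀ (g : Γ') (x : X), ∃ (y : X) (c : Γ),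
      r x * ((g : SL(2, ℤ)) : Matrix (Fin 2) (Fin 2) ℤ) =
        ((c : SL(2, ℤ)) : Matrix (Fin 2) (Fin 2) ℤ) * r y)
    (inj : ∀ (x y : X) (c : Γ), r x = ((c : SL(2, ℤ)) : Matrix (Fin 2) (Fin 2) ℤ) * r y → x = y) :
    IsRep (Corr.ofRep r hdet ex inj) r where
  det_pos := hdet
  spec g x := (ex g x).choose_spec.choose_spec

/-- The homomorphism `g ↦ δ g δ⁻¹`. -/
def conjHom (δ : Matrix (Fin 2) (Fin 2) ℤ) (hδ : 0 < δ.det)
    (ex : ∀ g : Γ', ∃ c : Γ, δ * ((g : SL(2, ℤ)) : Matrix (Fin 2) (Fin 2) ℤ) =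
        ((c : SL(2, ℤ)) : Matrix (Fin 2) (Fin 2) ℤ) * δ) : Γ' →* Γ where
  toFun g := (ex g).choose
  map_one' := by
    refine sl_inj hδ ?_
    rw [← (ex 1).choose_spec]
    show δ * 1 = 1 * δ
    rw [Matrix.mul_one, Matrix.one_mul]
  map_mul' g h := by
    refine sl_inj hδ ?_
    rw [← (ex (g * h)).choose_spec, coe_mul_mul, ← (ex h).choose_spec, ← Matrix.mul_assoc,
      ← (ex g).choose_spec, Matrix.mul_assoc]
    rfl

theorem conjHom_spec (δ : Matrix (Fin 2) (Fin 2) ℤ) (hδ : 0 < δ.det)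
    (ex : ∀ g : Γ', ∃ c : Γ, δ * ((g : SL(2, ℤ)) : Matrix (Fin 2) (Fin 2) ℤ) =
        ((c : SL(2, ℤ)) : Matrix (Fin 2) (Fin 2) ℤ) * δ) (g : Γ') :
    δ * ((g : SL(2, ℤ)) : Matrix (Fin 2) (Fin 2) ℤ) =
        ((conjHom δ hδ ex g : SL(2, ℤ)) : Matrix (Fin 2) (Fin 2) ℤ) * δ :=
  (ex g).choose_spec

theorem isRep_ofHom (f : Γ' →* Γ) (δ : Matrix (Fin 2) (Fin 2) ℤ) (hδ : 0 < δ.det)
    (h : ∀ g : Γ', δ * ((g : SL(2, ℤ)) : Matrix (Fin 2) (Fin 2) ℤ) =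
        ((f g : SL(2, ℤ)) : Matrix (Fin 2) (Fin 2) ℤ) * δ) :
    IsRep (Corr.ofHom f) (fun _ => δ) where
  det_pos _ := hδ
  spec g _ := h g

theorem pInj_unit (Γ : Subgroup SL(2, ℤ)) (r : Unit → Matrix (Fin 2) (Fin 2) ℤ) : PInj Γ r :=
  fun _ _ _ _ _ _ _ _ => rfl

end OfRep

section Compare

variable {Γ Γ' : Subgroup SL(2, ℤ)} {X Y : Type*} [Fintype X] [Fintype Y]
variable {R : Type*} [CommRing R] {ε : Γ →* Rˣ} {ε' : Γ' →* Rˣ}
variable {A : Type*} [AddCommGroup A] [Module R A]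

/-- Two matrix correspondences with equivalent representatives, same cardinality. -/
theorem tr_eq_of_card {S : Corr Γ Γ' X} {r : X → Matrix (Fin 2) (Fin 2) ℤ} {T : Corr Γ Γ' Y}
    {t : Y → Matrix (Fin 2) (Fin 2) ℤ} (hS : IsRep S r) (hT : IsRep T t) (hr : PInj Γ r)
    (ht : PInj Γ t) {w : X → R} {v : Y → R} (hw : S.IsWeight ε ε' w) (hv : T.IsWeight ε ε' v)
    (h1 : ∀ x, ∃ (y : Y) (κ : Γ) (n m : ℤ), 0 < n ∧ 0 < m ∧
      n • r x = m • (((κ : SL(2, ℤ)) : Matrix (Fin 2) (Fin 2) ℤ) * t y) ∧ v y = w x * (ε κ : R))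
    (hcard : Fintype.card X = Fintype.card Y) (z : H1 ε A) :
    S.tr A hw z = T.tr A hv z := by
  choose F κ n m hn hm hF hwv using h1
  have hinj : Function.Injective F := by
    intro x y hxy
    refine hr x y (κ x * (κ y)⁻¹) (n x * m y) (m x * n y) (mul_pos (hn x) (hm y))
      (mul_pos (hm x) (hn y)) ?_
    have h2 : n x • m y • r x = m y • m x •
        (((κ x : SL(2, ℤ)) : Matrix (Fin 2) (Fin 2) ℤ) * t (F x)) := by
      rw [smul_comm, hF x]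
    have h3 : m x • n y • ((((κ x * (κ y)⁻¹ : Γ) : SL(2, ℤ)) : Matrix (Fin 2) (Fin 2) ℤ) * r y) =
        m x • m y • (((κ x : SL(2, ℤ)) : Matrix (Fin 2) (Fin 2) ℤ) * t (F y)) := by
      congr 1
      rw [← Matrix.mul_smul, hF y, Matrix.mul_smul, coe_mul_mul, coe_inv_mul_cancel]
    rw [mul_smul, mul_smul, h2, h3, hxy, smul_comm]
  refine Corr.tr_eq_of_equiv S T hw hv (Equiv.ofBijective F
    ((Fintype.bijective_iff_injective_and_card F).mpr ⟨hinj, hcard⟩)) κ (fun g x => ?_)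
    (fun x => hwv x) z
  exact (coc_eq hS hT ht F κ (fun x => ⟨n x, m x, hn x, hm x, hF x⟩) g x).2

/-- Two matrix correspondences with equivalent representatives. -/
theorem tr_eq_of_rep {S : Corr Γ Γ' X} {r : X → Matrix (Fin 2) (Fin 2) ℤ} {T : Corr Γ Γ' Y}
    {t : Y → Matrix (Fin 2) (Fin 2) ℤ} (hS : IsRep S r) (hT : IsRep T t) (hr : PInj Γ r)
    (ht : PInj Γ t) {w : X → R} {v : Y → R} (hw : S.IsWeight ε ε' w) (hv : T.IsWeight ε ε' v)
    (h1 : ∀ x, ∃ (y : Y) (κ : Γ) (n m : ℤ), 0 < n ∧ 0 < m ∧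
      n • r x = m • (((κ : SL(2, ℤ)) : Matrix (Fin 2) (Fin 2) ℤ) * t y) ∧ v y = w x * (ε κ : R))
    (h2 : ∀ y, ∃ (x : X) (κ : Γ) (n m : ℤ), 0 < n ∧ 0 < m ∧
      n • t y = m • (((κ : SL(2, ℤ)) : Matrix (Fin 2) (Fin 2) ℤ) * r x)) (z : H1 ε A) :
    S.tr A hw z = T.tr A hv z := by
  refine tr_eq_of_card hS hT hr ht hw hv h1 (le_antisymm ?_ ?_) z
  · choose F κ n m hn hm hF hwv using h1
    refine Fintype.card_le_of_injective F ?_
    intro x y hxy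
    refine hr x y (κ x * (κ y)⁻¹) (n x * m y) (m x * n y) (mul_pos (hn x) (hm y))
      (mul_pos (hm x) (hn y)) ?_
    have h2 : n x • m y • r x = m y • m x •
        (((κ x : SL(2, ℤ)) : Matrix (Fin 2) (Fin 2) ℤ) * t (F x)) := by
      rw [smul_comm, hF x]
    have h3 : m x • n y • ((((κ x * (κ y)⁻¹ : Γ) : SL(2, ℤ)) : Matrix (Fin 2) (Fin 2) ℤ) * r y) =
        m x • m y • (((κ x : SL(2, ℤ)) : Matrix (Fin 2) (Fin 2) ℤ) * t (F y)) := by
      congr 1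
      rw [← Matrix.mul_smul, hF y, Matrix.mul_smul, coe_mul_mul, coe_inv_mul_cancel]
    rw [mul_smul, mul_smul, h2, h3, hxy, smul_comm]
  · choose F κ n m hn hm hF using h2
    refine Fintype.card_le_of_injective F ?_
    intro x y hxy
    refine ht x y (κ x * (κ y)⁻¹) (n x * m y) (m x * n y) (mul_pos (hn x) (hm y))
      (mul_pos (hm x) (hn y)) ?_
    have h2 : n x • m y • t x = m y • m x •
        (((κ x : SL(2, ℤ)) : Matrix (Fin 2) (Fin 2) ℤ) * r (F x)) := by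
      rw [smul_comm, hF x]
    have h3 : m x • n y • ((((κ x * (κ y)⁻¹ : Γ) : SL(2, ℤ)) : Matrix (Fin 2) (Fin 2) ℤ) * t y) =
        m x • m y • (((κ x : SL(2, ℤ)) : Matrix (Fin 2) (Fin 2) ℤ) * r (F y)) := by
      congr 1
      rw [← Matrix.mul_smul, hF y, Matrix.mul_smul, coe_mul_mul, coe_inv_mul_cancel]
    rw [mul_smul, mul_smul, h2, h3, hxy, smul_comm]

end Compare

/-! ### Elementary matrices -/

theorem mat_ext {B C : Matrix (Fin 2) (Fin 2) ℤ} (h00 : B 0 0 = C 0 0) (h01 : B 0 1 = C 0 1)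
    (h10 : B 1 0 = C 1 0) (h11 : B 1 1 = C 1 1) : B = C := by
  ext i j
  fin_cases i <;> fin_cases j <;> assumption

theorem dvd_lower {M : ℕ} (g : Gamma0 M) : (M : ℤ) ∣ (g : SL(2, ℤ)) 1 0 :=
  (ZMod.intCast_zmod_eq_zero_iff_dvd _ _).mp g.2

/-- constructor for elements of `Γ₀(M)` -/
def mkG (M : ℕ) (a b c d : ℤ) (hdet : a * d - b * c = 1) (hc : (M : ℤ) ∣ c) : Gamma0 M :=
  ⟨⟨!![a, b; c, d], by rw [Matrix.det_fin_two_of]; exact hdet⟩,
    (ZMod.intCast_zmod_eq_zero_iff_dvd _ _).mpr hc⟩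

@[simp] theorem coe_mkG (M : ℕ) (a b c d : ℤ) (hdet : a * d - b * c = 1) (hc : (M : ℤ) ∣ c) :
    ((mkG M a b c d hdet hc : SL(2, ℤ)) : Matrix (Fin 2) (Fin 2) ℤ) = !![a, b; c, d] := rfl

theorem val_aMap_mkG (M : ℕ) (a b c d : ℤ) (hdet : a * d - b * c = 1) (hc : (M : ℤ) ∣ c) :
    (aMap M (mkG M a b c d hdet hc) : ZMod M) = (a : ZMod M) := rfl

theorem aMap_mkG (M : ℕ) (a b c d : ℤ) (hdet : a * d - b * c = 1) (hc : (M : ℤ) ∣ c) :
    aMap M (mkG M a b c d hdet hc) = unitOf M a :=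
  (unitOf_eq_of_val (val_aMap_mkG M a b c d hdet hc).symm).symm

theorem eq_mul_iff_entries (B C D : Matrix (Fin 2) (Fin 2) ℤ) :
    B = C * D ↔ (B 0 0 = C 0 0 * D 0 0 + C 0 1 * D 1 0) ∧ (B 0 1 = C 0 0 * D 0 1 + C 0 1 * D 1 1) ∧
      (B 1 0 = C 1 0 * D 0 0 + C 1 1 * D 1 0) ∧ (B 1 1 = C 1 0 * D 0 1 + C 1 1 * D 1 1) := by
  constructor
  · rintro rfl
    exact ⟨entry_mul _ _ _ _, entry_mul _ _ _ _, entry_mul _ _ _ _, entry_mul _ _ _ _⟩
  · rintro ⟨h1, h2, h3, h4⟩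
    exact mat_ext (by rw [h1, entry_mul]) (by rw [h2, entry_mul]) (by rw [h3, entry_mul])
      (by rw [h4, entry_mul])

end Fermat.Agent.TwHecke

end
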