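import Fermat.Agent.TwHecke.OfRep

/-!
# Degeneracy maps, trace and Atkin–Lehner operator on `H¹(Γ₀(M), A(ε))`
-/

set_option autoImplicit false

noncomputable section

open Matrix.SpecialLinearGroup CongruenceSubgroup
open scoped MatrixGroups

namespace Fermat.Agent.TwHecke

open HeckePar

/-- inflation of characters -/
abbrev infl {M M' : ℕ} (h : M ∣ M') {R : Type*} [CommRing R] (ε : (ZMod M)ˣ →* Rˣ) :
    (ZMod M')ˣ →* Rˣ := ε.comp (ZMod.unitsMap h)

/-- the upper left entry modulo a divisor of the level -/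
abbrev aMap' {M M' : ℕ} (h : M ∣ M') : Gamma0 M' →* (ZMod M)ˣ := (ZMod.unitsMap h).comp (aMap M')

theorem val_aMap' {M M' : ℕ} (h : M ∣ M') (g : Gamma0 M') :
    (aMap' h g : ZMod M) = (((g : SL(2, ℤ)) 0 0 : ℤ) : ZMod M) := by
  show ((ZMod.unitsMap h (aMap M' g) : (ZMod M)ˣ) : ZMod M) = _
  rw [unitsMap_aMap]
  rfl

theorem lower_eq_zero {M M' : ℕ} (h : M ∣ M') (g : Gamma0 M') :
    (((g : SL(2, ℤ)) 1 0 : ℤ) : ZMod M) = 0 := Gamma0_le h g.2

/-! ### Restriction -/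

section Res

variable {M M' : ℕ} (h : M ∣ M')

/-- restriction as a correspondence -/
def resCorr : Corr (Gamma0 M) (Gamma0 M') Unit :=
  Corr.ofHom (Subgroup.inclusion (Gamma0_le h))

theorem resCorr_isRep : IsRep (resCorr h) (fun _ => 1) :=
  isRep_ofHom _ 1 (by simp) fun g => by rw [Matrix.one_mul, Matrix.mul_one]; rfl

variable {R : Type*} [CommRing R] (ε : (ZMod M)ˣ →* Rˣ)

theorem res_isWeight (r : R) : (resCorr h).IsWeight (chr M ε) (chr M' (infl h ε)) (fun _ => r) :=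
  Corr.ofHom_isWeight _ (fun g => by
    show ε (aMap M (Subgroup.inclusion (Gamma0_le h) g)) = ε (ZMod.unitsMap h (aMap M' g))
    rw [unitsMap_aMap]) r

variable (A : Type*) [AddCommGroup A] [Module R A] {B : Type*} [AddCommGroup B] [Module R B]

/-- restriction on cocycles -/
def resZ : ZM M ε A →ₗ[R] ZM M' (infl h ε) A := (resCorr h).Ztr A (res_isWeight h ε 1)

/-- restriction `H¹(Γ₀(M), A(ε)) → H¹(Γ₀(M'), A(ε))` -/
def res : HM M ε A →ₗ[R] HM M' (infl h ε) A := (resCorr h).tr A (res_isWeight h ε 1)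

variable {A}

@[simp] theorem resZ_apply (c : ZM M ε A) (g : Gamma0 M') :
    resZ h ε A c g = c (Subgroup.inclusion (Gamma0_le h) g) := by
  simp [resZ, resCorr, Corr.ofHom]

theorem res_mk (c : ZM M ε A) : res h ε A (H1.mk c) = H1.mk (resZ h ε A c) := rfl

theorem res_map (f : A →ₗ[R] B) (x : HM M ε A) :
    res h ε B (H1.map _ f x) = H1.map _ f (res h ε A x) := Corr.tr_map _ _ _ _

end Res

/-! ### The second degeneracy map -/

section DegB

theorem bHom_ex {M M' q : ℕ} (hq : q ≠ 0) (h : M * q ∣ M') (g : Gamma0 M') :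
    ∃ c : Gamma0 M, !![(q : ℤ), 0; 0, 1] * ((g : SL(2, ℤ)) : Matrix (Fin 2) (Fin 2) ℤ) =
        ((c : SL(2, ℤ)) : Matrix (Fin 2) (Fin 2) ℤ) * !![(q : ℤ), 0; 0, 1] := by
  have hq' : (q : ℤ) ≠ 0 := by exact_mod_cast hq
  obtain ⟨c₁, hc₁⟩ : ((M * q : ℕ) : ℤ) ∣ (g : SL(2, ℤ)) 1 0 :=
    (Int.natCast_dvd_natCast.mpr h).trans (dvd_lower g)
  push_cast at hc₁
  have hd := det_SL (g : SL(2, ℤ))
  refine ⟨mkG M ((g : SL(2, ℤ)) 0 0) (q * (g : SL(2, ℤ)) 0 1) (M * c₁) ((g : SL(2, ℤ)) 1 1) ?_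
    (dvd_mul_right _ _), ?_⟩
  · rw [hc₁] at hd
    linear_combination hd
  · rw [coe_mkG, eq_mul_iff_entries, entry_mul, entry_mul, entry_mul, entry_mul]
    refine ⟨?_, ?_, ?_, ?_⟩ <;> simp
    · ring
    · exact hc₁.trans (by ring)

variable {M M' q : ℕ} (hq : q ≠ 0) (h : M * q ∣ M')

/-- `g ↦ diag(q,1) g diag(q,1)⁻¹` -/
def bHom : Gamma0 M' →* Gamma0 M :=
  conjHom !![(q : ℤ), 0; 0, 1]
    (by rw [Matrix.det_fin_two_of]; simpa using (Nat.pos_of_ne_zero hq)) (bHom_ex hq h)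

theorem bHom_spec (g : Gamma0 M') :
    !![(q : ℤ), 0; 0, 1] * ((g : SL(2, ℤ)) : Matrix (Fin 2) (Fin 2) ℤ) =
        ((bHom hq h g : SL(2, ℤ)) : Matrix (Fin 2) (Fin 2) ℤ) * !![(q : ℤ), 0; 0, 1] :=
  conjHom_spec _ _ _ g

theorem bHom_00 (g : Gamma0 M') : (bHom hq h g : SL(2, ℤ)) 0 0 = (g : SL(2, ℤ)) 0 0 := by
  have h1 := ((eq_mul_iff_entries _ _ _).mp (bHom_spec hq h g)).1
  rw [entry_mul] at h1
  simp at h1
  have hq' : (q : ℤ) ≠ 0 := by exact_mod_cast hq
  exact (mul_left_cancel₀ hq' (by linear_combination -h1))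

theorem bHom_01 (g : Gamma0 M') : (bHom hq h g : SL(2, ℤ)) 0 1 = q * (g : SL(2, ℤ)) 0 1 := by
  have h1 := ((eq_mul_iff_entries _ _ _).mp (bHom_spec hq h g)).2.1
  rw [entry_mul] at h1
  simp at h1
  exact h1.symm

theorem bHom_10 (g : Gamma0 M') : (bHom hq h g : SL(2, ℤ)) 1 0 * q = (g : SL(2, ℤ)) 1 0 := by
  have h1 := ((eq_mul_iff_entries _ _ _).mp (bHom_spec hq h g)).2.2.1
  rw [entry_mul] at h1
  simp at h1
  exact h1.symm

theorem bHom_11 (g : Gamma0 M') : (bHom hq h g : SL(2, ℤ)) 1 1 = (g : SL(2, ℤ)) 1 1 := by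
  have h1 := ((eq_mul_iff_entries _ _ _).mp (bHom_spec hq h g)).2.2.2
  rw [entry_mul] at h1
  simp at h1
  exact h1.symm

/-- the second degeneracy map as a correspondence -/
def bCorr : Corr (Gamma0 M) (Gamma0 M') Unit := Corr.ofHom (bHom hq h)

theorem bCorr_isRep : IsRep (bCorr hq h) (fun _ => !![(q : ℤ), 0; 0, 1]) :=
  isRep_ofHom _ _ (by rw [Matrix.det_fin_two_of]; simpa using (Nat.pos_of_ne_zero hq))
    (bHom_spec hq h)

variable {R : Type*} [CommRing R] (ε : (ZMod M)ˣ →* Rˣ)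

/-- divisibility of the levels -/
theorem dvd_of_mul {M M' q : ℕ} (h : M * q ∣ M') : M ∣ M' := (dvd_mul_right _ _).trans h

theorem b_isWeight (r : R) :
    (bCorr hq h).IsWeight (chr M ε) (chr M' (infl (dvd_of_mul h) ε)) (fun _ => r) :=
  Corr.ofHom_isWeight _ (fun g => by
    show ε (aMap M (bHom hq h g)) = ε (aMap' (dvd_of_mul h) g)
    congr 1
    apply Units.ext
    rw [val_aMap, bHom_00, val_aMap']) r

variable (A : Type*) [AddCommGroup A] [Module R A] {B : Type*} [AddCommGroup B] [Module R B]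

/-- the second degeneracy map on cocycles -/
def degBZ : ZM M ε A →ₗ[R] ZM M' (infl (dvd_of_mul h) ε) A :=
  (bCorr hq h).Ztr A (b_isWeight hq h ε 1)

/-- the second degeneracy map `H¹(Γ₀(M), A(ε)) → H¹(Γ₀(M'), A(ε))`, `M q ∣ M'` -/
def degB : HM M ε A →ₗ[R] HM M' (infl (dvd_of_mul h) ε) A :=
  (bCorr hq h).tr A (b_isWeight hq h ε 1)

variable {A}

@[simp] theorem degBZ_apply (c : ZM M ε A) (g : Gamma0 M') :
    degBZ hq h ε A c g = c (bHom hq h g) := by
  simp [degBZ, bCorr, Corr.ofHom]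

theorem degB_mk (c : ZM M ε A) : degB hq h ε A (H1.mk c) = H1.mk (degBZ hq h ε A c) := rfl

theorem degB_map (f : A →ₗ[R] B) (x : HM M ε A) :
    degB hq h ε B (H1.map _ f x) = H1.map _ f (degB hq h ε A x) := Corr.tr_map _ _ _ _

end DegB

/-! ### The Atkin–Lehner operator -/

section Wq

theorem exists_bezout {M q : ℕ} (hq : q.Prime) (hM : ¬ q ∣ M) :
    ∃ b d : ℤ, (q : ℤ) * d - M * b = 1 := by
  have h1 : IsCoprime (q : ℤ) (M : ℤ) :=
    Nat.isCoprime_iff_coprime.mpr ((Nat.Prime.coprime_iff_not_dvd hq).mpr hM)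
  obtain ⟨u, v, huv⟩ := h1
  exact ⟨-v, u, by linear_combination huv⟩

variable {M q : ℕ} (hq : q.Prime) (hM : ¬ q ∣ M)

/-- the upper right entry of the Atkin–Lehner matrix -/
def wb : ℤ := (exists_bezout hq hM).choose

/-- the lower right entry of the Atkin–Lehner matrix (divided by `q`) -/
def wd : ℤ := (exists_bezout hq hM).choose_spec.choose

theorem wbd : (q : ℤ) * wd hq hM - M * wb hq hM = 1 := (exists_bezout hq hM).choose_spec.choose_spec

/-- The Atkin–Lehner matrix. -/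
def wMat : Matrix (Fin 2) (Fin 2) ℤ := !![(q : ℤ), wb hq hM; M * q, q * wd hq hM]

theorem det_wMat : (wMat hq hM).det = q := by
  rw [wMat, Matrix.det_fin_two_of]
  linear_combination (q : ℤ) * wbd hq hM

theorem det_wMat_pos : 0 < (wMat hq hM).det := by
  rw [det_wMat]; exact_mod_cast hq.pos

theorem wHom_ex (g : Gamma0 (M * q)) :
    ∃ c : Gamma0 (M * q), wMat hq hM * ((g : SL(2, ℤ)) : Matrix (Fin 2) (Fin 2) ℤ) =
        ((c : SL(2, ℤ)) : Matrix (Fin 2) (Fin 2) ℤ) * wMat hq hM := by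
  obtain ⟨z, hz⟩ := dvd_lower g
  push_cast at hz
  have hd := det_SL (g : SL(2, ℤ))
  have hw := wbd hq hM
  rw [wMat]
  generalize wb hq hM = b at hw ⊢
  generalize wd hq hM = d at hw ⊢
  rw [hz] at hd
  refine ⟨mkG (M * q)
    ((q * (g : SL(2, ℤ)) 0 0 + b * (M * q * z)) * d - (q * (g : SL(2, ℤ)) 0 1 +
      b * (g : SL(2, ℤ)) 1 1) * M)
    (-((g : SL(2, ℤ)) 0 0 + b * M * z) * b + (q * (g : SL(2, ℤ)) 0 1 + b * (g : SL(2, ℤ)) 1 1))
    (M * q * (((g : SL(2, ℤ)) 0 0 + d * q * z) * d -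
      (M * (g : SL(2, ℤ)) 0 1 + d * (g : SL(2, ℤ)) 1 1)))
    (-(M * (g : SL(2, ℤ)) 0 0 + d * (M * q * z)) * b +
      (M * (g : SL(2, ℤ)) 0 1 + d * (g : SL(2, ℤ)) 1 1) * q) ?_ ?_, ?_⟩
  · generalize (g : SL(2, ℤ)) 0 0 = x at hd ⊢
    generalize (g : SL(2, ℤ)) 0 1 = y at hd ⊢
    generalize (g : SL(2, ℤ)) 1 1 = t at hd ⊢
    linear_combination ((q * d - M * b + 1) * (x * t - y * (M * q * z))) * hw + hd
  · push_cast
    exact dvd_mul_right _ _
  · rw [coe_mkG, eq_mul_iff_entries, entry_mul, entry_mul, entry_mul, entry_mul]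
    rw [hz]
    generalize (g : SL(2, ℤ)) 0 0 = x at hd ⊢
    generalize (g : SL(2, ℤ)) 0 1 = y at hd ⊢
    generalize (g : SL(2, ℤ)) 1 1 = t at hd ⊢
    refine ⟨?_, ?_, ?_, ?_⟩ <;> simp only [Matrix.of_apply, Matrix.cons_val', Matrix.cons_val_zero,
      Matrix.cons_val_one, Matrix.cons_val_fin_one]
    · linear_combination (-(q * x + b * (M * q * z))) * hw
    · linear_combination (-(q * y + b * t)) * hw
    · linear_combination (-(M * q * x + q * d * (M * q * z))) * hw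
    · linear_combination (-(M * q * y + q * d * t)) * hw

/-- `g ↦ W g W⁻¹` -/
def wHom : Gamma0 (M * q) →* Gamma0 (M * q) :=
  conjHom (wMat hq hM) (det_wMat_pos hq hM) (wHom_ex hq hM)

theorem wHom_spec (g : Gamma0 (M * q)) :
    wMat hq hM * ((g : SL(2, ℤ)) : Matrix (Fin 2) (Fin 2) ℤ) =
        ((wHom hq hM g : SL(2, ℤ)) : Matrix (Fin 2) (Fin 2) ℤ) * wMat hq hM :=
  conjHom_spec _ _ _ g

theorem wHom_a (g : Gamma0 (M * q)) :
    aMap' (dvd_mul_right M q) (wHom hq hM g) = aMap' (dvd_mul_right M q) g := by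
  apply Units.ext
  rw [val_aMap', val_aMap']
  have h1 := wHom_spec hq hM g
  rw [wMat, eq_mul_iff_entries, entry_mul, entry_mul, entry_mul, entry_mul] at h1
  obtain ⟨h00, h01, -, -⟩ := h1
  simp only [Matrix.of_apply, Matrix.cons_val', Matrix.cons_val_zero,
      Matrix.cons_val_one, Matrix.cons_val_fin_one] at h00 h01
  have hw := wbd hq hM
  have hz := lower_eq_zero (dvd_mul_right M q) g
  have h2 : (wHom hq hM g : SL(2, ℤ)) 0 0 = (q * (g : SL(2, ℤ)) 0 0 +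
      wb hq hM * (g : SL(2, ℤ)) 1 0) * wd hq hM -
      (q * (g : SL(2, ℤ)) 0 1 + wb hq hM * (g : SL(2, ℤ)) 1 1) * M := by
    linear_combination (-wd hq hM) * h00 + M * h01 - (wHom hq hM g : SL(2, ℤ)) 0 0 * hw
  have h3 := congrArg (Int.cast : ℤ → ZMod M) h2
  have h4 := congrArg (Int.cast : ℤ → ZMod M) hw
  push_cast at h3 h4
  rw [hz, ZMod.natCast_self] at h3
  rw [ZMod.natCast_self] at h4
  rw [h3]
  linear_combination (((g : SL(2, ℤ)) 0 0 : ℤ) : ZMod M) * h4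

/-- the Atkin–Lehner correspondence -/
def wCorr : Corr (Gamma0 (M * q)) (Gamma0 (M * q)) Unit := Corr.ofHom (wHom hq hM)

theorem wCorr_isRep : IsRep (wCorr hq hM) (fun _ => wMat hq hM) :=
  isRep_ofHom _ _ (det_wMat_pos hq hM) (wHom_spec hq hM)

variable {R : Type*} [CommRing R] (ε : (ZMod M)ˣ →* Rˣ)

theorem w_isWeight (r : R) :
    (wCorr hq hM).IsWeight (chr (M * q) (infl (dvd_mul_right M q) ε))
      (chr (M * q) (infl (dvd_mul_right M q) ε)) (fun _ => r) :=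
  Corr.ofHom_isWeight _ (fun g => by
    show ε (aMap' (dvd_mul_right M q) (wHom hq hM g)) = ε (aMap' (dvd_mul_right M q) g)
    rw [wHom_a]) r

variable (A : Type*) [AddCommGroup A] [Module R A] {B : Type*} [AddCommGroup B] [Module R B]

/-- the Atkin–Lehner operator on `H¹(Γ₀(M q), A(ε))`, `ε` a character modulo `M`; its square is
`ε(q)⁻¹`. -/
def wq : Module.End R (HM (M * q) (infl (dvd_mul_right M q) ε) A) :=
  (wCorr hq hM).tr A (w_isWeight hq hM ε (wt ε (unitOf M q)))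

variable {A}

theorem wq_map (f : A →ₗ[R] B) (x : HM (M * q) (infl (dvd_mul_right M q) ε) A) :
    wq hq hM ε B (H1.map _ f x) = H1.map _ f (wq hq hM ε A x) := Corr.tr_map _ _ _ _

end Wq

/-! ### The trace -/

section Trace

/-- representatives of `Γ₀(M q) \ Γ₀(M)`, `q ∤ M` prime -/
def kRep (M q : ℕ) : Option (ZMod q) → Matrix (Fin 2) (Fin 2) ℤ
  | none => 1
  | some j => !![1, (j.val : ℤ); M, M * j.val + 1]

@[simp] theorem kRep_none (M q : ℕ) : kRep M q none = 1 := rfl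

@[simp] theorem kRep_some (M q : ℕ) (j : ZMod q) :
    kRep M q (some j) = !![1, (j.val : ℤ); (M : ℤ), M * j.val + 1] := rfl

theorem det_kRep (M q : ℕ) (x : Option (ZMod q)) : (kRep M q x).det = 1 := by
  cases x with
  | none => simp
  | some j => rw [kRep_some, Matrix.det_fin_two_of]; ring

/-- the representatives as elements of `Γ₀(M)` -/
def kG (M q : ℕ) (x : Option (ZMod q)) : Gamma0 M :=
  ⟨⟨kRep M q x, det_kRep M q x⟩, by
    cases x with
    | none => show (((1 : Matrix (Fin 2) (Fin 2) ℤ) 1 0 : ℤ) : ZMod M) = 0; simp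
    | some j => show (((M : ℤ)) : ZMod M) = 0; simp⟩

@[simp] theorem coe_kG (M q : ℕ) (x : Option (ZMod q)) :
    ((kG M q x : SL(2, ℤ)) : Matrix (Fin 2) (Fin 2) ℤ) = kRep M q x := rfl

theorem kRep_00 (M q : ℕ) (x : Option (ZMod q)) : kRep M q x 0 0 = 1 := by
  cases x <;> simp

theorem kRep_10 (M q : ℕ) (x : Option (ZMod q)) : ((kRep M q x 1 0 : ℤ) : ZMod M) = 0 := by
  cases x <;> simp

theorem aMap_kG (M q : ℕ) (x : Option (ZMod q)) : aMap M (kG M q x) = 1 := by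
  apply Units.ext
  show ((kRep M q x 0 0 : ℤ) : ZMod M) = 1
  rw [kRep_00, Int.cast_one]

/-- decomposition of `Γ₀(M)` into cosets of `Γ₀(M q)` -/
theorem exists_kRep {M q : ℕ} (hq : q.Prime) (hM : ¬ q ∣ M) (g : Gamma0 M) :
    ∃ (y : Option (ZMod q)) (c : Gamma0 (M * q)),
      ((g : SL(2, ℤ)) : Matrix (Fin 2) (Fin 2) ℤ) =
        ((c : SL(2, ℤ)) : Matrix (Fin 2) (Fin 2) ℤ) * kRep M q y := by
  have : Fact q.Prime := ⟨hq⟩
  have : NeZero q := ⟨hq.ne_zero⟩
  obtain ⟨c₀, hc₀⟩ := dvd_lower g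
  have hd := det_SL (g : SL(2, ℤ))
  by_cases hqc : (q : ℤ) ∣ c₀
  · refine ⟨none, ⟨(g : SL(2, ℤ)), ?_⟩, ?_⟩
    · show (((g : SL(2, ℤ)) 1 0 : ℤ) : ZMod (M * q)) = 0
      rw [ZMod.intCast_zmod_eq_zero_iff_dvd, hc₀]
      push_cast
      exact mul_dvd_mul_left _ hqc
    · rw [kRep_none, Matrix.mul_one]
  · have hc0 : (c₀ : ZMod q) ≠ 0 := by rwa [Ne, ZMod.intCast_zmod_eq_zero_iff_dvd]
    have hM0 : (M : ZMod q) ≠ 0 := by rwa [Ne, ZMod.natCast_eq_zero_iff]
    obtain ⟨j, hj⟩ : ∃ j : ZMod q, (c₀ : ZMod q) * (M * j + 1) = (((g : SL(2, ℤ)) 1 1 : ℤ) : ZMod q) :=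
      ⟨((((g : SL(2, ℤ)) 1 1 : ℤ) : ZMod q) / c₀ - 1) / M, by field_simp; ring⟩
    obtain ⟨e, he⟩ : (q : ℤ) ∣ c₀ * (M * j.val + 1) - (g : SL(2, ℤ)) 1 1 := by
      rw [← ZMod.intCast_zmod_eq_zero_iff_dvd]
      push_cast
      rw [ZMod.natCast_zmod_val, hj, sub_self]
    refine ⟨some j, mkG (M * q)
      ((g : SL(2, ℤ)) 0 0 * (M * j.val + 1) - (g : SL(2, ℤ)) 0 1 * M)
      ((g : SL(2, ℤ)) 0 1 - (g : SL(2, ℤ)) 0 0 * j.val)
      (M * (c₀ * (M * j.val + 1) - (g : SL(2, ℤ)) 1 1))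
      ((g : SL(2, ℤ)) 1 1 - (M * c₀) * j.val) ?_ ?_, ?_⟩
    · rw [hc₀] at hd
      linear_combination hd
    · push_cast
      exact mul_dvd_mul_left _ ⟨e, he⟩
    · rw [coe_mkG, kRep_some, eq_mul_iff_entries]
      simp only [Matrix.of_apply, Matrix.cons_val', Matrix.cons_val_zero,
        Matrix.cons_val_one, Matrix.cons_val_fin_one]
      refine ⟨by ring, by ring, ?_, by ring⟩
      rw [hc₀]
      ring

theorem kRep_inj {M q : ℕ} (hq : q.Prime) (hM : ¬ q ∣ M) (x y : Option (ZMod q))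
    (c : Gamma0 (M * q))
    (h : kRep M q x = ((c : SL(2, ℤ)) : Matrix (Fin 2) (Fin 2) ℤ) * kRep M q y) : x = y := by
  have : Fact q.Prime := ⟨hq⟩
  have : NeZero q := ⟨hq.ne_zero⟩
  have hM0 : M ≠ 0 := by rintro rfl; exact hM (dvd_zero q)
  have hMz : (M : ℤ) ≠ 0 := by exact_mod_cast hM0
  obtain ⟨z, hz⟩ := dvd_lower c
  push_cast at hz
  have hMq : (M : ZMod q) ≠ 0 := by rwa [Ne, ZMod.natCast_eq_zero_iff]
  have hd := det_SL (c : SL(2, ℤ))
  rw [eq_mul_iff_entries] at h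
  obtain ⟨h00, h01, h10, h11⟩ := h
  cases x with
  | none =>
    cases y with
    | none => rfl
    | some j =>
      exfalso
      simp only [kRep_none, kRep_some, Matrix.one_apply_eq, Matrix.of_apply, Matrix.cons_val',
        Matrix.cons_val_zero, Matrix.cons_val_one, Matrix.cons_val_fin_one, mul_one] at h00 h10
      rw [show (1 : Matrix (Fin 2) (Fin 2) ℤ) 1 0 = 0 from rfl, hz] at h10
      have h2 : (q : ℤ) * z + (c : SL(2, ℤ)) 1 1 = 0 :=
        mul_left_cancel₀ hMz (by linear_combination -h10)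
      have h3 : (q : ℤ) ∣ 1 := by
        refine ⟨-z * ((c : SL(2, ℤ)) 0 0 + M * (c : SL(2, ℤ)) 0 1), ?_⟩
        rw [hz] at hd
        linear_combination -hd + (c : SL(2, ℤ)) 0 0 * h2
      have h4 : q ∣ 1 := by exact_mod_cast h3
      exact hq.one_lt.ne' (Nat.dvd_one.mp h4)
  | some i =>
    cases y with
    | none =>
      exfalso
      simp only [kRep_none, kRep_some, Matrix.one_apply_eq, Matrix.of_apply, Matrix.cons_val',
        Matrix.cons_val_zero, Matrix.cons_val_one, Matrix.cons_val_fin_one, mul_one] at h10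
      rw [show (1 : Matrix (Fin 2) (Fin 2) ℤ) 1 0 = 0 from rfl, hz] at h10
      have h2 : (q : ℤ) * z = 1 := mul_left_cancel₀ hMz (by linear_combination -h10)
      have h4 : q ∣ 1 := by
        have : (q : ℤ) ∣ 1 := ⟨z, h2.symm⟩
        exact_mod_cast this
      exact hq.one_lt.ne' (Nat.dvd_one.mp h4)
    | some j =>
      simp only [kRep_some, Matrix.of_apply, Matrix.cons_val',
        Matrix.cons_val_zero, Matrix.cons_val_one, Matrix.cons_val_fin_one, mul_one]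
        at h00 h01 h10 h11
      rw [hz] at h10 h11
      congr 1
      have h2 : (q : ℤ) * z + (c : SL(2, ℤ)) 1 1 = 1 :=
        mul_left_cancel₀ hMz (by linear_combination -h10)
      -- lower right entries
      have h3 : (M : ℤ) * i.val = M * j.val + q * (-z) := by
        linear_combination h11 + (M * (j.val : ℤ) + 1) * h2
      have h4 := congrArg (Int.cast : ℤ → ZMod q) h3
      push_cast at h4
      rw [ZMod.natCast_self, zero_mul, add_zero, ZMod.natCast_zmod_val, ZMod.natCast_zmod_val] at h4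
      exact mul_left_cancel₀ hMq h4

variable {M q : ℕ} (hq : q.Prime) (hM : ¬ q ∣ M)

/-- The trace correspondence from `Γ₀(M q)` to `Γ₀(M)`. -/
def trCorr : Corr (Gamma0 (M * q)) (Gamma0 M) (Option (ZMod q)) :=
  Corr.ofRep (kRep M q) (fun x => by rw [det_kRep]; exact one_pos)
    (fun g x => exists_kRep hq hM (kG M q x * g)) (kRep_inj hq hM)

theorem trCorr_isRep : IsRep (trCorr hq hM) (kRep M q) := Corr.ofRep_isRep _ _ _ _

include hq hM in
theorem kRep_pInj : PInj (Gamma0 (M * q)) (kRep M q) :=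
  pInj_of_det 1 one_pos (det_kRep M q) (kRep_inj hq hM)

variable {R : Type*} [CommRing R] (ε : (ZMod M)ˣ →* Rˣ)

theorem tr_isWeight : (trCorr hq hM).IsWeight (chr (M * q) (infl (dvd_mul_right M q) ε))
    (chr M ε) (fun _ => 1) := by
  have h := isWeight_wt ε (trCorr hq hM) (aMap' (dvd_mul_right M q)) (aMap M) (fun _ => 1)
    (a_compat (trCorr_isRep hq hM) _ _ (val_aMap' _) (fun _ => rfl) (fun g => g.2)
      (kRep_10 M q) _ (fun x => by rw [kRep_00]; simp))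
  simp only [wt_one] at h
  exact h

variable (A : Type*) [AddCommGroup A] [Module R A] {B : Type*} [AddCommGroup B] [Module R B]

/-- The trace `H¹(Γ₀(M q), A(ε)) → H¹(Γ₀(M), A(ε))`, `q ∤ M` prime. -/
def trd [NeZero q] : HM (M * q) (infl (dvd_mul_right M q) ε) A →ₗ[R] HM M ε A :=
  (trCorr hq hM).tr A (tr_isWeight hq hM ε)

variable {A}

theorem trd_map [NeZero q] (f : A →ₗ[R] B) (x : HM (M * q) (infl (dvd_mul_right M q) ε) A) :
    trd hq hM ε B (H1.map _ f x) = H1.map _ f (trd hq hM ε A x) := Corr.tr_map _ _ _ _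

end Trace

end Fermat.Agent.TwHecke

end
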