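import Fermat.Agent.TwHecke.Basic
import Fermat.Agent.HeckePar.Cosets
import Mathlib.Data.ZMod.Units

/-!
# Correspondences given by integral matrices, the `a`-entry character of `Γ₀(M)`
-/

set_option autoImplicit false

noncomputable section

open Matrix.SpecialLinearGroup CongruenceSubgroup
open scoped MatrixGroups

namespace Fermat.Agent.TwHecke

/-! ### The upper left entry modulo `M` -/

theorem entry_mul (A B : Matrix (Fin 2) (Fin 2) ℤ) (i j : Fin 2) :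
    (A * B) i j = A i 0 * B 0 j + A i 1 * B 1 j := by
  rw [Matrix.mul_apply, Fin.sum_univ_two]

theorem SL_mul_entry (g h : SL(2, ℤ)) (i j : Fin 2) :
    (g * h) i j = g i 0 * h 0 j + g i 1 * h 1 j := entry_mul _ _ i j

/-- the upper left entry, `Γ₀(M) → (ℤ/M)ˣ` -/
def aMap (M : ℕ) : Gamma0 M →* (ZMod M)ˣ where
  toFun g :=
    { val := (((g : SL(2, ℤ)) 0 0 : ℤ) : ZMod M)
      inv := (((g : SL(2, ℤ)) 1 1 : ℤ) : ZMod M)
      val_inv := by
        have h := HeckePar.det_SL (g : SL(2, ℤ))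
        have h1 := congrArg (Int.cast : ℤ → ZMod M) h
        have h2 : (((g : SL(2, ℤ)) 1 0 : ℤ) : ZMod M) = 0 := g.2
        push_cast at h1
        rw [h2] at h1
        linear_combination h1
      inv_val := by
        have h := HeckePar.det_SL (g : SL(2, ℤ))
        have h1 := congrArg (Int.cast : ℤ → ZMod M) h
        have h2 : (((g : SL(2, ℤ)) 1 0 : ℤ) : ZMod M) = 0 := g.2
        push_cast at h1
        rw [h2] at h1
        linear_combination h1 }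
  map_one' := by
    apply Units.ext
    simp
  map_mul' g h := by
    apply Units.ext
    have h2 : (((h : SL(2, ℤ)) 1 0 : ℤ) : ZMod M) = 0 := h.2
    show ((((g : SL(2, ℤ)) * (h : SL(2, ℤ))) 0 0 : ℤ) : ZMod M) = _
    rw [SL_mul_entry]
    push_cast
    rw [h2, mul_zero, add_zero]

@[simp] theorem val_aMap (M : ℕ) (g : Gamma0 M) :
    ((aMap M g : (ZMod M)ˣ) : ZMod M) = (((g : SL(2, ℤ)) 0 0 : ℤ) : ZMod M) := rfl

theorem aMap_eq_iff {M : ℕ} {g : Gamma0 M} {u : (ZMod M)ˣ} :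
    aMap M g = u ↔ (((g : SL(2, ℤ)) 0 0 : ℤ) : ZMod M) = u := by
  rw [← Units.val_inj, val_aMap]

theorem Gamma0_le {M M' : ℕ} (h : M ∣ M') : Gamma0 M' ≤ Gamma0 M := by
  intro g hg
  have h1 : (((g : SL(2, ℤ)) 1 0 : ℤ) : ZMod M') = 0 := hg
  show (((g : SL(2, ℤ)) 1 0 : ℤ) : ZMod M) = 0
  rw [ZMod.intCast_zmod_eq_zero_iff_dvd] at h1 ⊢
  exact (Int.natCast_dvd_natCast.mpr h).trans h1

theorem unitsMap_aMap {M M' : ℕ} (h : M ∣ M') (g : Gamma0 M') :
    ZMod.unitsMap h (aMap M' g) = aMap M (Subgroup.inclusion (Gamma0_le h) g) := by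
  apply Units.ext
  show ZMod.castHom h (ZMod M) ((((g : SL(2, ℤ)) 0 0 : ℤ) : ZMod M')) =
    (((g : SL(2, ℤ)) 0 0 : ℤ) : ZMod M)
  rw [map_intCast]

/-- every unit modulo `M` is the upper left entry of an element of `Γ₀(M)` -/
theorem aMap_surjective (M : ℕ) [NeZero M] : Function.Surjective (aMap M) := by
  intro u
  have hco : Nat.Coprime (u : ZMod M).val M := ZMod.val_coe_unit_coprime u
  have hco' : IsCoprime ((u : ZMod M).val : ℤ) (M : ℤ) := Nat.isCoprime_iff_coprime.mpr hco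
  obtain ⟨x, y, hxy⟩ := hco'
  let g : SL(2, ℤ) := ⟨!![((u : ZMod M).val : ℤ), -y; (M : ℤ), x], by
    rw [Matrix.det_fin_two_of]; linear_combination hxy⟩
  have hg : g ∈ Gamma0 M := by
    show (((M : ℤ)) : ZMod M) = 0
    simp
  refine ⟨⟨g, hg⟩, ?_⟩
  rw [aMap_eq_iff]
  show ((((u : ZMod M).val : ℤ)) : ZMod M) = u
  simp

/-- the unit attached to an integer (junk value `1`) -/
def unitOf (M : ℕ) (m : ℤ) : (ZMod M)ˣ := by
  classical
  exact if h : IsUnit ((m : ℤ) : ZMod M) then h.unit else 1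

theorem val_unitOf {M : ℕ} {m : ℤ} (h : IsUnit ((m : ℤ) : ZMod M)) :
    (unitOf M m : ZMod M) = ((m : ℤ) : ZMod M) := by
  rw [unitOf, dif_pos h, IsUnit.unit_spec]

@[simp] theorem unitOf_one (M : ℕ) : unitOf M 1 = 1 := by
  apply Units.ext
  rw [val_unitOf (by simp)]
  simp

theorem isUnit_prime {M p : ℕ} (hp : p.Prime) (h : ¬ p ∣ M) : IsUnit (((p : ℤ)) : ZMod M) := by
  rw [Int.cast_natCast]
  exact (ZMod.isUnit_iff_coprime _ _).mpr ((Nat.Prime.coprime_iff_not_dvd hp).mpr h)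

theorem unitOf_eq_of_val {M : ℕ} {m : ℤ} {u : (ZMod M)ˣ} (h : ((m : ℤ) : ZMod M) = u) :
    unitOf M m = u := by
  apply Units.ext
  rw [val_unitOf (by rw [h]; exact u.isUnit), h]

theorem unitOf_mul {M : ℕ} {m n : ℤ} (hm : IsUnit ((m : ℤ) : ZMod M))
    (hn : IsUnit ((n : ℤ) : ZMod M)) : unitOf M (m * n) = unitOf M m * unitOf M n := by
  apply unitOf_eq_of_val
  rw [Units.val_mul, val_unitOf hm, val_unitOf hn, Int.cast_mul]

theorem unitOf_congr {M : ℕ} {m n : ℤ} (h : ((m : ℤ) : ZMod M) = ((n : ℤ) : ZMod M)) :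
    unitOf M m = unitOf M n := by
  by_cases hn : IsUnit ((n : ℤ) : ZMod M)
  · apply unitOf_eq_of_val
    rw [h, val_unitOf hn]
  · have hm : ¬ IsUnit ((m : ℤ) : ZMod M) := by rwa [h]
    rw [unitOf, dif_neg hm, unitOf, dif_neg hn]

/-! ### Twisted cohomology of `Γ₀(M)` -/

section HM

variable (M : ℕ) {R : Type*} [CommRing R] (ε : (ZMod M)ˣ →* Rˣ)
variable (A : Type*) [AddCommGroup A] [Module R A]

/-- the character `g ↦ ε (a_g)` of `Γ₀(M)` -/
abbrev chr : Gamma0 M →* Rˣ := ε.comp (aMap M)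

/-- `Z¹(Γ₀(M), A(ε))` -/
abbrev ZM : Submodule R (Gamma0 M → A) := Z1 (chr M ε) A

/-- `H¹(Γ₀(M), A(ε))` -/
abbrev HM : Type _ := H1 (chr M ε) A

theorem mem_H0_iff [NeZero M] {a : A} :
    a ∈ H0 (chr M ε) A ↔ ∀ u : (ZMod M)ˣ, (ε u : R) • a = a := by
  rw [mem_H0]
  constructor
  · intro h u
    obtain ⟨g, rfl⟩ := aMap_surjective M u
    exact h g
  · intro h g
    exact h _

end HM

/-! ### Representatives -/

section Rep

variable {Γ Γ' Γ'' : Subgroup SL(2, ℤ)} {X Y : Type*}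

theorem coe_mul_mul (g h : Γ) (B : Matrix (Fin 2) (Fin 2) ℤ) :
    (((g * h : Γ) : SL(2, ℤ)) : Matrix (Fin 2) (Fin 2) ℤ) * B =
      ((g : SL(2, ℤ)) : Matrix (Fin 2) (Fin 2) ℤ) *
        (((h : SL(2, ℤ)) : Matrix (Fin 2) (Fin 2) ℤ) * B) := by
  rw [← Matrix.mul_assoc]
  rfl

theorem coe_inv_mul_cancel (g : Γ) (B : Matrix (Fin 2) (Fin 2) ℤ) :
    (((g⁻¹ : Γ) : SL(2, ℤ)) : Matrix (Fin 2) (Fin 2) ℤ) *
        (((g : SL(2, ℤ)) : Matrix (Fin 2) (Fin 2) ℤ) * B) = B := by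
  rw [← coe_mul_mul, inv_mul_cancel]
  exact Matrix.one_mul B

theorem mul_inv_mul_coe (g h : Γ) :
    (((g * h⁻¹ : Γ) : SL(2, ℤ)) : Matrix (Fin 2) (Fin 2) ℤ) *
        ((h : SL(2, ℤ)) : Matrix (Fin 2) (Fin 2) ℤ) =
      ((g : SL(2, ℤ)) : Matrix (Fin 2) (Fin 2) ℤ) := by
  have h1 : g * h⁻¹ * h = g := inv_mul_cancel_right g h
  conv_rhs => rw [← h1]
  rfl

/-- The correspondence `S` is given by the integral matrices `r`. -/
structure IsRep (S : Corr Γ Γ' X) (r : X → Matrix (Fin 2) (Fin 2) ℤ) : Prop where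
  det_pos : ∀ x, 0 < (r x).det
  spec : ∀ (g : Γ') (x : X), r x * ((g : SL(2, ℤ)) : Matrix (Fin 2) (Fin 2) ℤ) =
    ((S.coc g x : SL(2, ℤ)) : Matrix (Fin 2) (Fin 2) ℤ) * r (S.act g x)

theorem IsRep.comp {S : Corr Γ Γ' X} {r : X → Matrix (Fin 2) (Fin 2) ℤ} {T : Corr Γ' Γ'' Y}
    {t : Y → Matrix (Fin 2) (Fin 2) ℤ} (hS : IsRep S r) (hT : IsRep T t) :
    IsRep (S.comp T) (fun p => r p.1 * t p.2) where
  det_pos p := by
    rw [Matrix.det_mul]
    exact mul_pos (hS.det_pos _) (hT.det_pos _)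
  spec g p := by
    show r p.1 * t p.2 * ((g : SL(2, ℤ)) : Matrix (Fin 2) (Fin 2) ℤ) =
      ((S.coc (T.coc g p.2) p.1 : SL(2, ℤ)) : Matrix (Fin 2) (Fin 2) ℤ) *
        (r (S.act (T.coc g p.2) p.1) * t (T.act g p.2))
    rw [Matrix.mul_assoc, hT.spec, ← Matrix.mul_assoc, hS.spec, Matrix.mul_assoc]

theorem IsRep.sum {S : Corr Γ Γ' X} {r : X → Matrix (Fin 2) (Fin 2) ℤ} {T : Corr Γ Γ' Y}
    {t : Y → Matrix (Fin 2) (Fin 2) ℤ} (hS : IsRep S r) (hT : IsRep T t) :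
    IsRep (S.sum T) (Sum.elim r t) where
  det_pos p := by
    cases p with
    | inl x => exact hS.det_pos x
    | inr y => exact hT.det_pos y
  spec g p := by
    cases p with
    | inl x => exact hS.spec g x
    | inr y => exact hT.spec g y

/-- distinct matrices `t y` give distinct cosets `ℚ_{>0} Γ (t y)` -/
def PInj (Γ : Subgroup SL(2, ℤ)) (t : Y → Matrix (Fin 2) (Fin 2) ℤ) : Prop :=
  ∀ (x y : Y) (c : Γ) (n m : ℤ), 0 < n → 0 < m →
    n • t x = m • (((c : SL(2, ℤ)) : Matrix (Fin 2) (Fin 2) ℤ) * t y) → x = y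

theorem mul_right_cancel_of_det {A B C : Matrix (Fin 2) (Fin 2) ℤ} (hC : 0 < C.det)
    (h : A * C = B * C) : A = B := by
  have h1 : A * C * C.adjugate = B * C * C.adjugate := by rw [h]
  rw [Matrix.mul_assoc, Matrix.mul_adjugate, Matrix.mul_assoc, Matrix.mul_adjugate,
    Matrix.mul_smul, Matrix.mul_smul, Matrix.mul_one, Matrix.mul_one] at h1
  ext i j
  have h2 := congrFun (congrFun h1 i) j
  simp only [Matrix.smul_apply, smul_eq_mul] at h2
  exact mul_left_cancel₀ hC.ne' h2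

theorem pos_smul_eq_of_det {n m : ℤ} (hn : 0 < n) (hm : 0 < m) {A B : Matrix (Fin 2) (Fin 2) ℤ}
    (hA : 0 < A.det) (hAB : A.det = B.det) (h : n • A = m • B) : n = m ∧ A = B := by
  have h1 := congrArg Matrix.det h
  rw [Matrix.det_smul, Matrix.det_smul, ← hAB, Fintype.card_fin] at h1
  have h2 : n ^ 2 = m ^ 2 := mul_right_cancel₀ hA.ne' h1
  have h3 : n = m := by
    rcases sq_eq_sq_iff_eq_or_eq_neg.mp h2 with h | h
    · exact h
    · omega
  refine ⟨h3, ?_⟩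
  rw [h3] at h
  ext i j
  have h4 := congrFun (congrFun h i) j
  simp only [Matrix.smul_apply, smul_eq_mul] at h4
  exact mul_left_cancel₀ hm.ne' h4

/-- For representatives of constant determinant, injectivity is equivalent to the
non-projective one. -/
theorem pInj_of_det {t : Y → Matrix (Fin 2) (Fin 2) ℤ} (d : ℤ) (hd : 0 < d)
    (hdet : ∀ y, (t y).det = d)
    (h : ∀ (x y : Y) (c : Γ), t x = ((c : SL(2, ℤ)) : Matrix (Fin 2) (Fin 2) ℤ) * t y → x = y) :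
    PInj Γ t := by
  intro x y c n m hn hm hnm
  have h1 := (pos_smul_eq_of_det hn hm (by rw [hdet]; exact hd) (by
    rw [Matrix.det_mul, Matrix.SpecialLinearGroup.det_coe, one_mul, hdet, hdet]) hnm).2
  exact h x y c h1

/-- the cocycle comparison, from the representatives -/
theorem coc_eq {S : Corr Γ Γ' X} {r : X → Matrix (Fin 2) (Fin 2) ℤ} {T : Corr Γ Γ' Y}
    {t : Y → Matrix (Fin 2) (Fin 2) ℤ} (hS : IsRep S r) (hT : IsRep T t) (hinj : PInj Γ t)
    (e : X → Y) (κ : X → Γ)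
    (hκ : ∀ x, ∃ n m : ℤ, 0 < n ∧ 0 < m ∧
      n • r x = m • (((κ x : SL(2, ℤ)) : Matrix (Fin 2) (Fin 2) ℤ) * t (e x)))
    (g : Γ') (x : X) :
    e (S.act g x) = T.act g (e x) ∧ κ x * T.coc g (e x) = S.coc g x * κ (S.act g x) := by
  obtain ⟨n, m, hn, hm, h1⟩ := hκ x
  obtain ⟨n', m', hn', hm', h2⟩ := hκ (S.act g x)
  have h3 := congrArg (fun z => n' • (z * ((g : SL(2, ℤ)) : Matrix (Fin 2) (Fin 2) ℤ))) h1
  simp only [Matrix.smul_mul, Matrix.mul_assoc, hS.spec, hT.spec] at h3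
  have h4 := congrArg (fun z => n • (((S.coc g x : SL(2, ℤ)) : Matrix (Fin 2) (Fin 2) ℤ) * z)) h2
  simp only [Matrix.mul_smul] at h4
  rw [smul_comm n' n, h4] at h3
  rw [smul_smul, smul_smul, ← Matrix.mul_assoc, ← Matrix.mul_assoc,
    ← Matrix.SpecialLinearGroup.coe_mul, ← Matrix.SpecialLinearGroup.coe_mul,
    ← Subgroup.coe_mul, ← Subgroup.coe_mul] at h3
  have he : e (S.act g x) = T.act g (e x) := by
    refine hinj _ _ ((S.coc g x * κ (S.act g x))⁻¹ * (κ x * T.coc g (e x))) (n * m') (n' * m)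
      (mul_pos hn hm') (mul_pos hn' hm) ?_
    have h5 := congrArg (fun z =>
      ((((S.coc g x * κ (S.act g x))⁻¹ : Γ) : SL(2, ℤ)) : Matrix (Fin 2) (Fin 2) ℤ) * z) h3
    simp only [Matrix.mul_smul] at h5
    rw [← Matrix.mul_assoc, ← Matrix.mul_assoc, ← Matrix.SpecialLinearGroup.coe_mul,
      ← Matrix.SpecialLinearGroup.coe_mul, ← Subgroup.coe_mul, ← Subgroup.coe_mul,
      inv_mul_cancel, Subgroup.coe_one, Matrix.SpecialLinearGroup.coe_one, Matrix.one_mul] at h5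
    exact h5
  refine ⟨he, ?_⟩
  rw [he] at h3
  have h6 := (pos_smul_eq_of_det (mul_pos hn hm') (mul_pos hn' hm) (by
    rw [Matrix.det_mul, Matrix.SpecialLinearGroup.det_coe, one_mul]
    exact hT.det_pos _) (by
    rw [Matrix.det_mul, Matrix.det_mul, Matrix.SpecialLinearGroup.det_coe,
      Matrix.SpecialLinearGroup.det_coe]) h3).2
  have h7 := mul_right_cancel_of_det (hT.det_pos _) h6
  exact (Subtype.ext (Subtype.ext h7)).symm

end Rep

/-! ### Weights from the upper left entry -/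

section Weights

variable {M : ℕ} {R : Type*} [CommRing R] (ε : (ZMod M)ˣ →* Rˣ)

/-- the weight attached to a unit -/
def wt (u : (ZMod M)ˣ) : R := ((ε u)⁻¹ : Rˣ)

@[simp] theorem wt_one : wt ε 1 = 1 := by simp [wt]

theorem wt_mul (u v : (ZMod M)ˣ) : wt ε (u * v) = wt ε u * wt ε v := by
  simp [wt, mul_comm]

theorem wt_mul_eps (u v : (ZMod M)ˣ) : wt ε (u * v) * (ε u : R) = wt ε v := by
  rw [wt_mul, mul_right_comm, wt, Units.inv_mul, one_mul]

variable {Γ Γ' : Type*} [Group Γ] [Group Γ'] {X : Type*}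

theorem isWeight_wt (S : Corr Γ Γ' X) (α : Γ →* (ZMod M)ˣ) (α' : Γ' →* (ZMod M)ˣ)
    (u : X → (ZMod M)ˣ) (h : ∀ g x, u x * α' g = α (S.coc g x) * u (S.act g x)) :
    S.IsWeight (ε.comp α) (ε.comp α') (fun x => wt ε (u x)) := by
  intro g x
  have h1 := congrArg ε (h g x)
  rw [map_mul, map_mul] at h1
  have h2 : (ε (u x))⁻¹ * ε (α (S.coc g x)) = ε (α' g) * (ε (u (S.act g x)))⁻¹ := by
    rw [inv_mul_eq_iff_eq_mul, ← mul_assoc, h1, mul_assoc, mul_inv_cancel, mul_one]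
  exact congrArg (Units.val) h2

end Weights

end Fermat.Agent.TwHecke

end
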