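import Fermat.Agent.TwHecke.Degen

/-!
# Relations between Hecke operators and degeneracy maps
-/

set_option autoImplicit false

noncomputable section

open Matrix.SpecialLinearGroup CongruenceSubgroup
open scoped MatrixGroups

namespace Fermat.Agent.TwHecke

open HeckePar

/-! ### Preliminaries -/

section Prelim

theorem one_mul_coe {M : ℕ} (B : Matrix (Fin 2) (Fin 2) ℤ) :
    (((1 : Gamma0 M) : SL(2, ℤ)) : Matrix (Fin 2) (Fin 2) ℤ) * B = B := by
  show (1 : Matrix (Fin 2) (Fin 2) ℤ) * B = B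
  rw [Matrix.one_mul]

theorem pInj_intRep {Γ : Subgroup SL(2, ℤ)} {X : Type*} {p : ℕ} [hp : Fact p.Prime]
    (f : X → Option (ZMod p)) (hf : Function.Injective f) (t : X → Matrix (Fin 2) (Fin 2) ℤ)
    (ht : ∀ x, t x = intRep p (f x)) : PInj Γ t := by
  refine pInj_of_det (p : ℤ) (by exact_mod_cast hp.out.pos) (fun x => by rw [ht, det_intRep]) ?_
  intro x y c h
  rw [ht, ht] at h
  exact hf (intRep_unique hp.out 1 not_dvd_one _ _ _ (by rw [one_smul]; exact h))

theorem unitsMap_hu {M M' p : ℕ} [Fact p.Prime] (h : M ∣ M') (y : HIdx M' p) (x : HIdx M p)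
    (hxy : x.1 = y.1) : ZMod.unitsMap h (hu M' p y) = hu M p x := by
  apply Units.ext
  rw [val_hu, hxy]
  show ZMod.castHom h (ZMod M) (hu M' p y : ZMod M') = _
  rw [val_hu, map_intCast]

/-- comparison of the Hecke index sets -/
def hidxEquiv {M M' p : ℕ} (h : p ∣ M' ↔ p ∣ M) : HIdx M p ≃ HIdx M' p where
  toFun x := ⟨x.1, fun h' => x.2 (h.mp h')⟩
  invFun x := ⟨x.1, fun h' => x.2 (h.mpr h')⟩
  left_inv _ := rfl
  right_inv _ := rfl

theorem wt_infl {M M' : ℕ} (h : M ∣ M') {R : Type*} [CommRing R] (ε : (ZMod M)ˣ →* Rˣ)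
    (u : (ZMod M')ˣ) : wt (infl h ε) u = wt ε (ZMod.unitsMap h u) := rfl

theorem chr_one {M : ℕ} {R : Type*} [CommRing R] (ε : (ZMod M)ˣ →* Rˣ) :
    ((chr M ε 1 : Rˣ) : R) = 1 := by rw [map_one, Units.val_one]

end Prelim

section ResHecke

variable {M M' p : ℕ} [hp : Fact p.Prime] {R : Type*} [CommRing R] (ε : (ZMod M)ˣ →* Rˣ)
variable {A : Type*} [AddCommGroup A] [Module R A]

/-- Restriction commutes with the Hecke operators at primes not changing type. -/
theorem res_heckeH (h : M ∣ M') (hpM : p ∣ M' → p ∣ M) (x : HM M ε A) :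
    res h ε A (heckeH M p ε A x) = heckeH M' p (infl h ε) A (res h ε A x) := by
  have e1 : res h ε A (heckeH M p ε A x) = ((heckeCorr M p).comp (resCorr h)).tr A
      ((hecke_isWeight M p ε).comp (res_isWeight h ε 1)) x := (Corr.tr_comp _ _ _ _ x).symm
  have e2 : heckeH M' p (infl h ε) A (res h ε A x) = ((resCorr h).comp (heckeCorr M' p)).tr A
      ((res_isWeight h ε 1).comp (hecke_isWeight M' p (infl h ε))) x :=
    (Corr.tr_comp _ _ _ _ x).symm
  rw [e1, e2]
  refine tr_eq_of_rep ((heckeCorr_isRep M p).comp (resCorr_isRep h))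
    ((resCorr_isRep h).comp (heckeCorr_isRep M' p)) ?_ ?_ _ _ ?_ ?_ x
  · exact pInj_intRep (fun z => z.1.1) (fun a b hab => Prod.ext (Subtype.ext hab) rfl) _
      (fun z => by rw [Matrix.mul_one])
  · exact pInj_intRep (fun z => z.2.1) (fun a b hab => Prod.ext rfl (Subtype.ext hab)) _
      (fun z => by rw [Matrix.one_mul])
  · rintro ⟨x, -⟩
    refine ⟨((), ⟨x.1, fun h' => x.2 (hpM h')⟩), 1, 1, 1, one_pos, one_pos, ?_, ?_⟩
    · rw [one_smul, one_smul, one_mul_coe, Matrix.one_mul, Matrix.mul_one]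
    · rw [chr_one, mul_one, one_mul, mul_one, wt_infl, unitsMap_hu h _ x rfl]
  · rintro ⟨-, y⟩
    refine ⟨(⟨y.1, fun h' => y.2 (h'.trans h)⟩, ()), 1, 1, 1, one_pos, one_pos, ?_⟩
    rw [one_smul, one_smul, one_mul_coe, Matrix.one_mul, Matrix.mul_one]

end ResHecke

section DegBHecke

variable {M M' p q : ℕ} [hp : Fact p.Prime] {R : Type*} [CommRing R] (ε : (ZMod M)ˣ →* Rˣ)
variable {A : Type*} [AddCommGroup A] [Module R A]

theorem det_diag (q : ℕ) : (!![(q : ℤ), 0; 0, 1] : Matrix (Fin 2) (Fin 2) ℤ).det = q := by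
  rw [Matrix.det_fin_two_of]; ring

/-- The second degeneracy map commutes with the Hecke operators at primes not dividing `q`. -/
theorem degB_heckeH (hq : q ≠ 0) (h : M * q ∣ M') (hpq : ¬ p ∣ q) (hpM : p ∣ M' ↔ p ∣ M)
    (x : HM M ε A) :
    degB hq h ε A (heckeH M p ε A x) =
      heckeH M' p (infl (dvd_of_mul h) ε) A (degB hq h ε A x) := by
  have : NeZero p := ⟨hp.out.ne_zero⟩
  have hqp : 0 < q := Nat.pos_of_ne_zero hq
  have e1 : degB hq h ε A (heckeH M p ε A x) = ((heckeCorr M p).comp (bCorr hq h)).tr A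
      ((hecke_isWeight M p ε).comp (b_isWeight hq h ε 1)) x := (Corr.tr_comp _ _ _ _ x).symm
  have e2 : heckeH M' p (infl (dvd_of_mul h) ε) A (degB hq h ε A x) =
      ((bCorr hq h).comp (heckeCorr M' p)).tr A
      ((b_isWeight hq h ε 1).comp (hecke_isWeight M' p (infl (dvd_of_mul h) ε))) x :=
    (Corr.tr_comp _ _ _ _ x).symm
  rw [e1, e2]
  have hpq' : ¬ (p : ℤ) ∣ (q : ℤ) := by exact_mod_cast hpq
  refine tr_eq_of_card ((heckeCorr_isRep M p).comp (bCorr_isRep hq h))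
    ((bCorr_isRep hq h).comp (heckeCorr_isRep M' p)) ?_ ?_ _ _ ?_ ?_ x
  · refine pInj_of_det ((p : ℤ) * q) (by exact_mod_cast mul_pos hp.out.pos hqp)
      (fun x => by rw [Matrix.det_mul, det_intRep, det_diag]) ?_
    rintro ⟨x, ⟨⟩⟩ ⟨y, ⟨⟩⟩ c hc
    rw [← Matrix.mul_assoc] at hc
    have h1 := mul_right_cancel_of_det (by rw [det_diag]; exact_mod_cast hqp) hc
    have h2 := intRep_unique hp.out 1 not_dvd_one _ _ _ (by rw [one_smul]; exact h1)
    exact Prod.ext (Subtype.ext h2) rfl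
  · refine pInj_of_det ((q : ℤ) * p) (by exact_mod_cast mul_pos hqp hp.out.pos)
      (fun x => by rw [Matrix.det_mul, det_intRep, det_diag]) ?_
    rintro ⟨⟨⟩, x⟩ ⟨⟨⟩, y⟩ c hc
    have h1 := congrArg (fun z => (!![(q : ℤ), 0; 0, 1] : Matrix (Fin 2) (Fin 2) ℤ).adjugate * z) hc
    simp only [← Matrix.mul_assoc] at h1
    rw [Matrix.adjugate_mul, det_diag, Matrix.smul_mul, Matrix.one_mul] at h1
    have h2 := intRep_unique hp.out q hpq' _ _ _ h1
    exact Prod.ext rfl (Subtype.ext h2)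
  · rintro ⟨⟨x, hx⟩, -⟩
    cases x with
    | none =>
      refine ⟨((), ⟨none, fun h' => hx (hpM.mp h')⟩), 1, 1, 1, one_pos, one_pos, ?_, ?_⟩
      · rw [one_smul, one_smul, one_mul_coe]
        ext i j
        fin_cases i <;> fin_cases j <;> simp [Matrix.mul_apply, Fin.sum_univ_two, mul_comm]
      · rw [chr_one, mul_one, one_mul, mul_one, wt_infl, unitsMap_hu (dvd_of_mul h) _ ⟨none, hx⟩ rfl]
    | some j =>
      have hq0 : (q : ZMod p) ≠ 0 := by rwa [Ne, ZMod.natCast_eq_zero_iff]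
      obtain ⟨i, hi⟩ : ∃ i : ZMod p, j = q * i := ⟨j / q, by field_simp⟩
      obtain ⟨s, hs⟩ : (p : ℤ) ∣ (j.val : ℤ) - q * i.val := by
        rw [← ZMod.intCast_zmod_eq_zero_iff_dvd]
        push_cast
        rw [ZMod.natCast_zmod_val, ZMod.natCast_zmod_val, hi, sub_self]
      refine ⟨((), ⟨some i, fun _ => by simp⟩), mkG M 1 s 0 1 (by ring) (dvd_zero _), 1, 1,
        one_pos, one_pos, ?_, ?_⟩
      · rw [one_smul, one_smul, coe_mkG, eq_mul_iff_entries]
        simp only [entry_mul, intRep_some, Matrix.of_apply, Matrix.cons_val',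
          Matrix.cons_val_zero, Matrix.cons_val_one, Matrix.cons_val_fin_one]
        refine ⟨by ring, ?_, by ring, by ring⟩
        linear_combination hs
      · show 1 * wt (infl (dvd_of_mul h) ε) (hu M' p ⟨some i, fun _ => by simp⟩) =
          wt ε (hu M p ⟨some j, hx⟩) * 1 * ((ε (aMap M (mkG M 1 s 0 1 _ _)) : Rˣ) : R)
        rw [hu_some, hu_some, aMap_mkG, unitOf_one]
        simp
  · rw [Fintype.card_prod, Fintype.card_prod, Fintype.card_unit, mul_one, one_mul]
    exact Fintype.card_congr (hidxEquiv hpM)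

end DegBHecke

section UpB

variable {M M' q : ℕ} [hq : Fact q.Prime] {R : Type*} [CommRing R] (ε : (ZMod M)ˣ →* Rˣ)
variable {A : Type*} [AddCommGroup A] [Module R A]

/-- `U_q ∘ B = q · res`. -/
theorem heckeU_degB (h : M * q ∣ M') (x : HM M ε A) :
    heckeH M' q (infl (dvd_of_mul h) ε) A (degB hq.out.ne_zero h ε A x) =
      (q : R) • res (dvd_of_mul h) ε A x := by
  have : NeZero q := ⟨hq.out.ne_zero⟩
  have hqM' : q ∣ M' := (dvd_mul_left q M).trans h
  have e1 : heckeH M' q (infl (dvd_of_mul h) ε) A (degB hq.out.ne_zero h ε A x) =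
      ((bCorr hq.out.ne_zero h).comp (heckeCorr M' q)).tr A
      ((b_isWeight hq.out.ne_zero h ε 1).comp (hecke_isWeight M' q (infl (dvd_of_mul h) ε))) x :=
    (Corr.tr_comp _ _ _ _ x).symm
  have e2 : (q : R) • res (dvd_of_mul h) ε A x =
      (resCorr (dvd_of_mul h)).tr A ((res_isWeight (dvd_of_mul h) ε 1).smul (q : R)) x :=
    (Corr.tr_smul _ _ _ _).symm
  rw [e1, e2]
  have hS := (bCorr_isRep hq.out.ne_zero h).comp (heckeCorr_isRep M' q)
  refine Corr.tr_eq_of_map _ _ _ _ (fun _ => ())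
    (fun z => mkG M 1 (((hidxEquivOfDvd hqM' z.2).val : ℕ) : ℤ) 0 1 (by ring) (dvd_zero _))
    (fun g z => ?_) ?_ x
  · refine (coc_eq hS (resCorr_isRep (dvd_of_mul h)) (pInj_unit _ _) (fun _ => ())
      (fun z => mkG M 1 (((hidxEquivOfDvd hqM' z.2).val : ℕ) : ℤ) 0 1 (by ring) (dvd_zero _))
      (fun z => ⟨1, q, one_pos, by exact_mod_cast hq.out.pos, ?_⟩) g z).2
    obtain ⟨-, z, hz⟩ := z
    cases z with
    | none => exact absurd rfl (hz hqM')
    | some j =>
      have hj : hidxEquivOfDvd hqM' ⟨some j, hz⟩ = j := rfl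
      show (1 : ℤ) • (!![(q : ℤ), 0; 0, 1] * intRep q (some j)) = (q : ℤ) •
        ((((mkG M 1 (((hidxEquivOfDvd hqM' ⟨some j, hz⟩).val : ℕ) : ℤ) 0 1 _ _ : Gamma0 M) :
          SL(2, ℤ)) : Matrix (Fin 2) (Fin 2) ℤ) * 1)
      rw [hj, one_smul, coe_mkG, Matrix.mul_one, intRep_some]
      ext a b
      fin_cases a <;> fin_cases b <;> simp [Matrix.mul_apply, Fin.sum_univ_two]
  · rintro ⟨⟩
    have h1 : ∀ z : Unit × HIdx M' q, (1 : R) * wt (infl (dvd_of_mul h) ε) (hu M' q z.2) *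
        ((chr M ε (mkG M 1 (((hidxEquivOfDvd hqM' z.2).val : ℕ) : ℤ) 0 1 (by ring)
          (dvd_zero _)) : Rˣ) : R) = 1 := by
      rintro ⟨-, z, hz⟩
      cases z with
      | none => exact absurd rfl (hz hqM')
      | some j =>
        rw [hu_some, wt_one, one_mul, one_mul]
        show ((ε (aMap M (mkG M 1 _ 0 1 _ _)) : Rˣ) : R) = 1
        rw [aMap_mkG, unitOf_one, map_one, Units.val_one]
    simp only [h1]
    rw [mul_one, Finset.sum_const, Finset.filter_true, Finset.card_univ,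
      Fintype.card_prod, Fintype.card_unit, one_mul, Fintype.card_congr (hidxEquivOfDvd hqM'),
      ZMod.card, nsmul_eq_mul, mul_one]

/-- `res ∘ T_q = U_q ∘ res + ε(q)⁻¹ B`, for `q ∤ M`. -/
theorem res_heckeT (h : M * q ∣ M') (hqM : ¬ q ∣ M) (x : HM M ε A) :
    res (dvd_of_mul h) ε A (heckeH M q ε A x) =
      heckeH M' q (infl (dvd_of_mul h) ε) A (res (dvd_of_mul h) ε A x) +
        wt ε (unitOf M q) • degB hq.out.ne_zero h ε A x := by
  have : NeZero q := ⟨hq.out.ne_zero⟩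
  have hqM' : q ∣ M' := (dvd_mul_left q M).trans h
  have e1 : res (dvd_of_mul h) ε A (heckeH M q ε A x) =
      ((heckeCorr M q).comp (resCorr (dvd_of_mul h))).tr A
      ((hecke_isWeight M q ε).comp (res_isWeight (dvd_of_mul h) ε 1)) x :=
    (Corr.tr_comp _ _ _ _ x).symm
  have e2 : heckeH M' q (infl (dvd_of_mul h) ε) A (res (dvd_of_mul h) ε A x) +
        wt ε (unitOf M q) • degB hq.out.ne_zero h ε A x =
      (((resCorr (dvd_of_mul h)).comp (heckeCorr M' q)).sum (bCorr hq.out.ne_zero h)).tr A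
      (((res_isWeight (dvd_of_mul h) ε 1).comp (hecke_isWeight M' q _)).sum
        ((b_isWeight hq.out.ne_zero h ε 1).smul (wt ε (unitOf M q)))) x := by
    rw [Corr.tr_sum]
    congr 1
    · exact (Corr.tr_comp _ _ _ _ _).symm
    · exact (Corr.tr_smul _ _ _ _).symm
  rw [e1, e2]
  refine tr_eq_of_rep ((heckeCorr_isRep M q).comp (resCorr_isRep _))
    (((resCorr_isRep _).comp (heckeCorr_isRep M' q)).sum (bCorr_isRep hq.out.ne_zero h))
      ?_ ?_ _ _ ?_ ?_ x
  · exact pInj_intRep (fun z => z.1.1) (fun a b hab => Prod.ext (Subtype.ext hab) rfl) _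
      (fun z => by rw [Matrix.mul_one])
  · refine pInj_intRep (Sum.elim (fun z => z.2.1) (fun _ => none)) ?_ _ ?_
    · rintro (⟨⟨⟩, a⟩ | ⟨⟩) (⟨⟨⟩, b⟩ | ⟨⟩) hab
      · exact congrArg Sum.inl (Prod.ext rfl (Subtype.ext hab))
      · exact absurd hab (a.2 hqM')
      · exact absurd hab.symm (b.2 hqM')
      · rfl
    · rintro (⟨-, a⟩ | ⟨⟩)
      · simp only [Sum.elim_inl, Matrix.one_mul]
      · rfl
  · rintro ⟨⟨z, hz⟩, -⟩
    cases z with
    | none =>
      refine ⟨Sum.inr (), 1, 1, 1, one_pos, one_pos, ?_, ?_⟩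
      · rw [one_smul, one_smul, one_mul_coe, Matrix.mul_one]
        rfl
      · rw [chr_one, Sum.elim_inr, hu_none]
        ring
    | some j =>
      refine ⟨Sum.inl ((), ⟨some j, fun _ => by simp⟩), 1, 1, 1, one_pos, one_pos, ?_, ?_⟩
      · rw [one_smul, one_smul, one_mul_coe, Matrix.mul_one, Sum.elim_inl, Matrix.one_mul]
      · rw [chr_one, Sum.elim_inl, hu_some, hu_some, wt_one, wt_one]
        ring
  · rintro (⟨-, z, hz⟩ | ⟨⟩)
    · cases z with
      | none => exact absurd rfl (hz hqM')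
      | some j =>
        refine ⟨(⟨some j, fun _ => by simp⟩, ()), 1, 1, 1, one_pos, one_pos, ?_⟩
        rw [one_smul, one_smul, one_mul_coe, Matrix.mul_one, Sum.elim_inl, Matrix.one_mul]
    · refine ⟨(⟨none, fun h' => absurd h' hqM⟩, ()), 1, 1, 1, one_pos, one_pos, ?_⟩
      rw [one_smul, one_smul, one_mul_coe, Matrix.mul_one]
      rfl

end UpB

end Fermat.Agent.TwHecke

end
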