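import Fermat.Agent.TwHecke.Rel

/-!
# Relations for the trace and the Atkin–Lehner operator
-/

set_option autoImplicit false

noncomputable section

open Matrix.SpecialLinearGroup CongruenceSubgroup
open scoped MatrixGroups

namespace Fermat.Agent.TwHecke

open HeckePar

variable {M q : ℕ} {R : Type*} [CommRing R] (ε : (ZMod M)ˣ →* Rˣ)
variable {A : Type*} [AddCommGroup A] [Module R A]

theorem eps_wt (u : (ZMod M)ˣ) : wt ε u * (ε u : R) = 1 := by
  rw [wt, Units.inv_mul]

theorem eps_wt' (u : (ZMod M)ˣ) : (ε u : R) * wt ε u = 1 := by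
  rw [wt, Units.mul_inv]

theorem pInj_subsingleton (Γ : Subgroup SL(2, ℤ)) {Y : Type*} [Subsingleton Y]
    (r : Y → Matrix (Fin 2) (Fin 2) ℤ) : PInj Γ r :=
  fun _ _ _ _ _ _ _ _ => Subsingleton.elim _ _

/-- the identity correspondence -/
def idCorr (Γ : Type*) [Group Γ] : Corr Γ Γ Unit := Corr.ofHom (MonoidHom.id Γ)

theorem id_isWeight {Γ : Type*} [Group Γ] (χ : Γ →* Rˣ) (r : R) :
    (idCorr Γ).IsWeight χ χ (fun _ => r) := Corr.ofHom_isWeight _ (fun _ => rfl) r

theorem tr_idCorr {Γ : Type*} [Group Γ] (χ : Γ →* Rˣ) (r : R) (x : H1 χ A) :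
    (idCorr Γ).tr A (id_isWeight χ r) x = r • x := by
  induction x using H1.ind with
  | h c =>
    rw [Corr.tr_mk, ← H1.mk_smul]
    congr 1
    ext g
    simp [idCorr, Corr.ofHom]

theorem idCorr_isRep (Γ : Subgroup SL(2, ℤ)) : IsRep (idCorr Γ) (fun _ => 1) :=
  isRep_ofHom _ 1 (by simp) fun g => by rw [Matrix.one_mul, Matrix.mul_one]; rfl

/-! ### Atkin–Lehner -/

section AL

variable (hq : q.Prime) (hM : ¬ q ∣ M)

/-- `w ∘ res = ε(q)⁻¹ B` -/
theorem wq_res (x : HM M ε A) :
    wq hq hM ε A (res (dvd_mul_right M q) ε A x) =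
      wt ε (unitOf M q) • degB hq.ne_zero (dvd_refl (M * q)) ε A x := by
  have e1 : wq hq hM ε A (res (dvd_mul_right M q) ε A x) =
      ((resCorr (dvd_mul_right M q)).comp (wCorr hq hM)).tr A
      ((res_isWeight (dvd_mul_right M q) ε 1).comp (w_isWeight hq hM ε (wt ε (unitOf M q)))) x :=
    (Corr.tr_comp _ _ _ _ x).symm
  have e2 : wt ε (unitOf M q) • degB hq.ne_zero (dvd_refl (M * q)) ε A x =
      (bCorr hq.ne_zero (dvd_refl (M * q))).tr A
      ((b_isWeight hq.ne_zero (dvd_refl (M * q)) ε 1).smul (wt ε (unitOf M q))) x :=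
    (Corr.tr_smul _ _ _ _).symm
  rw [e1, e2]
  refine tr_eq_of_rep ((resCorr_isRep _).comp (wCorr_isRep hq hM))
    (bCorr_isRep hq.ne_zero (dvd_refl (M * q))) (pInj_subsingleton _ _) (pInj_unit _ _)
    _ _ ?_ ?_ x
  · rintro ⟨⟨⟩, ⟨⟩⟩
    refine ⟨(), mkG M 1 (wb hq hM) M (q * wd hq hM)
      (by linear_combination wbd hq hM) (dvd_refl _), 1, 1, one_pos, one_pos, ?_, ?_⟩
    · rw [one_smul, one_smul, Matrix.one_mul, coe_mkG, wMat, eq_mul_iff_entries]
      simp
    · show wt ε (unitOf M q) * 1 = 1 * wt ε (unitOf M q) * ((ε (aMap M (mkG M 1 _ _ _ _ _)) : Rˣ) : R)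
      rw [aMap_mkG, unitOf_one, map_one, Units.val_one]
      ring
  · rintro ⟨⟩
    refine ⟨((), ()), mkG M (q * wd hq hM) (-wb hq hM) (-M) 1
      (by linear_combination wbd hq hM) (dvd_neg.mpr (dvd_refl _)), 1, 1, one_pos, one_pos, ?_⟩
    rw [one_smul, one_smul, Matrix.one_mul, coe_mkG, wMat, eq_mul_iff_entries]
    have := wbd hq hM
    simp only [Matrix.of_apply, Matrix.cons_val',
          Matrix.cons_val_zero, Matrix.cons_val_one, Matrix.cons_val_fin_one]
    refine ⟨?_, ?_, ?_, ?_⟩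
    · linear_combination (-(q : ℤ)) * this
    · ring
    · ring
    · linear_combination (-1 : ℤ) * this

/-- `w ∘ B = res` -/
theorem wq_degB (x : HM M ε A) :
    wq hq hM ε A (degB hq.ne_zero (dvd_refl (M * q)) ε A x) =
      res (dvd_mul_right M q) ε A x := by
  have e1 : wq hq hM ε A (degB hq.ne_zero (dvd_refl (M * q)) ε A x) =
      ((bCorr hq.ne_zero (dvd_refl (M * q))).comp (wCorr hq hM)).tr A
      ((b_isWeight hq.ne_zero (dvd_refl (M * q)) ε 1).comp
        (w_isWeight hq hM ε (wt ε (unitOf M q)))) x :=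
    (Corr.tr_comp _ _ _ _ x).symm
  have e2 : res (dvd_mul_right M q) ε A x = (resCorr (dvd_mul_right M q)).tr A
      (res_isWeight (dvd_mul_right M q) ε 1) x := rfl
  rw [e1, e2]
  refine tr_eq_of_rep ((bCorr_isRep hq.ne_zero (dvd_refl (M * q))).comp (wCorr_isRep hq hM))
    (resCorr_isRep _) (pInj_subsingleton _ _) (pInj_unit _ _) _ _ ?_ ?_ x
  · rintro ⟨⟨⟩, ⟨⟩⟩
    refine ⟨(), mkG M q (wb hq hM) M (wd hq hM)
      (by linear_combination wbd hq hM) (dvd_refl _), 1, q, one_pos,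
      by exact_mod_cast hq.pos, ?_, ?_⟩
    · rw [one_smul, Matrix.mul_one, coe_mkG, wMat]
      ext i j
      fin_cases i <;> fin_cases j <;> simp [Matrix.mul_apply, Fin.sum_univ_two, mul_comm]
    · show (1 : R) = 1 * wt ε (unitOf M q) * ((ε (aMap M (mkG M q _ _ _ _ _)) : Rˣ) : R)
      rw [aMap_mkG, one_mul, eps_wt]
  · rintro ⟨⟩
    refine ⟨((), ()), mkG M (wd hq hM) (-wb hq hM) (-M) q
      (by linear_combination wbd hq hM) (dvd_neg.mpr (dvd_refl _)), q, 1,
      by exact_mod_cast hq.pos, one_pos, ?_⟩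
    have := wbd hq hM
    rw [one_smul, coe_mkG, wMat, eq_mul_iff_entries]
    simp only [Matrix.of_apply, Matrix.cons_val', entry_mul, Matrix.smul_apply, smul_eq_mul,
          Matrix.cons_val_zero, Matrix.cons_val_one, Matrix.cons_val_fin_one,
          Matrix.one_apply_eq, mul_one]
    rw [show (1 : Matrix (Fin 2) (Fin 2) ℤ) 0 1 = 0 from rfl,
      show (1 : Matrix (Fin 2) (Fin 2) ℤ) 1 0 = 0 from rfl]
    refine ⟨?_, ?_, ?_, ?_⟩
    · linear_combination (-(q : ℤ)) * this
    · ring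
    · ring
    · linear_combination (-(q : ℤ)) * this

/-- `w ∘ w = ε(q)⁻¹` -/
theorem wq_wq (x : HM (M * q) (infl (dvd_mul_right M q) ε) A) :
    wq hq hM ε A (wq hq hM ε A x) = wt ε (unitOf M q) • x := by
  have e1 : wq hq hM ε A (wq hq hM ε A x) = ((wCorr hq hM).comp (wCorr hq hM)).tr A
      ((w_isWeight hq hM ε (wt ε (unitOf M q))).comp
        (w_isWeight hq hM ε (wt ε (unitOf M q)))) x :=
    (Corr.tr_comp _ _ _ _ x).symm
  have e2 : wt ε (unitOf M q) • x = (idCorr (Gamma0 (M * q))).tr A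
      (id_isWeight (chr (M * q) (infl (dvd_mul_right M q) ε)) (wt ε (unitOf M q))) x :=
    (tr_idCorr _ _ _).symm
  rw [e1, e2]
  have hbd := wbd hq hM
  refine tr_eq_of_rep ((wCorr_isRep hq hM).comp (wCorr_isRep hq hM))
    (idCorr_isRep _) (pInj_subsingleton _ _) (pInj_unit _ _) _ _ ?_ ?_ x
  · rintro ⟨⟨⟩, ⟨⟩⟩
    refine ⟨(), mkG (M * q) (q + wb hq hM * M) (wb hq hM * (1 + wd hq hM))
      (M * q * (1 + wd hq hM)) (M * wb hq hM + q * wd hq hM ^ 2) ?_ ?_, 1, q, one_pos,
      by exact_mod_cast hq.pos, ?_, ?_⟩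
    · generalize wb hq hM = b at hbd ⊢
      generalize wd hq hM = d at hbd ⊢
      linear_combination (q * d - M * b + 1) * hbd
    · push_cast
      exact dvd_mul_right _ _
    · rw [one_smul, Matrix.mul_one, coe_mkG, wMat]
      ext i j
      fin_cases i <;> fin_cases j <;> simp [Matrix.mul_apply, Fin.sum_univ_two] <;> ring
    · show wt ε (unitOf M q) = wt ε (unitOf M q) * wt ε (unitOf M q) *
        ((ε (aMap' (dvd_mul_right M q) (mkG (M * q) (q + wb hq hM * M) _ _ _ _ _)) : Rˣ) : R)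
      have h1 : aMap' (dvd_mul_right M q) (mkG (M * q) (q + wb hq hM * M)
          (wb hq hM * (1 + wd hq hM)) (M * q * (1 + wd hq hM))
          (M * wb hq hM + q * wd hq hM ^ 2) (by
            generalize wb hq hM = b at hbd ⊢
            generalize wd hq hM = d at hbd ⊢
            linear_combination (q * d - M * b + 1) * hbd) (by
            push_cast
            exact dvd_mul_right _ _)) = unitOf M q := by
        symm
        apply unitOf_eq_of_val
        rw [val_aMap']
        show ((q : ℤ) : ZMod M) = (((q : ℤ) + wb hq hM * M : ℤ) : ZMod M)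
        push_cast
        rw [ZMod.natCast_self, mul_zero, add_zero]
      rw [h1, mul_assoc, eps_wt, mul_one]
  · rintro ⟨⟩
    refine ⟨((), ()), mkG (M * q) (M * wb hq hM + q * wd hq hM ^ 2)
      (-(wb hq hM * (1 + wd hq hM))) (-(M * q * (1 + wd hq hM))) (q + wb hq hM * M) ?_ ?_, q, 1,
      by exact_mod_cast hq.pos, one_pos, ?_⟩
    · generalize wb hq hM = b at hbd ⊢
      generalize wd hq hM = d at hbd ⊢
      linear_combination (q * d - M * b + 1) * hbd
    · push_cast
      exact dvd_neg.mpr (dvd_mul_right _ _)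
    · rw [one_smul, coe_mkG, wMat, eq_mul_iff_entries]
      simp only [Matrix.of_apply, Matrix.cons_val', entry_mul, Matrix.smul_apply, smul_eq_mul,
            Matrix.cons_val_zero, Matrix.cons_val_one, Matrix.cons_val_fin_one,
            Matrix.one_apply_eq, mul_one]
      rw [show (1 : Matrix (Fin 2) (Fin 2) ℤ) 0 1 = 0 from rfl,
        show (1 : Matrix (Fin 2) (Fin 2) ℤ) 1 0 = 0 from rfl]
      generalize wb hq hM = b at hbd ⊢
      generalize wd hq hM = d at hbd ⊢
      refine ⟨?_, ?_, ?_, ?_⟩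
      · linear_combination (-(q : ℤ) * (q * d - M * b + 1)) * hbd
      · ring
      · ring
      · linear_combination (-(q : ℤ) * (q * d - M * b + 1)) * hbd

end AL

end Fermat.Agent.TwHecke

end
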