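import Fermat.Agent.TwHecke.Rel2

/-!
# Relations for the trace
-/

set_option autoImplicit false

noncomputable section

open Matrix.SpecialLinearGroup CongruenceSubgroup
open scoped MatrixGroups

namespace Fermat.Agent.TwHecke

open HeckePar

variable {M q : ℕ} {R : Type*} [CommRing R] (ε : (ZMod M)ˣ →* Rˣ)
variable {A : Type*} [AddCommGroup A] [Module R A]

section Inj

variable {Γ Γ' : Subgroup SL(2, ℤ)} {X Y : Type*} [Fintype X] [Fintype Y]
variable {ε₁ : Γ →* Rˣ} {ε₂ : Γ' →* Rˣ}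

/-- Comparison through an explicit injective map between index sets of the same cardinality. -/
theorem tr_eq_of_inj {S : Corr Γ Γ' X} {r : X → Matrix (Fin 2) (Fin 2) ℤ} {T : Corr Γ Γ' Y}
    {t : Y → Matrix (Fin 2) (Fin 2) ℤ} (hS : IsRep S r) (hT : IsRep T t)
    (ht : PInj Γ t) {w : X → R} {v : Y → R} (hw : S.IsWeight ε₁ ε₂ w) (hv : T.IsWeight ε₁ ε₂ v)
    (F : X → Y) (hF : Function.Injective F) (hcard : Fintype.card X = Fintype.card Y)
    (h1 : ∀ x, ∃ (κ : Γ) (n m : ℤ), 0 < n ∧ 0 < m ∧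
      n • r x = m • (((κ : SL(2, ℤ)) : Matrix (Fin 2) (Fin 2) ℤ) * t (F x)) ∧
        v (F x) = w x * (ε₁ κ : R)) (z : H1 ε₁ A) :
    S.tr A hw z = T.tr A hv z := by
  choose κ n m hn hm hκ hwv using h1
  refine Corr.tr_eq_of_equiv S T hw hv (Equiv.ofBijective F
    ((Fintype.bijective_iff_injective_and_card F).mpr ⟨hF, hcard⟩)) κ (fun g x => ?_)
    (fun x => hwv x) z
  exact (coc_eq hS hT ht F κ (fun x => ⟨n x, m x, hn x, hm x, hκ x⟩) g x).2

end Inj

variable (hq : q.Prime) (hM : ¬ q ∣ M)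

omit hq in
theorem card_option_zmod (q : ℕ) [NeZero q] : Fintype.card (Option (ZMod q)) = q + 1 := by
  rw [Fintype.card_option, ZMod.card]

/-- `tr ∘ res = q + 1` -/
theorem trd_res [NeZero q] (x : HM M ε A) :
    trd hq hM ε A (res (dvd_mul_right M q) ε A x) = ((q : R) + 1) • x := by
  have e1 : trd hq hM ε A (res (dvd_mul_right M q) ε A x) =
      ((resCorr (dvd_mul_right M q)).comp (trCorr hq hM)).tr A
      ((res_isWeight (dvd_mul_right M q) ε 1).comp (tr_isWeight hq hM ε)) x :=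
    (Corr.tr_comp _ _ _ _ x).symm
  have e2 : ((q : R) + 1) • x = (idCorr (Gamma0 M)).tr A (id_isWeight (chr M ε) ((q : R) + 1)) x :=
    (tr_idCorr _ _ _).symm
  rw [e1, e2]
  refine Corr.tr_eq_of_map _ _ _ _ (fun _ => ()) (fun z => kG M q z.2) (fun g z => ?_) ?_ x
  · refine (coc_eq ((resCorr_isRep (dvd_mul_right M q)).comp (trCorr_isRep hq hM))
      (idCorr_isRep _) (pInj_unit _ _) (fun _ => ()) (fun z => kG M q z.2)
      (fun z => ⟨1, 1, one_pos, one_pos, ?_⟩) g z).2
    rw [one_smul, one_smul, Matrix.one_mul, Matrix.mul_one]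
    rfl
  · rintro ⟨⟩
    have h1 : ∀ z : Unit × Option (ZMod q), (1 : R) * 1 * ((chr M ε (kG M q z.2) : Rˣ) : R) = 1 := by
      intro z
      show (1 : R) * 1 * ((ε (aMap M (kG M q z.2)) : Rˣ) : R) = 1
      rw [aMap_kG, map_one, Units.val_one]
      ring
    simp only [h1]
    rw [Finset.sum_const, Finset.filter_true, Finset.card_univ, Fintype.card_prod,
      Fintype.card_unit, one_mul, card_option_zmod q, nsmul_eq_mul, mul_one]
    push_cast
    rfl

/-- `tr ∘ B = ε(q) T_q` -/
theorem trd_degB [Fact q.Prime] [NeZero q] (x : HM M ε A) :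
    trd hq hM ε A (degB hq.ne_zero (dvd_refl (M * q)) ε A x) =
      (ε (unitOf M q) : R) • heckeH M q ε A x := by
  have e1 : trd hq hM ε A (degB hq.ne_zero (dvd_refl (M * q)) ε A x) =
      ((bCorr hq.ne_zero (dvd_refl (M * q))).comp (trCorr hq hM)).tr A
      ((b_isWeight hq.ne_zero (dvd_refl (M * q)) ε 1).comp (tr_isWeight hq hM ε)) x :=
    (Corr.tr_comp _ _ _ _ x).symm
  have e2 : (ε (unitOf M q) : R) • heckeH M q ε A x =
      (heckeCorr M q).tr A ((hecke_isWeight M q ε).smul (ε (unitOf M q) : R)) x :=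
    (Corr.tr_smul _ _ _ _).symm
  rw [e1, e2]
  refine tr_eq_of_card ((bCorr_isRep hq.ne_zero (dvd_refl (M * q))).comp (trCorr_isRep hq hM))
    (heckeCorr_isRep M q) ?_ ?_ _ _ ?_ ?_ x
  · refine pInj_of_det (q : ℤ) (by exact_mod_cast hq.pos)
      (fun x => by rw [Matrix.det_mul, det_kRep, det_diag, mul_one]) ?_
    rintro ⟨⟨⟩, x⟩ ⟨⟨⟩, y⟩ c hc
    -- `g = k_x k_y⁻¹`
    have h1 : !![(q : ℤ), 0; 0, 1] *
        (((kG M q x * (kG M q y)⁻¹ : Gamma0 M) : SL(2, ℤ)) : Matrix (Fin 2) (Fin 2) ℤ) =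
          ((c : SL(2, ℤ)) : Matrix (Fin 2) (Fin 2) ℤ) * !![(q : ℤ), 0; 0, 1] := by
      refine mul_right_cancel_of_det (C := kRep M q y) (by rw [det_kRep]; exact one_pos) ?_
      rw [Matrix.mul_assoc, ← coe_kG M q y, mul_inv_mul_coe, coe_kG, coe_kG]
      rw [Matrix.mul_assoc]
      exact hc
    obtain ⟨-, -, h10, -⟩ := (eq_mul_iff_entries _ _ _).mp h1
    rw [entry_mul] at h10
    simp only [Matrix.of_apply, Matrix.cons_val', Matrix.cons_val_zero, Matrix.cons_val_one,
      Matrix.cons_val_fin_one, zero_mul, one_mul, mul_zero, zero_add, add_zero] at h10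
    have h2 : (kG M q x * (kG M q y)⁻¹ : SL(2, ℤ)) ∈ Gamma0 (M * q) := by
      rw [Gamma0_mem, ZMod.intCast_zmod_eq_zero_iff_dvd]
      obtain ⟨z, hz⟩ := dvd_lower c
      have h3 : ((kG M q x * (kG M q y)⁻¹ : SL(2, ℤ)) : Matrix (Fin 2) (Fin 2) ℤ) 1 0 =
        (c : SL(2, ℤ)) 1 0 * q := h10
      rw [h3, hz]
      push_cast
      exact ⟨z, by ring⟩
    have h3 := kRep_inj hq hM x y ⟨_, h2⟩ (by
      show kRep M q x = (((kG M q x * (kG M q y)⁻¹ : Gamma0 M) : SL(2, ℤ)) :
        Matrix (Fin 2) (Fin 2) ℤ) * kRep M q y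
      rw [← coe_kG M q y, mul_inv_mul_coe, coe_kG])
    rw [h3]
  · exact pInj_intRep (fun z => z.1) (fun a b hab => Subtype.ext hab) _ (fun z => rfl)
  · rintro ⟨⟨⟩, y⟩
    obtain ⟨x, M', hM', hdet, hN, -⟩ := exists_factor (N := M) hq
      (!![(q : ℤ), 0; 0, 1] * kRep M q y) 1 (by
        rw [← Matrix.det_fin_two, Matrix.det_mul, det_kRep, det_diag]) (by
        rw [← ZMod.intCast_zmod_eq_zero_iff_dvd, entry_mul]
        simp [kRep_10]) (fun h => absurd h hM)
    refine ⟨x, mkG M (M' 0 0) (M' 0 1) (M' 1 0) (M' 1 1) hdet hN, 1, 1, one_pos, one_pos, ?_, ?_⟩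
    · rw [one_smul, one_smul, coe_mkG]
      show !![(q : ℤ), 0; 0, 1] * kRep M q y = _
      rw [hM']
      congr 1
      exact mat_ext rfl rfl rfl rfl
    · show (ε (unitOf M q) : R) * wt ε (hu M q x) = 1 * 1 *
        ((ε (aMap M (mkG M (M' 0 0) (M' 0 1) (M' 1 0) (M' 1 1) hdet hN)) : Rˣ) : R)
      have h1 : unitOf M q = aMap M (mkG M (M' 0 0) (M' 0 1) (M' 1 0) (M' 1 1) hdet hN) *
          hu M q x := by
        have h2 := congrFun (congrFun hM' 0) 0
        rw [entry_mul, entry_mul, intRep_lower] at h2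
        simp only [Matrix.of_apply, Matrix.cons_val', Matrix.cons_val_zero, Matrix.cons_val_one,
          Matrix.cons_val_fin_one, zero_mul, mul_zero, add_zero, kRep_00, mul_one] at h2
        apply Units.ext
        rw [val_unitOf (isUnit_prime hq hM), Units.val_mul, val_aMap_mkG, val_hu, h2]
        push_cast
        rfl
      rw [h1, map_mul, Units.val_mul, mul_assoc, eps_wt']
      ring
  · rw [Fintype.card_prod, Fintype.card_unit, one_mul, Fintype.card_congr (hidxEquivOfNotDvd hM)]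

/-- `res ∘ tr = 1 + ε(q) U_q w` -/
theorem res_trd [Fact q.Prime] [NeZero q] (x : HM (M * q) (infl (dvd_mul_right M q) ε) A) :
    res (dvd_mul_right M q) ε A (trd hq hM ε A x) =
      x + (ε (unitOf M q) : R) • heckeH (M * q) q (infl (dvd_mul_right M q) ε) A
        (wq hq hM ε A x) := by
  have hqM : q ∣ M * q := dvd_mul_left q M
  have e1 : res (dvd_mul_right M q) ε A (trd hq hM ε A x) =
      ((trCorr hq hM).comp (resCorr (dvd_mul_right M q))).tr A
      ((tr_isWeight hq hM ε).comp (res_isWeight (dvd_mul_right M q) ε 1)) x :=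
    (Corr.tr_comp _ _ _ _ x).symm
  have e2 : x + (ε (unitOf M q) : R) • heckeH (M * q) q (infl (dvd_mul_right M q) ε) A
        (wq hq hM ε A x) =
      ((idCorr (Gamma0 (M * q))).sum ((wCorr hq hM).comp (heckeCorr (M * q) q))).tr A
      ((id_isWeight (chr (M * q) (infl (dvd_mul_right M q) ε)) 1).sum
        (((w_isWeight hq hM ε (wt ε (unitOf M q))).comp
          (hecke_isWeight (M * q) q (infl (dvd_mul_right M q) ε))).smul
            (ε (unitOf M q) : R))) x := by
    have hw2 := (w_isWeight hq hM ε (wt ε (unitOf M q))).comp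
          (hecke_isWeight (M * q) q (infl (dvd_mul_right M q) ε))
    have e3 : heckeH (M * q) q (infl (dvd_mul_right M q) ε) A (wq hq hM ε A x) =
        ((wCorr hq hM).comp (heckeCorr (M * q) q)).tr A hw2 x := (Corr.tr_comp _ _ _ _ x).symm
    rw [e3, ← Corr.tr_smul _ hw2]
    refine Eq.trans ?_ (Corr.tr_sum _ _ (id_isWeight _ 1) (hw2.smul (ε (unitOf M q) : R)) x).symm
    rw [tr_idCorr, one_smul]
  rw [e1, e2]
  symm
  have hbd := wbd hq hM
  refine tr_eq_of_inj ((idCorr_isRep _).sum ((wCorr_isRep hq hM).comp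
    (heckeCorr_isRep (M * q) q))) ((trCorr_isRep hq hM).comp (resCorr_isRep _)) ?_ _ _
    (Sum.elim (fun _ => (none, ()))
      (fun z => (some (hidxEquivOfDvd hqM z.2 + ((wb hq hM : ℤ) : ZMod q)), ()))) ?_ ?_ ?_ x
  · refine pInj_of_det 1 one_pos (fun z => by rw [Matrix.mul_one, det_kRep]) ?_
    rintro ⟨x, ⟨⟩⟩ ⟨y, ⟨⟩⟩ c hc
    rw [Matrix.mul_one, Matrix.mul_one] at hc
    rw [kRep_inj hq hM x y c hc]
  · rintro (⟨⟩ | ⟨⟨⟩, a⟩) (⟨⟩ | ⟨⟨⟩, b⟩) hab
    · rfl
    · simp at hab
    · simp at hab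
    · simp only [Sum.elim_inr, Prod.mk.injEq, Option.some.injEq, add_left_inj,
        EmbeddingLike.apply_eq_iff_eq, and_true] at hab
      rw [hab]
  · rw [Fintype.card_sum, Fintype.card_prod, Fintype.card_prod, Fintype.card_unit, one_mul, mul_one,
      card_option_zmod q, Fintype.card_congr (hidxEquivOfDvd hqM), ZMod.card, add_comm]
  · rintro (⟨⟩ | ⟨⟨⟩, a, ha⟩)
    · refine ⟨1, 1, 1, one_pos, one_pos, ?_, ?_⟩
      · rw [one_smul, one_smul, one_mul_coe]
        simp
      · rw [map_one, Units.val_one]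
        simp
    · cases a with
      | none => exact absurd rfl (ha hqM)
      | some i =>
        have hi : hidxEquivOfDvd hqM ⟨some i, ha⟩ = i := rfl
        obtain ⟨t, ht⟩ : (q : ℤ) ∣ (i.val : ℤ) + wb hq hM -
            ((i + ((wb hq hM : ℤ) : ZMod q) : ZMod q).val : ℤ) := by
          rw [← ZMod.intCast_zmod_eq_zero_iff_dvd]
          push_cast
          rw [ZMod.natCast_zmod_val, ZMod.natCast_zmod_val]
          ring
        refine ⟨mkG (M * q) (1 - M * q * t) (q * t) (-(M * q) * (M * t)) (1 + M * q * t) (by ring)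
          (by push_cast; exact ⟨-(M * t), by ring⟩), 1, q, one_pos, by exact_mod_cast hq.pos,
          ?_, ?_⟩
        · show (1 : ℤ) • (wMat hq hM * intRep q (some i)) = (q : ℤ) •
            ((((mkG (M * q) (1 - M * q * t) (q * t) (-(M * q) * (M * t)) (1 + M * q * t) _ _ :
            Gamma0 (M * q)) : SL(2, ℤ)) : Matrix (Fin 2) (Fin 2) ℤ) *
            (kRep M q (some (hidxEquivOfDvd hqM ⟨some i, ha⟩ + ((wb hq hM : ℤ) : ZMod q))) * 1))
          rw [hi, one_smul, Matrix.mul_one, coe_mkG, kRep_some, wMat, intRep_some]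
          generalize ((i + ((wb hq hM : ℤ) : ZMod q) : ZMod q).val : ℤ) = j at ht ⊢
          generalize wb hq hM = b at hbd ht ⊢
          generalize wd hq hM = d at hbd ⊢
          generalize (i.val : ℤ) = i' at ht ⊢
          have hi' : i' = q * t + j - b := by linear_combination ht
          subst hi'
          apply mat_ext <;> simp only [entry_mul, Matrix.smul_apply, smul_eq_mul, Matrix.of_apply,
            Matrix.cons_val', Matrix.cons_val_zero, Matrix.cons_val_one, Matrix.cons_val_fin_one]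
          · ring
          · ring
          · ring
          · linear_combination (q : ℤ) * hbd
        · show (1 : R) * 1 = (ε (unitOf M q) : R) * (wt ε (unitOf M q) *
            wt (infl (dvd_mul_right M q) ε) (hu (M * q) q ⟨some i, ha⟩)) *
            ((ε (aMap' (dvd_mul_right M q) (mkG (M * q) (1 - M * q * t) (q * t)
              (-(M * q) * (M * t)) (1 + M * q * t) (by ring)
              (by push_cast; exact ⟨-(M * t), by ring⟩))) : Rˣ) : R)
          have h1 : aMap' (dvd_mul_right M q) (mkG (M * q) (1 - M * q * t) (q * t)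
              (-(M * q) * (M * t)) (1 + M * q * t) (by ring)
              (by push_cast; exact ⟨-(M * t), by ring⟩)) = 1 := by
            apply Units.ext
            rw [val_aMap']
            show ((1 - M * q * t : ℤ) : ZMod M) = 1
            push_cast
            rw [ZMod.natCast_self]
            ring
          rw [h1, hu_some, wt_one, map_one, Units.val_one, ← mul_assoc, eps_wt']
          ring

end Fermat.Agent.TwHecke

end
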