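import Fermat.Agent.TwHecke.Rel3
import Mathlib.Data.Nat.Prime.Int

/-!
# Hecke operators commute with the trace and the Atkin–Lehner operator
-/

set_option autoImplicit false

noncomputable section

open Matrix.SpecialLinearGroup CongruenceSubgroup
open scoped MatrixGroups

namespace Fermat.Agent.TwHecke

open HeckePar

variable {M q p : ℕ} [hp : Fact p.Prime] {R : Type*} [CommRing R] (ε : (ZMod M)ˣ →* Rˣ)
variable {A : Type*} [AddCommGroup A] [Module R A]
variable (hq : q.Prime) (hM : ¬ q ∣ M)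

theorem intRep_00_of_dvd {N : ℕ} (x : HIdx N p) (h : p ∣ N) : intRep p x.1 0 0 = 1 := by
  obtain ⟨x, hx⟩ := x
  cases x with
  | none => exact absurd rfl (hx h)
  | some j => simp

include hq in
omit hp in
theorem prime_not_dvd_of_ne (hp : p.Prime) (hpq : p ≠ q) : ¬ p ∣ q := fun h =>
  hpq ((Nat.prime_dvd_prime_iff_eq hp hq).mp h)

include hq in
theorem dvd_iff_of_ne (hpq : p ≠ q) : p ∣ M * q ↔ p ∣ M := by
  constructor
  · intro h
    exact (hp.out.dvd_mul.mp h).resolve_right (prime_not_dvd_of_ne hq hp.out hpq)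
  · intro h
    exact h.mul_right q

/-- The Hecke operators at `p ≠ q` commute with `w_q`. -/
theorem wq_heckeH (hpq : p ≠ q) (x : HM (M * q) (infl (dvd_mul_right M q) ε) A) :
    wq hq hM ε A (heckeH (M * q) p (infl (dvd_mul_right M q) ε) A x) =
      heckeH (M * q) p (infl (dvd_mul_right M q) ε) A (wq hq hM ε A x) := by
  have hw1 := (hecke_isWeight (M * q) p (infl (dvd_mul_right M q) ε)).comp
    (w_isWeight hq hM ε (wt ε (unitOf M q)))
  have hw2 := (w_isWeight hq hM ε (wt ε (unitOf M q))).comp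
    (hecke_isWeight (M * q) p (infl (dvd_mul_right M q) ε))
  have e1 : wq hq hM ε A (heckeH (M * q) p (infl (dvd_mul_right M q) ε) A x) =
      ((heckeCorr (M * q) p).comp (wCorr hq hM)).tr A hw1 x := (Corr.tr_comp _ _ _ _ x).symm
  have e2 : heckeH (M * q) p (infl (dvd_mul_right M q) ε) A (wq hq hM ε A x) =
      ((wCorr hq hM).comp (heckeCorr (M * q) p)).tr A hw2 x := (Corr.tr_comp _ _ _ _ x).symm
  rw [e1, e2]
  have hbd := wbd hq hM
  have hpq' : ¬ (p : ℤ) ∣ (q : ℤ) := by exact_mod_cast prime_not_dvd_of_ne hq hp.out hpq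
  refine tr_eq_of_card ((heckeCorr_isRep (M * q) p).comp (wCorr_isRep hq hM))
    ((wCorr_isRep hq hM).comp (heckeCorr_isRep (M * q) p)) ?_ ?_ hw1 hw2 ?_ ?_ x
  · refine pInj_of_det ((p : ℤ) * q) (by exact_mod_cast mul_pos hp.out.pos hq.pos)
      (fun x => by rw [Matrix.det_mul, det_intRep, det_wMat]) ?_
    rintro ⟨x, ⟨⟩⟩ ⟨y, ⟨⟩⟩ c hc
    rw [← Matrix.mul_assoc] at hc
    have h1 := mul_right_cancel_of_det (det_wMat_pos hq hM) hc
    have h2 := intRep_unique hp.out 1 not_dvd_one _ _ _ (by rw [one_smul]; exact h1)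
    exact Prod.ext (Subtype.ext h2) rfl
  · refine pInj_of_det ((q : ℤ) * p) (by exact_mod_cast mul_pos hq.pos hp.out.pos)
      (fun x => by rw [Matrix.det_mul, det_intRep, det_wMat]) ?_
    rintro ⟨⟨⟩, x⟩ ⟨⟨⟩, y⟩ c hc
    have h1 := congrArg (fun z => (wMat hq hM).adjugate * z) hc
    simp only [← Matrix.mul_assoc] at h1
    rw [Matrix.adjugate_mul, det_wMat, Matrix.smul_mul, Matrix.one_mul] at h1
    have h2 := intRep_unique hp.out q hpq' _ _ _ h1
    exact Prod.ext rfl (Subtype.ext h2)
  · rintro ⟨x, ⟨⟩⟩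
    -- the conjugate matrix
    obtain ⟨m, hm, hmdet, hm10, hm00⟩ : ∃ m : Matrix (Fin 2) (Fin 2) ℤ,
        intRep p x.1 * wMat hq hM = wMat hq hM * m ∧ m 0 0 * m 1 1 - m 0 1 * m 1 0 = p * 1 ∧
          ((M * q : ℕ) : ℤ) ∣ m 1 0 ∧ ∃ e : ℤ, m 0 0 = intRep p x.1 0 0 + M * e := by
      have hdet := det_intRep p x.1
      rw [Matrix.det_fin_two] at hdet
      have hlow := intRep_lower p x.1
      generalize intRep p x.1 = r at hdet hlow ⊢
      rw [hlow, mul_zero, sub_zero] at hdet
      generalize hα : r 0 0 = α at hdet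
      generalize hβ : r 0 1 = β
      generalize hδ : r 1 1 = δ at hdet
      rw [wMat]
      generalize wb hq hM = b at hbd ⊢
      generalize wd hq hM = d at hbd ⊢
      refine ⟨!![d * (α * q + β * M * q) - b * δ * M, d * (α * b + β * q * d - b * δ);
        M * q * (-α - β * M + δ), -M * (α * b + β * q * d) + q * δ * d], ?_, ?_, ?_, ?_⟩
      · rw [eq_mul_iff_entries, entry_mul, entry_mul, entry_mul, entry_mul, hlow, hα, hβ, hδ]
        simp only [Matrix.of_apply, Matrix.cons_val', Matrix.cons_val_zero, Matrix.cons_val_one,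
          Matrix.cons_val_fin_one]
        refine ⟨?_, ?_, ?_, ?_⟩
        · linear_combination (-(α * q + β * M * q)) * hbd
        · linear_combination (-(α * b + β * q * d)) * hbd
        · linear_combination (-(δ * M * q)) * hbd
        · linear_combination (-(δ * q * d)) * hbd
      · simp only [Matrix.of_apply, Matrix.cons_val', Matrix.cons_val_zero, Matrix.cons_val_one,
          Matrix.cons_val_fin_one]
        linear_combination hdet + (α * δ * (q * d - M * b + 1)) * hbd
      · simp only [Matrix.of_apply, Matrix.cons_val', Matrix.cons_val_zero, Matrix.cons_val_one,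
          Matrix.cons_val_fin_one]
        push_cast
        exact dvd_mul_right _ _
      · simp only [Matrix.of_apply, Matrix.cons_val', Matrix.cons_val_zero, 
          Matrix.cons_val_fin_one]
        exact ⟨α * b + d * β * q - b * δ, by linear_combination α * hbd⟩
    obtain ⟨e, he⟩ := hm00
    obtain ⟨y, M', hM', hdet, hN, -⟩ := exists_factor (N := M * q) hp.out m 1 hmdet hm10 (by
      intro hpM hdvd
      have hpM' : p ∣ M := (dvd_iff_of_ne hq hpq).mp hpM
      rw [he, intRep_00_of_dvd x hpM] at hdvd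
      have h1 : (p : ℤ) ∣ M * e := (Int.natCast_dvd_natCast.mpr hpM').mul_right e
      exact not_dvd_one ((dvd_add_left h1).mp hdvd))
    have hκ : m = ((mkG (M * q) (M' 0 0) (M' 0 1) (M' 1 0) (M' 1 1) hdet hN : SL(2, ℤ)) :
        Matrix (Fin 2) (Fin 2) ℤ) * intRep p y.1 := by
      rw [hM']
      congr 1
      exact mat_ext rfl rfl rfl rfl
    generalize mkG (M * q) (M' 0 0) (M' 0 1) (M' 1 0) (M' 1 1) hdet hN = κ at hκ
    refine ⟨((), y), wHom hq hM κ, 1, 1, one_pos, one_pos, ?_, ?_⟩
    · rw [one_smul, one_smul]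
      show intRep p x.1 * wMat hq hM = _ * (wMat hq hM * intRep p y.1)
      rw [hm, hκ, ← Matrix.mul_assoc, ← Matrix.mul_assoc, wHom_spec]
    · show wt ε (unitOf M q) * wt (infl (dvd_mul_right M q) ε) (hu (M * q) p y) =
        wt (infl (dvd_mul_right M q) ε) (hu (M * q) p x) * wt ε (unitOf M q) *
          ((ε (aMap' (dvd_mul_right M q) (wHom hq hM κ)) : Rˣ) : R)
      rw [wHom_a]
      have h1 : ZMod.unitsMap (dvd_mul_right M q) (hu (M * q) p x) =
          aMap' (dvd_mul_right M q) κ * ZMod.unitsMap (dvd_mul_right M q) (hu (M * q) p y) := by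
        have h2 := congrFun (congrFun hκ 0) 0
        rw [entry_mul, intRep_lower, mul_zero, add_zero, he] at h2
        have h3 := congrArg (Int.cast : ℤ → ZMod M) h2
        push_cast at h3
        rw [ZMod.natCast_self, zero_mul, add_zero] at h3
        have h4 : ∀ z : HIdx (M * q) p, ((ZMod.unitsMap (dvd_mul_right M q) (hu (M * q) p z) :
            (ZMod M)ˣ) : ZMod M) = ((intRep p z.1 0 0 : ℤ) : ZMod M) := by
          intro z
          show ZMod.castHom (dvd_mul_right M q) (ZMod M) (hu (M * q) p z : ZMod (M * q)) = _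
          rw [val_hu, map_intCast]
        apply Units.ext
        rw [Units.val_mul, h4, h4, val_aMap', h3]
      rw [wt_infl, wt_infl, h1, mul_right_comm, wt_mul_eps, mul_comm]
  · rw [Fintype.card_prod, Fintype.card_prod, mul_comm]

/-- The Hecke operators at `p ≠ q` commute with the trace. -/
theorem trd_heckeH [NeZero q] (hpq : p ≠ q)
    (x : HM (M * q) (infl (dvd_mul_right M q) ε) A) :
    trd hq hM ε A (heckeH (M * q) p (infl (dvd_mul_right M q) ε) A x) =
      heckeH M p ε A (trd hq hM ε A x) := by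
  have hw1 := (hecke_isWeight (M * q) p (infl (dvd_mul_right M q) ε)).comp (tr_isWeight hq hM ε)
  have hw2 := (tr_isWeight hq hM ε).comp (hecke_isWeight M p ε)
  have e1 : trd hq hM ε A (heckeH (M * q) p (infl (dvd_mul_right M q) ε) A x) =
      ((heckeCorr (M * q) p).comp (trCorr hq hM)).tr A hw1 x := (Corr.tr_comp _ _ _ _ x).symm
  have e2 : heckeH M p ε A (trd hq hM ε A x) =
      ((trCorr hq hM).comp (heckeCorr M p)).tr A hw2 x := (Corr.tr_comp _ _ _ _ x).symm
  rw [e1, e2]
  have hqp : ¬ q ∣ p := fun h => hpq ((Nat.prime_dvd_prime_iff_eq hq hp.out).mp h).symm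
  have hM0 : M ≠ 0 := by rintro rfl; exact hM (dvd_zero q)
  have hMz : (M : ℤ) ≠ 0 := by exact_mod_cast hM0
  refine tr_eq_of_card ((heckeCorr_isRep (M * q) p).comp (trCorr_isRep hq hM))
    ((trCorr_isRep hq hM).comp (heckeCorr_isRep M p)) ?_ ?_ hw1 hw2 ?_ ?_ x
  · refine pInj_of_det (p : ℤ) (by exact_mod_cast hp.out.pos)
      (fun x => by rw [Matrix.det_mul, det_intRep, det_kRep, mul_one]) ?_
    rintro ⟨x, k⟩ ⟨y, l⟩ c hc
    simp only at hc
    have h1 : intRep p x.1 *
        (((kG M q k * (kG M q l)⁻¹ : Gamma0 M) : SL(2, ℤ)) : Matrix (Fin 2) (Fin 2) ℤ) =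
          ((c : SL(2, ℤ)) : Matrix (Fin 2) (Fin 2) ℤ) * intRep p y.1 := by
      refine mul_right_cancel_of_det (C := kRep M q l) (by rw [det_kRep]; exact one_pos) ?_
      rw [Matrix.mul_assoc, ← coe_kG M q l, mul_inv_mul_coe, coe_kG, coe_kG, Matrix.mul_assoc]
      exact hc
    have h2 : (kG M q k * (kG M q l)⁻¹ : SL(2, ℤ)) ∈ Gamma0 (M * q) := by
      rw [Gamma0_mem, ZMod.intCast_zmod_eq_zero_iff_dvd]
      obtain ⟨-, -, h10, -⟩ := (eq_mul_iff_entries _ _ _).mp h1
      rw [entry_mul, intRep_lower, intRep_lower, zero_mul, zero_add, mul_zero, add_zero] at h10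
      obtain ⟨z, hz⟩ := dvd_lower c
      obtain ⟨g', hg'⟩ := dvd_lower (kG M q k * (kG M q l)⁻¹)
      push_cast at hz
      rw [hz, hg'] at h10
      have h3 : intRep p x.1 1 1 * g' = q * (z * intRep p y.1 0 0) :=
        mul_left_cancel₀ hMz (by linear_combination h10)
      have h4 : (q : ℤ) ∣ intRep p x.1 1 1 * g' := ⟨_, h3⟩
      have h5 : ¬ (q : ℤ) ∣ intRep p x.1 1 1 := by
        obtain ⟨x, hx⟩ := x
        cases x with
        | none =>
          simp only [intRep_none, Matrix.of_apply, Matrix.cons_val', Matrix.cons_val_one,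
            Matrix.cons_val_fin_one]
          intro h
          have h6 : q ∣ 1 := by exact_mod_cast h
          exact hq.one_lt.ne' (Nat.dvd_one.mp h6)
        | some j =>
          simp only [intRep_some, Matrix.of_apply, Matrix.cons_val', Matrix.cons_val_one,
            Matrix.cons_val_fin_one]
          exact_mod_cast hqp
      obtain ⟨f, hf⟩ := ((Nat.prime_iff_prime_int.mp hq).dvd_or_dvd h4).resolve_left h5
      have h6 : ((kG M q k * (kG M q l)⁻¹ : SL(2, ℤ)) : Matrix (Fin 2) (Fin 2) ℤ) 1 0 =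
        M * g' := hg'
      rw [h6, hf]
      push_cast
      exact ⟨f, by ring⟩
    have h3 : k = l := kRep_inj hq hM k l ⟨_, h2⟩ (by
      show kRep M q k = (((kG M q k * (kG M q l)⁻¹ : Gamma0 M) : SL(2, ℤ)) :
        Matrix (Fin 2) (Fin 2) ℤ) * kRep M q l
      rw [← coe_kG M q l, mul_inv_mul_coe, coe_kG])
    subst h3
    rw [← Matrix.mul_assoc] at hc
    have h4 := mul_right_cancel_of_det (by rw [det_kRep]; exact one_pos) hc
    have h5 := intRep_unique hp.out 1 not_dvd_one _ _ _ (by rw [one_smul]; exact h4)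
    exact Prod.ext (Subtype.ext h5) rfl
  · refine pInj_of_det (p : ℤ) (by exact_mod_cast hp.out.pos)
      (fun x => by rw [Matrix.det_mul, det_intRep, det_kRep, one_mul]) ?_
    rintro ⟨k, x⟩ ⟨l, y⟩ c hc
    simp only at hc
    have h1 : x = y := by
      refine Subtype.ext (intRep_unique hp.out 1 not_dvd_one
        ((kRep M q k).adjugate * (((c : SL(2, ℤ)) : Matrix (Fin 2) (Fin 2) ℤ) * kRep M q l))
        _ _ ?_)
      have h2 := congrArg (fun z => (kRep M q k).adjugate * z) hc
      change (kRep M q k).adjugate * (kRep M q k * intRep p x.1) =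
        (kRep M q k).adjugate * (((c : SL(2, ℤ)) : Matrix (Fin 2) (Fin 2) ℤ) *
          (kRep M q l * intRep p y.1)) at h2
      rw [← Matrix.mul_assoc, Matrix.adjugate_mul, det_kRep, one_smul, Matrix.one_mul] at h2
      rw [one_smul, h2, Matrix.mul_assoc, Matrix.mul_assoc]
    subst h1
    rw [← Matrix.mul_assoc] at hc
    have h4 := mul_right_cancel_of_det (by rw [det_intRep]; exact_mod_cast hp.out.pos) hc
    rw [kRep_inj hq hM k l c h4]
  · rintro ⟨x, k⟩
    obtain ⟨t, ht⟩ : (M : ℤ) ∣ kRep M q k 1 0 := by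
      rw [← ZMod.intCast_zmod_eq_zero_iff_dvd, kRep_10]
    have h00 : (intRep p x.1 * kRep M q k) 0 0 = intRep p x.1 0 0 + M * (intRep p x.1 0 1 * t) := by
      rw [entry_mul, kRep_00, ht]; ring
    obtain ⟨y, M', hM', hdet, hN, -⟩ := exists_factor (N := M) hp.out
      (intRep p x.1 * kRep M q k) 1 (by
        rw [← Matrix.det_fin_two, Matrix.det_mul, det_kRep, det_intRep]) (by
        rw [entry_mul, intRep_lower, ht]
        exact ⟨intRep p x.1 1 1 * t, by ring⟩) (by
        intro hpM hdvd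
        rw [h00, intRep_00_of_dvd x (hpM.mul_right q)] at hdvd
        have h1 : (p : ℤ) ∣ M * (intRep p x.1 0 1 * t) := (Int.natCast_dvd_natCast.mpr hpM).mul_right _
        exact not_dvd_one ((dvd_add_left h1).mp hdvd))
    have hκ : intRep p x.1 * kRep M q k =
        ((mkG M (M' 0 0) (M' 0 1) (M' 1 0) (M' 1 1) hdet hN : SL(2, ℤ)) :
        Matrix (Fin 2) (Fin 2) ℤ) * intRep p y.1 := by
      rw [hM']
      congr 1
      exact mat_ext rfl rfl rfl rfl
    generalize mkG M (M' 0 0) (M' 0 1) (M' 1 0) (M' 1 1) hdet hN = g at hκ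
    obtain ⟨l, κ, hκ'⟩ := exists_kRep hq hM g
    refine ⟨(l, y), κ, 1, 1, one_pos, one_pos, ?_, ?_⟩
    · rw [one_smul, one_smul]
      show intRep p x.1 * kRep M q k = _ * (kRep M q l * intRep p y.1)
      rw [hκ, hκ', Matrix.mul_assoc]
    · show 1 * wt ε (hu M p y) = wt (infl (dvd_mul_right M q) ε) (hu (M * q) p x) * 1 *
          ((ε (aMap' (dvd_mul_right M q) κ) : Rˣ) : R)
      have h1 : ZMod.unitsMap (dvd_mul_right M q) (hu (M * q) p x) =
          aMap' (dvd_mul_right M q) κ * hu M p y := by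
        have h2 : (intRep p x.1 * kRep M q k) 0 0 =
            (((κ : SL(2, ℤ)) : Matrix (Fin 2) (Fin 2) ℤ) * (kRep M q l * intRep p y.1)) 0 0 := by
          rw [hκ, hκ', Matrix.mul_assoc]
        obtain ⟨s, hs⟩ : (M : ℤ) ∣ kRep M q l 1 0 := by
          rw [← ZMod.intCast_zmod_eq_zero_iff_dvd, kRep_10]
        rw [h00, entry_mul, entry_mul, entry_mul, intRep_lower, kRep_00, hs] at h2
        have h3 := congrArg (Int.cast : ℤ → ZMod M) h2
        push_cast at h3
        simp only [ZMod.natCast_self, zero_mul, mul_zero, add_zero, one_mul] at h3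
        apply Units.ext
        rw [Units.val_mul, val_aMap', val_hu]
        show ZMod.castHom (dvd_mul_right M q) (ZMod M) (hu (M * q) p x : ZMod (M * q)) = _
        rw [val_hu, map_intCast, h3]
      rw [wt_infl, h1, mul_one, wt_mul_eps, one_mul]
  · rw [Fintype.card_prod, Fintype.card_prod, mul_comm,
      Fintype.card_congr (hidxEquiv (M := M) (M' := M * q) (p := p) (dvd_iff_of_ne hq hpq))]

end Fermat.Agent.TwHecke

end
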